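import Mathlib
import Fermat.Prelude.Def_ModularCurve_X0
import Fermat.Prelude.Def_ModularCurve_LaurentCoeff
import Fermat.Agent.S20.Defs

set_option autoImplicit false

open UpperHalfPlane hiding I
open Complex Filter Function
open scoped Topology Manifold MatrixGroups PowerSeries.WithPiTopology

namespace Fermat.Agent.S24

namespace JqExp

/-- A function given on the open unit disc by a convergent power series has that power series
as its formal Taylor series at `0`. -/
theorem hasFPowerSeriesOnBall_of_hasSum {g : ℂ → ℂ} {c : ℕ → ℂ}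
    (h : ∀ q : ℂ, ‖q‖ < 1 → HasSum (fun n => c n * q ^ n) (g q)) :
    HasFPowerSeriesOnBall g (FormalMultilinearSeries.ofScalars ℂ c) 0 1 := by
  constructor
  · refine le_of_forall_lt_imp_le_of_dense fun r hr ↦ ?_
    lift r to NNReal using hr.ne_top
    apply FormalMultilinearSeries.le_radius_of_summable
    have hr' : ‖((r : ℝ) : ℂ)‖ < 1 := by
      rw [Complex.norm_real, Real.norm_eq_abs, NNReal.abs_eq]
      exact_mod_cast hr
    have := (h (r : ℝ) hr').summable.norm
    simpa [FormalMultilinearSeries.ofScalars_norm, norm_mul, norm_pow] using this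
  · simp
  · intro y hy
    rw [← ENNReal.coe_one, Metric.eball_coe, NNReal.coe_one, mem_ball_zero_iff] at hy
    simpa [mul_comm] using h y hy

/-- Uniqueness of power series coefficients. -/
theorem coeff_eq_iteratedDeriv {g : ℂ → ℂ} {c : ℕ → ℂ}
    (h : ∀ q : ℂ, ‖q‖ < 1 → HasSum (fun n => c n * q ^ n) (g q)) (n : ℕ) :
    c n = iteratedDeriv n g 0 / (n.factorial : ℂ) := by
  have h1 := (hasFPowerSeriesOnBall_of_hasSum h).hasFPowerSeriesAt
  have h2 := h1.analyticAt.hasFPowerSeriesAt
  have := h1.eq_formalMultilinearSeries h2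
  have h3 := congrFun (FormalMultilinearSeries.ofScalars_series_injective ℂ ℂ this) n
  exact h3

/-- Locally uniform convergence of holomorphic functions implies locally uniform convergence
of all iterated derivatives. -/
theorem tendsto_iteratedDeriv {ι : Type*} {φ : Filter ι} {F : ι → ℂ → ℂ} {f : ℂ → ℂ}
    {U : Set ℂ} (hU : IsOpen U) (hf : TendstoLocallyUniformlyOn F f φ U)
    (hF : ∀ᶠ n in φ, DifferentiableOn ℂ (F n) U) (k : ℕ) :
    TendstoLocallyUniformlyOn (fun n => iteratedDeriv k (F n)) (iteratedDeriv k f) φ U ∧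
      ∀ᶠ n in φ, DifferentiableOn ℂ (iteratedDeriv k (F n)) U := by
  induction k with
  | zero =>
    refine ⟨?_, ?_⟩
    · simpa [iteratedDeriv_zero] using hf
    · simpa [iteratedDeriv_zero] using hF
  | succ k ih =>
    refine ⟨?_, ?_⟩
    · have := ih.1.deriv ih.2 hU
      simpa [iteratedDeriv_succ, Function.comp_def] using this
    · filter_upwards [ih.2] with n hn
      rw [iteratedDeriv_succ]
      exact hn.deriv hU

/-- The finite partial products of the eta product, as integer polynomials. -/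
noncomputable def etaPoly (s : Finset ℕ) : Polynomial ℤ :=
  ∏ n ∈ s, (1 - Polynomial.X ^ (n + 1))

theorem etaPoly_coe (s : Finset ℕ) :
    ((etaPoly s : Polynomial ℤ) : PowerSeries ℤ) = ∏ n ∈ s, (1 - PowerSeries.X ^ (n + 1)) := by
  have : ∀ p : Polynomial ℤ, (p : PowerSeries ℤ) = Polynomial.coeToPowerSeries.ringHom p :=
    fun p => rfl
  rw [this, etaPoly, map_prod]
  refine Finset.prod_congr rfl fun n _ => ?_
  simp

theorem etaPoly_aeval (s : Finset ℕ) (q : ℂ) :
    Polynomial.aeval q (etaPoly s) = ∏ n ∈ s, (1 - q ^ (n + 1)) := by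
  simp [etaPoly, map_prod]

theorem tendsto_coeff_etaPoly (k : ℕ) :
    Tendsto (fun s : Finset ℕ => (((etaPoly s).coeff k : ℤ) : ℂ)) atTop
      (𝓝 ((PowerSeries.coeff k ModularCurve.etaProd : ℤ) : ℂ)) := by
  have h1 : HasProd (fun n : ℕ => (1 : PowerSeries ℤ) - PowerSeries.X ^ (n + 1))
      ModularCurve.etaProd :=
    (PowerSeries.WithPiTopology.multipliable_one_sub_X_pow ℤ).hasProd
  have h2 : Tendsto (fun s : Finset ℕ => ∏ n ∈ s, ((1 : PowerSeries ℤ) - PowerSeries.X ^ (n + 1)))
      atTop (𝓝 ModularCurve.etaProd) := h1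
  have h3 := ((PowerSeries.WithPiTopology.continuous_coeff ℤ k).tendsto _).comp h2
  have h4 : Continuous (fun n : ℤ => (n : ℂ)) := continuous_of_discreteTopology
  have h5 := (h4.tendsto _).comp h3
  refine h5.congr fun s => ?_
  simp only [Function.comp_apply]
  rw [← etaPoly_coe, Polynomial.coeff_coe]

theorem etaPoly_hasSum (s : Finset ℕ) (q : ℂ) :
    HasSum (fun n => (((etaPoly s).coeff n : ℤ) : ℂ) * q ^ n) (∏ n ∈ s, (1 - q ^ (n + 1))) := by
  have h : HasSum (fun n => (((etaPoly s).coeff n : ℤ) : ℂ) * q ^ n)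
      (∑ n ∈ (etaPoly s).support, (((etaPoly s).coeff n : ℤ) : ℂ) * q ^ n) :=
    hasSum_sum_of_ne_finset_zero (by
      intro b hb
      simp [Polynomial.notMem_support_iff.mp hb])
  convert h using 1
  rw [← etaPoly_aeval, Polynomial.aeval_def, Polynomial.eval₂_eq_sum, Polynomial.sum_def]
  simp

/-- (T1) The formal eta product of the Prelude is the Taylor series of the analytic Euler
product on the open unit disc. -/
theorem etaProd_hasSum (q : ℂ) (hq : ‖q‖ < 1) :
    HasSum (fun n : ℕ => ((PowerSeries.coeff n ModularCurve.etaProd : ℤ) : ℂ) * q ^ n)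
      (∏' n : ℕ, (1 - q ^ (n + 1))) := by
  set f : ℂ → ℂ := fun q => ∏' n : ℕ, (1 - q ^ (n + 1)) with hf
  have hloc : TendstoLocallyUniformlyOn
      (fun (s : Finset ℕ) (q : ℂ) => ∏ n ∈ s, (1 - q ^ (n + 1))) f atTop (Metric.ball 0 1) :=
    ModularForm.multipliableLocallyUniformlyOn_one_sub_pow.hasProdLocallyUniformlyOn
  have hdiff : ∀ s : Finset ℕ,
      DifferentiableOn ℂ (fun q : ℂ => ∏ n ∈ s, (1 - q ^ (n + 1))) (Metric.ball 0 1) :=
    fun s => DifferentiableOn.fun_finsetProd (fun _ _ ↦ by fun_prop)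
  have hfd : DifferentiableOn ℂ f (Metric.ball 0 1) :=
    ModularForm.differentiableOn_tprod_one_sub_pow
  have key : ∀ k : ℕ, ((PowerSeries.coeff k ModularCurve.etaProd : ℤ) : ℂ)
      = iteratedDeriv k f 0 / (k.factorial : ℂ) := by
    intro k
    have h1 := (tendsto_iteratedDeriv Metric.isOpen_ball hloc (.of_forall hdiff) k).1.tendsto_at
      (Metric.mem_ball_self one_pos)
    have h2 : ∀ s : Finset ℕ, (((etaPoly s).coeff k : ℤ) : ℂ)
        = iteratedDeriv k (fun q : ℂ => ∏ n ∈ s, (1 - q ^ (n + 1))) 0 / (k.factorial : ℂ) :=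
      fun s => coeff_eq_iteratedDeriv (fun q _ => etaPoly_hasSum s q) k
    have h3 := tendsto_coeff_etaPoly k
    have h4 := h1.div_const (k.factorial : ℂ)
    exact tendsto_nhds_unique h3 (h4.congr fun s => (h2 s).symm)
  have := Complex.hasSum_taylorSeries_on_ball hfd (z := q) (by simpa using hq)
  refine this.congr_fun fun n => ?_
  rw [key]
  simp only [sub_zero, smul_eq_mul]
  ring

/-- Cauchy product for evaluations of formal power series. -/
theorem hasSum_coeff_mul {p p' : PowerSeries ℂ} {q A B : ℂ}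
    (h : HasSum (fun n => PowerSeries.coeff n p * q ^ n) A)
    (h' : HasSum (fun n => PowerSeries.coeff n p' * q ^ n) B) :
    HasSum (fun n => PowerSeries.coeff n (p * p') * q ^ n) (A * B) := by
  have hn := summable_norm_iff.mpr h.summable
  have hn' := summable_norm_iff.mpr h'.summable
  have hs := summable_norm_sum_mul_antidiagonal_of_summable_norm hn hn'
  have he := tsum_mul_tsum_eq_tsum_sum_antidiagonal_of_summable_norm hn hn'
  rw [h.tsum_eq, h'.tsum_eq] at he
  have hfun : (fun n => PowerSeries.coeff n (p * p') * q ^ n) = fun n =>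
      ∑ kl ∈ Finset.HasAntidiagonal.antidiagonal n,
        (PowerSeries.coeff kl.1 p * q ^ kl.1) * (PowerSeries.coeff kl.2 p' * q ^ kl.2) := by
    funext n
    rw [PowerSeries.coeff_mul, Finset.sum_mul]
    refine Finset.sum_congr rfl fun kl hkl => ?_
    rw [← Finset.HasAntidiagonal.mem_antidiagonal.mp hkl, pow_add]
    ring
  rw [hfun, he]
  exact (summable_norm_iff.mp hs).hasSum

theorem hasSum_coeff_one (q : ℂ) :
    HasSum (fun n => PowerSeries.coeff n (1 : PowerSeries ℂ) * q ^ n) 1 := by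
  have := hasSum_single (f := fun n => PowerSeries.coeff n (1 : PowerSeries ℂ) * q ^ n) 0
    (by intro n hn; simp [PowerSeries.coeff_one, hn])
  simpa using this

theorem hasSum_coeff_pow {p : PowerSeries ℂ} {q A : ℂ}
    (h : HasSum (fun n => PowerSeries.coeff n p * q ^ n) A) (k : ℕ) :
    HasSum (fun n => PowerSeries.coeff n (p ^ k) * q ^ n) (A ^ k) := by
  induction k with
  | zero => simpa using hasSum_coeff_one q
  | succ k ih => simpa [pow_succ] using hasSum_coeff_mul ih h

/-- Evaluation of the formal inverse of a power series converging on the unit disc to a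
nowhere vanishing holomorphic function. -/
theorem hasSum_coeff_inv {U V : PowerSeries ℂ} (hUV : U * V = 1) {G : ℂ → ℂ}
    (hU : ∀ q : ℂ, ‖q‖ < 1 → HasSum (fun n => PowerSeries.coeff n U * q ^ n) (G q))
    (hG : ∀ q : ℂ, ‖q‖ < 1 → G q ≠ 0) (hGd : DifferentiableOn ℂ G (Metric.ball 0 1)) :
    ∀ q : ℂ, ‖q‖ < 1 → HasSum (fun n => PowerSeries.coeff n V * q ^ n) (G q)⁻¹ := by
  have hid : DifferentiableOn ℂ (fun q => (G q)⁻¹) (Metric.ball 0 1) :=
    hGd.inv (fun q hq => hG q (by simpa using hq))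
  set T : PowerSeries ℂ := PowerSeries.mk fun n =>
    iteratedDeriv n (fun q => (G q)⁻¹) 0 / (n.factorial : ℂ) with hT
  have hTs : ∀ q : ℂ, ‖q‖ < 1 → HasSum (fun n => PowerSeries.coeff n T * q ^ n) (G q)⁻¹ := by
    intro q hq
    have := Complex.hasSum_taylorSeries_on_ball hid (z := q) (by simpa using hq)
    refine this.congr_fun fun n => ?_
    simp only [hT, PowerSeries.coeff_mk, sub_zero, smul_eq_mul]
    ring
  have hTU : T * U = 1 := by
    ext n
    have h1 : ∀ q : ℂ, ‖q‖ < 1 →
        HasSum (fun n => PowerSeries.coeff n (T * U) * q ^ n) ((fun _ => (1 : ℂ)) q) := by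
      intro q hq
      have := hasSum_coeff_mul (hTs q hq) (hU q hq)
      rwa [inv_mul_cancel₀ (hG q hq)] at this
    have h2 : ∀ q : ℂ, ‖q‖ < 1 →
        HasSum (fun n => PowerSeries.coeff n (1 : PowerSeries ℂ) * q ^ n) ((fun _ => (1 : ℂ)) q) :=
      fun q _ => hasSum_coeff_one q
    rw [coeff_eq_iteratedDeriv h1 n, coeff_eq_iteratedDeriv h2 n]
  have hTV : T = V := by
    calc T = T * (U * V) := by rw [hUV, mul_one]
      _ = (T * U) * V := by ring
      _ = V := by rw [hTU, one_mul]
  rw [← hTV]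
  exact hTs

/-- The `q`-expansion of `E₄` has the coefficients of the formal Prelude series. -/
theorem E4_hasSum (τ : ℍ) :
    HasSum (fun n : ℕ => ((PowerSeries.coeff n ModularCurve.eisenstein4 : ℤ) : ℂ)
      * Function.Periodic.qParam 1 τ ^ n) (ModularForm.E₄ τ) := by
  have h := ModularForm.hasSum_qExpansion (f := ModularForm.E₄) one_pos
    _root_.one_mem_strictPeriods_SL τ
  refine h.congr_fun fun n => ?_
  congr 1
  rw [EisensteinSeries.E_qExpansion_coeff _ ⟨2, rfl⟩, ModularCurve.eisenstein4,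
    PowerSeries.coeff_mk]
  split_ifs with hn
  · simp
  · rw [show bernoulli 4 = -1 / 30 by decide +kernel]
    simp only [ArithmeticFunction.sigma_apply]
    push_cast
    norm_num

theorem tprod_one_sub_pow_ne_zero {q : ℂ} (hq : ‖q‖ < 1) : ∏' n : ℕ, (1 - q ^ (n + 1)) ≠ 0 := by
  have h := tprod_one_add_ne_zero_of_summable (f := fun n : ℕ => -q ^ (n + 1)) ?_ ?_
  · simpa [sub_eq_add_neg] using h
  · intro n hn
    have h1 : q ^ (n + 1) = 1 := by
      have : 1 + -q ^ (n + 1) = 0 := hn
      linear_combination -this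
    have h2 : ‖q‖ ^ (n + 1) = 1 := by rw [← norm_pow, h1, norm_one]
    have h3 : ‖q‖ ^ (n + 1) < 1 := pow_lt_one₀ (norm_nonneg _) hq (Nat.succ_ne_zero n)
    linarith
  · simpa using (summable_nat_add_iff 1).mpr (summable_geometric_of_lt_one (norm_nonneg _) hq)

/-- The formal eta product over `ℂ`. -/
noncomputable def etaC : PowerSeries ℂ := ModularCurve.etaProd.map (Int.castRingHom ℂ)

theorem etaC_hasSum (q : ℂ) (hq : ‖q‖ < 1) :
    HasSum (fun n : ℕ => PowerSeries.coeff n etaC * q ^ n) (∏' n : ℕ, (1 - q ^ (n + 1))) := by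
  simpa [etaC, PowerSeries.coeff_map] using etaProd_hasSum q hq

theorem etaUnitInv_hasSum (q : ℂ) (hq : ‖q‖ < 1) :
    HasSum (fun n : ℕ => PowerSeries.coeff n
      (ModularCurve.dedekindEtaUnitInv.map (Int.castRingHom ℂ)) * q ^ n)
      ((∏' n : ℕ, (1 - q ^ (n + 1))) ^ 24)⁻¹ := by
  have hUV : etaC ^ 24 * ModularCurve.dedekindEtaUnitInv.map (Int.castRingHom ℂ) = 1 := by
    have h := congrArg (PowerSeries.map (Int.castRingHom ℂ)) ModularCurve.dedekindEtaUnit_mul_inv
    rw [map_mul, map_one, ModularCurve.dedekindEtaUnit, map_pow] at h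
    exact h
  refine hasSum_coeff_inv (G := fun q => (∏' n : ℕ, (1 - q ^ (n + 1))) ^ 24) hUV
    (fun q hq => hasSum_coeff_pow (etaC_hasSum q hq) 24)
    (fun q hq => pow_ne_zero _ (tprod_one_sub_pow_ne_zero hq))
    (ModularForm.differentiableOn_tprod_one_sub_pow.fun_pow 24) q hq

end JqExp

open JqExp in
/-- (T1) The formal eta product of the Prelude is the Taylor series of the analytic Euler
product on the open unit disc. -/
theorem etaProd_hasSum (q : ℂ) (hq : ‖q‖ < 1) :
    HasSum (fun n : ℕ => ((PowerSeries.coeff n ModularCurve.etaProd : ℤ) : ℂ) * q ^ n)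
      (∏' n : ℕ, (1 - q ^ (n + 1))) :=
  JqExp.etaProd_hasSum q hq

open JqExp in
/-- (T2) `q · j(τ) = ∑ₙ jNumₙ qⁿ`, where `jNum` is the formal Prelude series and
`q = exp (2 π i τ)`. -/
theorem jNum_hasSum (τ : ℍ) :
    HasSum (fun n : ℕ => ((PowerSeries.coeff n ModularCurve.jNum : ℤ) : ℂ)
      * Function.Periodic.qParam 1 τ ^ n)
      (Function.Periodic.qParam 1 τ * Fermat.Agent.S20.jFun τ) := by
  set q : ℂ := Function.Periodic.qParam 1 τ with hq
  have hq1 : ‖q‖ < 1 := Function.Periodic.norm_qParam_lt_one one_pos τ.im_pos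
  have hq0 : q ≠ 0 := Function.Periodic.qParam_ne_zero _
  have hE : HasSum (fun n : ℕ => PowerSeries.coeff n
      (ModularCurve.eisenstein4.map (Int.castRingHom ℂ)) * q ^ n) (ModularForm.E₄ τ) := by
    simpa [PowerSeries.coeff_map] using E4_hasSum τ
  have h := hasSum_coeff_mul (hasSum_coeff_pow hE 3) (etaUnitInv_hasSum q hq1)
  have hval : q * Fermat.Agent.S20.jFun τ
      = ModularForm.E₄ τ ^ 3 * ((∏' n : ℕ, (1 - q ^ (n + 1))) ^ 24)⁻¹ := by
    have hΔ : ModularForm.discriminant τ = q * (∏' n : ℕ, (1 - q ^ (n + 1))) ^ 24 := by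
      rw [ModularForm.discriminant_eq_q_prod, (ModularForm.multipliable_one_sub_pow hq1).tprod_pow]
    rw [Fermat.Agent.S20.jFun, hΔ]
    have := tprod_one_sub_pow_ne_zero hq1
    field_simp
  rw [hval]
  refine h.congr_fun fun n => ?_
  congr 1
  rw [ModularCurve.jNum, ← map_pow, ← map_mul, PowerSeries.coeff_map]
  simp

/-- The coefficients of the Prelude Laurent series `jq` in terms of `jNum`. -/
theorem coeff_jq (m : ℕ) :
    ModularCurve.jq.coeff ((m : ℤ) - 1) = ((PowerSeries.coeff m ModularCurve.jNum : ℤ) : ℚ) := by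
  rw [ModularCurve.jq, HahnSeries.coeff_single_mul, one_mul, sub_neg_eq_add, sub_add_cancel,
    HahnSeries.ofPowerSeries_apply_coeff, ModularCurve.jNumQ, PowerSeries.coeff_map]
  simp

theorem qParam_mul_nat (d : ℕ) (τ τ' : ℍ) (h : (τ' : ℂ) = d * τ) :
    Function.Periodic.qParam 1 (τ' : ℂ) = Function.Periodic.qParam 1 (τ : ℂ) ^ d := by
  rw [Function.Periodic.qParam, Function.Periodic.qParam, h, ← Complex.exp_nat_mul]
  congr 1
  push_cast
  ring

/-- (T2b) The Laurent expansion of `j(dτ)` in `q = exp (2 π i τ)` has the coefficients of the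
Prelude Laurent series `qExpand ℚ d jq`. Stated after multiplication by `q ^ d` to stay in
`ℕ`-indexed sums; `τ'` is any point with `τ' = d τ`. -/
theorem jq_hasSum (d : ℕ) [NeZero d] (τ τ' : ℍ) (h : (τ' : ℂ) = d * τ) :
    HasSum (fun n : ℕ => (((ModularCurve.qExpand ℚ d ModularCurve.jq).coeff ((n : ℤ) - d) : ℚ) : ℂ)
      * Function.Periodic.qParam 1 τ ^ n)
      (Function.Periodic.qParam 1 τ ^ d * Fermat.Agent.S20.jFun τ') := by
  have h1 := jNum_hasSum τ'
  rw [qParam_mul_nat d τ τ' h] at h1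
  have hd : d ≠ 0 := NeZero.ne d
  have hinj : Function.Injective (fun m : ℕ => d * m) :=
    fun a b hab => Nat.eq_of_mul_eq_mul_left (Nat.pos_of_ne_zero hd) hab
  rw [← hinj.hasSum_iff]
  · refine h1.congr_fun fun m => ?_
    simp only [Function.comp_apply]
    rw [show ((d * m : ℕ) : ℤ) - d = (d : ℤ) * ((m : ℤ) - 1) by push_cast; ring,
      ModularCurve.qExpand_coeff_mul, coeff_jq, pow_mul]
    simp
  · intro n hn
    rw [ModularCurve.qExpand_coeff_of_not_dvd]
    · simp
    · rintro ⟨c, hc⟩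
      apply hn
      have hc' : (n : ℤ) = d * (c + 1) := by linarith
      have hc0 : 0 ≤ c + 1 := by
        by_contra hneg
        push Not at hneg
        have : (d : ℤ) * (c + 1) < 0 :=
          mul_neg_of_pos_of_neg (by exact_mod_cast Nat.pos_of_ne_zero hd) hneg
        omega
      refine ⟨(c + 1).toNat, ?_⟩
      zify
      rw [Int.toNat_of_nonneg hc0]
      exact hc'.symm

end Fermat.Agent.S24
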