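import Mathlib
import Fermat.Prelude.Def_ModularCurve_ArithmeticGalois
import Fermat.Prelude.Def_AlgebraicCurve_CanonicalDivisor

set_option autoImplicit false

/-! # S24: shared definitions for the modular side

`FF L N` is the function field of `X₀(N)` over `L` in the formal `q`-expansion model of the
Prelude (`laurentBaseChange L (modularFunctionFieldFull N)`); for `L = AlgebraicClosure ℚ` this
is definitionally the field of the statement S24.  `jBC L N` is the `j`-invariant in it. -/

namespace Fermat.Agent.S24

open ModularCurve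

/-- the function field of `X₀(N)` over `L` (formal `q`-expansion model) -/
abbrev FF (L : Type*) [Field L] [Algebra ℚ L] (N : ℕ) : Type _ :=
  ↥(laurentBaseChange L (modularFunctionFieldFull N))

/-- the `j`-invariant as an element of `FF L N` -/
noncomputable def jBC (L : Type*) [Field L] [Algebra ℚ L] (N : ℕ) [NeZero N] : FF L N :=
  ⟨coeffEmb L jq, coeffEmb_mem_laurentBaseChange L (modularFunctionField_le_full N (jq_mem N))⟩

theorem coe_jBC (L : Type*) [Field L] [Algebra ℚ L] (N : ℕ) [NeZero N] :
    ((jBC L N : FF L N) : LaurentSeries L) = coeffEmb L jq := rfl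

/-- `j(q^d)` as an element of `FF L N`, for `d ∣ N` -/
noncomputable def jdBC (L : Type*) [Field L] [Algebra ℚ L] (N : ℕ) (d : ℕ) [NeZero d]
    (hd : d ∣ N) : FF L N :=
  ⟨coeffEmb L (qExpand ℚ d jq), coeffEmb_mem_laurentBaseChange L (jqd_mem_full N hd)⟩

theorem coe_jdBC (L : Type*) [Field L] [Algebra ℚ L] (N : ℕ) (d : ℕ) [NeZero d]
    (hd : d ∣ N) :
    ((jdBC L N d hd : FF L N) : LaurentSeries L) = coeffEmb L (qExpand ℚ d jq) := rfl

end Fermat.Agent.S24
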