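import Mathlib
import Fermat.Prelude.Def_AlgebraicCurve_CanonicalDivisor

set_option autoImplicit false
set_option linter.unusedSectionVars false

namespace Fermat.Agent.S24

open AlgebraicCurve IntermediateField KaehlerDifferential
open scoped Polynomial RatFunc

namespace PlacesFF

open IsDedekindDomain WithZero

section General

variable {K F : Type*} [Field K] [Field F] [Algebra K F]
variable {R : Type*} [CommRing R] [IsDedekindDomain R] [Algebra R F] [IsFractionRing R F]

/-- If the valuation subring of a place is the valuation subring of a prime of a Dedekind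
domain, then the two order functions agree. -/
theorem ord_eq_of_toValuationSubring_eq (v : Place K F) (P : HeightOneSpectrum R)
    (h : v.toValuationSubring = (P.valuation F).valuationSubring) (f : F) :
    v.ord f = -(WithZero.log (P.valuation F f)) := by
  rcases eq_or_ne f 0 with rfl | hf
  · simp
  obtain ⟨π, hπ⟩ := IsDiscreteValuationRing.exists_irreducible v.toValuationSubring
  have hmem : ∀ x : F, x ∈ v.toValuationSubring ↔ P.valuation F x ≤ 1 := fun x => by
    rw [h]; exact Valuation.mem_valuationSubring_iff _ _
  have hunit : ∀ u : v.toValuationSubringˣ,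
      P.valuation F ((u : v.toValuationSubring) : F) = 1 := by
    intro u
    have h1 := (hmem _).1 (u : v.toValuationSubring).2
    have h2 := (hmem _).1 ((u⁻¹ : v.toValuationSubringˣ) : v.toValuationSubring).2
    have h3 : ((u : v.toValuationSubring) : F) * (((u⁻¹ : v.toValuationSubringˣ) :
        v.toValuationSubring) : F) = 1 := by
      exact congrArg Subtype.val (u.mul_inv)
    have h4 : P.valuation F ((u : v.toValuationSubring) : F) *
        P.valuation F (((u⁻¹ : v.toValuationSubringˣ) : v.toValuationSubring) : F) = 1 := by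
      rw [← map_mul, h3, map_one]
    exact le_antisymm h1 (by
      by_contra hlt
      rw [not_le] at hlt
      have : P.valuation F ((u : v.toValuationSubring) : F) *
          P.valuation F (((u⁻¹ : v.toValuationSubringˣ) : v.toValuationSubring) : F) < 1 :=
        mul_lt_one_of_nonneg_of_lt_one_left zero_le hlt h2
      rw [h4] at this
      exact lt_irrefl _ this)
  have hπF : (π : F) ≠ 0 := by
    simpa [ne_eq, ZeroMemClass.coe_eq_zero] using hπ.ne_zero
  have hπle : P.valuation F (π : F) ≤ 1 := (hmem _).1 π.2
  have hπval : P.valuation F (π : F) = exp (-1 : ℤ) := by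
    obtain ⟨ϖ, hϖ⟩ := P.valuation_exists_uniformizer F
    have hϖ0 : ϖ ≠ 0 := by
      rintro rfl
      rw [map_zero] at hϖ
      exact WithZero.exp_ne_zero hϖ.symm
    obtain ⟨u, hu⟩ := v.exists_unit_mul_zpow hϖ0 hπ
    have h5 : P.valuation F ϖ = P.valuation F (π : F) ^ (v.ord ϖ) := by
      conv_lhs => rw [hu]
      rw [map_mul, hunit, one_mul, map_zpow₀]
    have hne : P.valuation F (π : F) ≠ 0 := (Valuation.ne_zero_iff _).mpr hπF
    have h6 : (-1 : ℤ) = v.ord ϖ * WithZero.log (P.valuation F (π : F)) := by
      have := congrArg WithZero.log h5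
      rw [hϖ, WithZero.log_exp, WithZero.log_zpow, smul_eq_mul] at this
      exact this
    have h7 : WithZero.log (P.valuation F (π : F)) ≤ 0 := by
      rw [← WithZero.log_one]
      exact WithZero.log_le_log hne one_ne_zero |>.2 hπle
    have h8 : WithZero.log (P.valuation F (π : F)) = -1 := by
      have hu' : IsUnit (WithZero.log (P.valuation F (π : F))) :=
        IsUnit.of_mul_eq_one (-(v.ord ϖ)) (by linarith)
      rcases Int.isUnit_iff.1 hu' with h9 | h9
      · rw [h9] at h7; omega
      · exact h9
    rw [← WithZero.exp_log hne, h8]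
  obtain ⟨u, hu⟩ := v.exists_unit_mul_zpow hf hπ
  conv_rhs => rw [hu]
  rw [map_mul, hunit, one_mul, map_zpow₀, hπval, WithZero.log_zpow, WithZero.log_exp]
  simp

end General

end PlacesFF

section FF

variable (K F : Type*) [Field K] [IsAlgClosed K] [CharZero K] [Field F] [Algebra K F]
  [Algebra K[X] F] [Algebra K⟮X⟯ F] [IsScalarTower K K[X] F] [IsScalarTower K[X] K⟮X⟯ F]
  [FunctionField K F]

namespace PlacesFF

open IsDedekindDomain WithZero

omit [IsAlgClosed K] [CharZero K] [Algebra K⟮X⟯ F] [IsScalarTower K[X] K⟮X⟯ F]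
  [FunctionField K F] in
/-- Polynomials are integral at a place where `X` is integral. -/
theorem algebraMap_mem_of_X_mem (v : Place K F)
    (hv : algebraMap K[X] F Polynomial.X ∈ v.toValuationSubring) (p : K[X]) :
    algebraMap K[X] F p ∈ v.toValuationSubring := by
  induction p using Polynomial.induction_on with
  | C a =>
    rw [← Polynomial.algebraMap_eq, ← IsScalarTower.algebraMap_apply K K[X] F]
    exact v.algebraMap_mem' a
  | add p q hp hq => rw [map_add]; exact v.toValuationSubring.add_mem _ _ hp hq
  | monomial n a h =>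
    rw [pow_succ, ← mul_assoc, map_mul]
    exact v.toValuationSubring.mul_mem _ _ h hv

omit [IsAlgClosed K] [CharZero K] [Algebra K⟮X⟯ F] [IsScalarTower K[X] K⟮X⟯ F]
  [FunctionField K F] in
/-- The ring of integers is contained in the valuation ring of a place where `X` is integral. -/
theorem mem_of_mem_ringOfIntegers (v : Place K F)
    (hv : algebraMap K[X] F Polynomial.X ∈ v.toValuationSubring) (b : F)
    (hb : b ∈ FunctionField.ringOfIntegers K F) : b ∈ v.toValuationSubring := by
  have hint : IsIntegral K[X] b := hb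
  obtain ⟨p, hmonic, hp⟩ := hint
  let φ : K[X] →+* v.toValuationSubring :=
    (algebraMap K[X] F).codRestrict v.toValuationSubring.toSubring
      (algebraMap_mem_of_X_mem K F v hv)
  have hint' : IsIntegral v.toValuationSubring b := by
    refine ⟨p.map φ, hmonic.map φ, ?_⟩
    rw [Polynomial.eval₂_map]
    exact hp
  obtain ⟨y, hy⟩ := IsIntegrallyClosed.isIntegral_iff.1 hint'
  rw [← hy]
  exact y.2

/-- The inclusion of the ring of integers in the valuation ring of a place. -/
noncomputable def incl (v : Place K F)
    (hv : algebraMap K[X] F Polynomial.X ∈ v.toValuationSubring) :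
    FunctionField.ringOfIntegers K F →+* v.toValuationSubring where
  toFun b := ⟨(b : F), mem_of_mem_ringOfIntegers K F v hv _ b.2⟩
  map_one' := rfl
  map_mul' _ _ := rfl
  map_zero' := rfl
  map_add' _ _ := rfl

/-- The prime ideal of the ring of integers cut out by a place. -/
noncomputable def primeIdeal (v : Place K F)
    (hv : algebraMap K[X] F Polynomial.X ∈ v.toValuationSubring) :
    Ideal (FunctionField.ringOfIntegers K F) :=
  (IsLocalRing.maximalIdeal v.toValuationSubring).comap (incl K F v hv)

omit [IsAlgClosed K] [CharZero K] [Algebra K⟮X⟯ F] [IsScalarTower K[X] K⟮X⟯ F]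
  [FunctionField K F] in
theorem isUnit_incl_of_notMem (v : Place K F)
    (hv : algebraMap K[X] F Polynomial.X ∈ v.toValuationSubring)
    (s : FunctionField.ringOfIntegers K F) (hs : s ∉ primeIdeal K F v hv) :
    IsUnit (incl K F v hv s) := by
  by_contra hnu
  exact hs hnu

omit [IsAlgClosed K] [CharZero K] [Algebra K⟮X⟯ F] [IsScalarTower K[X] K⟮X⟯ F]
  [FunctionField K F] in
/-- A quotient `n / d` with `d` outside the prime ideal lies in the valuation ring. -/
theorem mem_of_mul_eq (v : Place K F)
    (hv : algebraMap K[X] F Polynomial.X ∈ v.toValuationSubring)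
    (x : F) (n d : FunctionField.ringOfIntegers K F) (hd : d ∉ primeIdeal K F v hv)
    (h : x * (d : F) = (n : F)) : x ∈ v.toValuationSubring := by
  obtain ⟨u, hu⟩ := isUnit_incl_of_notMem K F v hv d hd
  have h1 : ((u : v.toValuationSubring) : F) = (d : F) := by rw [hu]; rfl
  have h2 : ((u : v.toValuationSubring) : F) *
      (((u⁻¹ : v.toValuationSubringˣ) : v.toValuationSubring) : F) = 1 :=
    congrArg Subtype.val u.mul_inv
  have hx : x = ((incl K F v hv n * ((u⁻¹ : v.toValuationSubringˣ) : v.toValuationSubring) :
      v.toValuationSubring) : F) := by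
    calc x = x * (((u : v.toValuationSubring) : F) *
          (((u⁻¹ : v.toValuationSubringˣ) : v.toValuationSubring) : F)) := by rw [h2, mul_one]
      _ = (x * (d : F)) * (((u⁻¹ : v.toValuationSubringˣ) : v.toValuationSubring) : F) := by
          rw [h1]; ring
      _ = (n : F) * (((u⁻¹ : v.toValuationSubringˣ) : v.toValuationSubring) : F) := by rw [h]
      _ = _ := rfl
  rw [hx]
  exact SetLike.coe_mem _

omit [IsAlgClosed K] [CharZero K] in
theorem primeIdeal_ne_bot (v : Place K F)
    (hv : algebraMap K[X] F Polynomial.X ∈ v.toValuationSubring) :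
    primeIdeal K F v hv ≠ ⊥ := by
  intro hbot
  apply v.ne_top'
  rw [eq_top_iff]
  intro x _
  obtain ⟨a, s, hs, rfl⟩ := IsFractionRing.div_surjective
    (A := FunctionField.ringOfIntegers K F) x
  have hs0 : s ≠ 0 := nonZeroDivisors.ne_zero hs
  have hsI : s ∉ primeIdeal K F v hv := by
    rw [hbot, Ideal.mem_bot]; exact hs0
  have hsF : algebraMap (FunctionField.ringOfIntegers K F) F s ≠ 0 := by
    intro h0
    exact hs0 (by
      apply Subtype.ext
      exact h0)
  refine mem_of_mul_eq K F v hv _ a s hsI ?_
  exact div_mul_cancel₀ _ hsF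

/-- The height one prime cut out by a place where `X` is integral. -/
noncomputable def toPrime (v : Place K F)
    (hv : algebraMap K[X] F Polynomial.X ∈ v.toValuationSubring) :
    HeightOneSpectrum (FunctionField.ringOfIntegers K F) where
  asIdeal := primeIdeal K F v hv
  isPrime := Ideal.comap_isPrime _ _
  ne_bot := primeIdeal_ne_bot K F v hv

theorem valuationSubring_toPrime (v : Place K F)
    (hv : algebraMap K[X] F Polynomial.X ∈ v.toValuationSubring) :
    ((toPrime K F v hv).valuation F).valuationSubring = v.toValuationSubring := by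
  rw [← HeightOneSpectrum.valuationSubringAtPrime_eq_valuationSubring]
  refine ValuationSubring.eq_of_le_of_ne_top _ ?_ v.ne_top'
  rw [HeightOneSpectrum.valuationSubringAtPrime_eq_valuationSubring]
  intro x hx
  obtain ⟨n, d, hnd⟩ := (toPrime K F v hv).exists_primeCompl_mul_eq_of_integer x
    ((Valuation.mem_valuationSubring_iff _ _).1 hx)
  exact mem_of_mul_eq K F v hv x n d d.2 hnd

end PlacesFF

/-- a place at which `X` is integral is the localization of the ring of integers at a prime,
with the same order function -/
theorem place_eq_atPrime (v : Place K F)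
    (hv : algebraMap K[X] F Polynomial.X ∈ v.toValuationSubring) :
    ∃ P : IsDedekindDomain.HeightOneSpectrum (FunctionField.ringOfIntegers K F),
      v.toValuationSubring = P.valuationSubringAtPrime F ∧
      ∀ f : F, v.ord f = -(WithZero.log (P.valuation F f)) := by
  refine ⟨PlacesFF.toPrime K F v hv, ?_, ?_⟩
  · rw [IsDedekindDomain.HeightOneSpectrum.valuationSubringAtPrime_eq_valuationSubring,
      PlacesFF.valuationSubring_toPrime]
  · exact PlacesFF.ord_eq_of_toValuationSubring_eq v _
      (PlacesFF.valuationSubring_toPrime K F v hv).symm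

/-- conversely every prime of the ring of integers gives a place -/
theorem exists_place_of_prime
    (P : IsDedekindDomain.HeightOneSpectrum (FunctionField.ringOfIntegers K F)) :
    ∃ v : Place K F, v.toValuationSubring = P.valuationSubringAtPrime F ∧
      ∀ f : F, v.ord f = -(WithZero.log (P.valuation F f)) := by
  refine ⟨Place.ofHeightOneSpectrum (K := K) P, ?_, ?_⟩
  · rw [IsDedekindDomain.HeightOneSpectrum.valuationSubringAtPrime_eq_valuationSubring]
    rfl
  · exact PlacesFF.ord_eq_of_toValuationSubring_eq _ P rfl

namespace PlacesFF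

open IsDedekindDomain WithZero

/-- the residue map from the ring of integers -/
noncomputable def resMap (v : Place K F)
    (hv : algebraMap K[X] F Polynomial.X ∈ v.toValuationSubring) :
    FunctionField.ringOfIntegers K F →+* v.ResidueField :=
  (IsLocalRing.residue v.toValuationSubring).comp (incl K F v hv)

theorem resMap_algebraMap_C (v : Place K F)
    (hv : algebraMap K[X] F Polynomial.X ∈ v.toValuationSubring) (a : K) :
    resMap K F v hv (algebraMap K[X] (FunctionField.ringOfIntegers K F) (Polynomial.C a)) =
      algebraMap K v.ResidueField a := by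
  have h1 : incl K F v hv (algebraMap K[X] (FunctionField.ringOfIntegers K F) (Polynomial.C a)) =
      algebraMap K v.toValuationSubring a := by
    apply Subtype.ext
    show algebraMap K[X] F (Polynomial.C a) = algebraMap K F a
    rw [← Polynomial.algebraMap_eq, ← IsScalarTower.algebraMap_apply K K[X] F]
  show IsLocalRing.residue v.toValuationSubring (incl K F v hv _) = _
  rw [h1]
  rfl

theorem mem_range_of_isIntegral {L : Type*} [Field L] [Algebra K L] (x : L)
    (hx : IsIntegral K x) : x ∈ (algebraMap K L).range :=
  minpoly.mem_range_of_degree_eq_one K x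
    (IsAlgClosed.degree_eq_one_of_irreducible K (minpoly.irreducible hx))

theorem exists_resMap_X (v : Place K F)
    (hv : algebraMap K[X] F Polynomial.X ∈ v.toValuationSubring) :
    ∃ a : K, resMap K F v hv (algebraMap K[X] (FunctionField.ringOfIntegers K F) Polynomial.X) =
      algebraMap K v.ResidueField a := by
  -- a nonzero polynomial in the contraction
  have hne : (primeIdeal K F v hv).comap (algebraMap K[X] (FunctionField.ringOfIntegers K F))
      ≠ ⊥ := by
    obtain ⟨b, hb, hb0⟩ := Submodule.exists_mem_ne_zero_of_ne_bot (primeIdeal_ne_bot K F v hv)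
    exact Ideal.comap_ne_bot_of_integral_mem hb0 hb (Algebra.IsIntegral.isIntegral b)
  obtain ⟨q, hq, hq0⟩ := Submodule.exists_mem_ne_zero_of_ne_bot hne
  have hq' : resMap K F v hv (algebraMap K[X] (FunctionField.ringOfIntegers K F) q) = 0 := by
    have : incl K F v hv (algebraMap K[X] (FunctionField.ringOfIntegers K F) q) ∈
        IsLocalRing.maximalIdeal v.toValuationSubring := hq
    exact (IsLocalRing.residue_eq_zero_iff _).2 this
  set xbar := resMap K F v hv (algebraMap K[X] (FunctionField.ringOfIntegers K F) Polynomial.X)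
    with hxbar
  have hψ : (resMap K F v hv).comp (algebraMap K[X] (FunctionField.ringOfIntegers K F)) =
      Polynomial.eval₂RingHom (algebraMap K v.ResidueField) xbar := by
    apply Polynomial.ringHom_ext
    · intro a
      simp only [RingHom.comp_apply, Polynomial.coe_eval₂RingHom, Polynomial.eval₂_C]
      exact resMap_algebraMap_C K F v hv a
    · simp only [RingHom.comp_apply, Polynomial.coe_eval₂RingHom, Polynomial.eval₂_X]
      rfl
  have hint : IsIntegral K xbar := by
    rw [← isAlgebraic_iff_isIntegral]
    refine ⟨q, hq0, ?_⟩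
    have := congrArg (fun f => f q) hψ
    simp only [RingHom.comp_apply, Polynomial.coe_eval₂RingHom] at this
    rw [Polynomial.aeval_def, ← this]
    exact hq'
  obtain ⟨a, ha⟩ := mem_range_of_isIntegral K xbar hint
  exact ⟨a, ha.symm⟩

theorem resMap_mem_range (v : Place K F)
    (hv : algebraMap K[X] F Polynomial.X ∈ v.toValuationSubring)
    (b : FunctionField.ringOfIntegers K F) :
    resMap K F v hv b ∈ (algebraMap K v.ResidueField).range := by
  obtain ⟨a, ha⟩ := exists_resMap_X K F v hv
  have hψ : (resMap K F v hv).comp (algebraMap K[X] (FunctionField.ringOfIntegers K F)) =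
      (algebraMap K v.ResidueField).comp (Polynomial.evalRingHom a) := by
    apply Polynomial.ringHom_ext
    · intro c
      simp only [RingHom.comp_apply, Polynomial.coe_evalRingHom, Polynomial.eval_C]
      exact resMap_algebraMap_C K F v hv c
    · simp only [RingHom.comp_apply, Polynomial.coe_evalRingHom, Polynomial.eval_X]
      exact ha
  obtain ⟨p, hmonic, hp⟩ := Algebra.IsIntegral.isIntegral (R := K[X]) b
  apply mem_range_of_isIntegral
  refine ⟨p.map (Polynomial.evalRingHom a), hmonic.map _, ?_⟩
  rw [Polynomial.eval₂_map, ← hψ, ← Polynomial.hom_eval₂, hp, map_zero]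

theorem residue_mem_range (v : Place K F)
    (hv : algebraMap K[X] F Polynomial.X ∈ v.toValuationSubring)
    (u : v.toValuationSubring) :
    IsLocalRing.residue v.toValuationSubring u ∈ (algebraMap K v.ResidueField).range := by
  have hu : (u : F) ∈ ((toPrime K F v hv).valuation F).valuationSubring := by
    rw [valuationSubring_toPrime]; exact u.2
  obtain ⟨n, d, hnd⟩ := (toPrime K F v hv).exists_primeCompl_mul_eq_of_integer (u : F)
    ((Valuation.mem_valuationSubring_iff _ _).1 hu)
  have h1 : u * incl K F v hv d = incl K F v hv n := Subtype.ext hnd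
  have h2 : IsLocalRing.residue v.toValuationSubring u * resMap K F v hv d =
      resMap K F v hv n := by
    show IsLocalRing.residue v.toValuationSubring u *
      IsLocalRing.residue v.toValuationSubring (incl K F v hv d) =
      IsLocalRing.residue v.toValuationSubring (incl K F v hv n)
    rw [← map_mul, h1]
  have h3 : resMap K F v hv d ≠ 0 := by
    intro h0
    exact d.2 ((IsLocalRing.residue_eq_zero_iff _).1 h0)
  obtain ⟨cn, hcn⟩ := resMap_mem_range K F v hv n
  obtain ⟨cd, hcd⟩ := resMap_mem_range K F v hv d
  refine ⟨cn / cd, ?_⟩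
  rw [map_div₀, hcn, hcd, ← h2, mul_div_assoc, div_self h3, mul_one]

end PlacesFF

theorem deg_eq_one_of_X_mem (v : Place K F)
    (hv : algebraMap K[X] F Polynomial.X ∈ v.toValuationSubring) : v.deg = 1 := by
  show Module.finrank K v.ResidueField = 1
  rw [Algebra.finrank_eq_one_iff_bijective_algebraMap]
  refine ⟨(algebraMap K v.ResidueField).injective, fun y => ?_⟩
  obtain ⟨u, rfl⟩ := IsLocalRing.residue_surjective y
  exact PlacesFF.residue_mem_range K F v hv u

namespace PlacesFF

open IsDedekindDomain WithZero

/-- nonnegative order implies integrality -/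
theorem mem_of_ord_nonneg (v : Place K F) (f : F) (hf : 0 ≤ v.ord f) :
    f ∈ v.toValuationSubring := by
  rcases eq_or_ne f 0 with rfl | hf0
  · exact v.toValuationSubring.zero_mem
  obtain ⟨π, hπ⟩ := IsDiscreteValuationRing.exists_irreducible v.toValuationSubring
  obtain ⟨u, hu⟩ := v.exists_unit_mul_zpow hf0 hπ
  rw [hu]
  refine v.toValuationSubring.mul_mem _ _ (u : v.toValuationSubring).2 ?_
  obtain ⟨n, hn⟩ := Int.eq_ofNat_of_zero_le hf
  rw [hn, zpow_natCast]
  exact v.toValuationSubring.pow_mem π.2 n

theorem X_mem_ofHeightOneSpectrum (P : HeightOneSpectrum (FunctionField.ringOfIntegers K F)) :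
    algebraMap K[X] F Polynomial.X ∈
      (Place.ofHeightOneSpectrum (K := K) P).toValuationSubring := by
  show algebraMap K[X] F Polynomial.X ∈ (P.valuation F).valuationSubring
  rw [Valuation.mem_valuationSubring_iff,
    IsScalarTower.algebraMap_apply K[X] (FunctionField.ringOfIntegers K F) F]
  exact P.valuation_le_one _

theorem primeIdeal_ofHeightOneSpectrum
    (P : HeightOneSpectrum (FunctionField.ringOfIntegers K F))
    (hv : algebraMap K[X] F Polynomial.X ∈
      (Place.ofHeightOneSpectrum (K := K) P).toValuationSubring) :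
    primeIdeal K F (Place.ofHeightOneSpectrum (K := K) P) hv = P.asIdeal := by
  symm
  refine P.isMaximal.eq_of_le (toPrime K F _ hv).isPrime.ne_top ?_
  intro b hb
  show incl K F _ hv b ∈ IsLocalRing.maximalIdeal _
  rw [IsLocalRing.mem_maximalIdeal, mem_nonunits_iff]
  rintro ⟨u, hu⟩
  have h1 : P.valuation F (b : F) < 1 := (P.valuation_lt_one_iff_mem b).2 hb
  obtain ⟨w, hw⟩ : ∃ w : (Place.ofHeightOneSpectrum (K := K) P).toValuationSubring,
      incl K F _ hv b * w = 1 := ⟨((u⁻¹ : _ˣ) : _), by rw [← hu]; exact u.mul_inv⟩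
  have h2 : P.valuation F (w : F) ≤ 1 :=
    (Valuation.mem_valuationSubring_iff _ _).1 w.2
  have h3 : (b : F) * (w : F) = 1 := congrArg Subtype.val hw
  have h4 := congrArg (P.valuation F) h3
  rw [map_mul, map_one] at h4
  have : P.valuation F (b : F) * P.valuation F (w : F) < 1 :=
    mul_lt_one_of_nonneg_of_lt_one_left zero_le h1 h2
  rw [h4] at this
  exact lt_irrefl _ this

theorem exists_sub_mem (P : HeightOneSpectrum (FunctionField.ringOfIntegers K F))
    (b : FunctionField.ringOfIntegers K F) :
    ∃ c : K, b - algebraMap K[X] (FunctionField.ringOfIntegers K F) (Polynomial.C c) ∈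
      P.asIdeal := by
  have hv := X_mem_ofHeightOneSpectrum K F P
  obtain ⟨c, hc⟩ := resMap_mem_range K F (Place.ofHeightOneSpectrum (K := K) P) hv b
  refine ⟨c, ?_⟩
  rw [← primeIdeal_ofHeightOneSpectrum K F P hv]
  show incl K F _ hv _ ∈ IsLocalRing.maximalIdeal _
  rw [← IsLocalRing.residue_eq_zero_iff]
  have h1 := resMap_algebraMap_C K F (Place.ofHeightOneSpectrum (K := K) P) hv c
  show resMap K F _ hv (b - _) = 0
  rw [map_sub, h1, ← hc, sub_self]


theorem span_X_isMaximal : (Ideal.span {(Polynomial.X : K[X])}).IsMaximal :=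
  PrincipalIdealRing.isMaximal_of_irreducible Polynomial.irreducible_X

theorem span_X_ne_bot : Ideal.span {(Polynomial.X : K[X])} ≠ ⊥ := by
  rw [Ne, Ideal.span_singleton_eq_bot]
  exact Polynomial.X_ne_zero

theorem algebraMap_X_ne_zero :
    algebraMap K[X] (FunctionField.ringOfIntegers K F) Polynomial.X ≠ 0 := by
  intro h
  exact Polynomial.X_ne_zero
    (FunctionField.ringOfIntegers.algebraMap_injective K F (by rw [h, map_zero]))

theorem map_span_X_ne_bot :
    (Ideal.span {(Polynomial.X : K[X])}).map
      (algebraMap K[X] (FunctionField.ringOfIntegers K F)) ≠ ⊥ := by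
  rw [Ideal.map_span, Set.image_singleton, Ne, Ideal.span_singleton_eq_bot]
  exact algebraMap_X_ne_zero K F

theorem ord_X_eq_ramificationIdx (P : HeightOneSpectrum (FunctionField.ringOfIntegers K F)) :
    (Place.ofHeightOneSpectrum (K := K) P).ord (algebraMap K[X] F Polynomial.X) =
      (Ideal.ramificationIdx' (Ideal.span {(Polynomial.X : K[X])}) P.asIdeal : ℤ) := by
  rw [ord_eq_of_toValuationSubring_eq _ P rfl,
    IsScalarTower.algebraMap_apply K[X] (FunctionField.ringOfIntegers K F) F,
    HeightOneSpectrum.valuation_of_algebraMap,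
    HeightOneSpectrum.intValuation_if_neg _ (algebraMap_X_ne_zero K F), WithZero.log_exp, neg_neg,
    Ideal.IsDedekindDomain.ramificationIdx'_eq_normalizedFactors_count (map_span_X_ne_bot K F)
      P.isPrime P.ne_bot,
    Ideal.map_span, Set.image_singleton]
  have hsr : (Ideal.span {algebraMap K[X] (FunctionField.ringOfIntegers K F) Polynomial.X} :
      Ideal (FunctionField.ringOfIntegers K F)) ≠ 0 := by
    rw [Ne, Ideal.zero_eq_bot, Ideal.span_singleton_eq_bot]
    exact algebraMap_X_ne_zero K F
  rw [Ideal.count_associates_factors_eq hsr P.isPrime P.ne_bot]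

theorem inertiaDeg_eq_one (P : HeightOneSpectrum (FunctionField.ringOfIntegers K F))
    (p : Ideal K[X]) [hp : p.IsMaximal] [P.asIdeal.LiesOver p] :
    Ideal.inertiaDeg' p P.asIdeal = 1 := by
  rw [Ideal.inertiaDeg'_algebraMap]
  let _ := Ideal.Quotient.field p
  have hnz : (1 : FunctionField.ringOfIntegers K F ⧸ P.asIdeal) ≠ 0 := by
    have := P.isPrime
    exact one_ne_zero
  rw [finrank_eq_one_iff_of_nonzero' _ hnz]
  intro w
  obtain ⟨b, rfl⟩ := Ideal.Quotient.mk_surjective w
  obtain ⟨c, hc⟩ := exists_sub_mem K F P b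
  refine ⟨Ideal.Quotient.mk p (Polynomial.C c), ?_⟩
  rw [Algebra.smul_def, mul_one, Ideal.Quotient.algebraMap_mk_of_liesOver]
  exact (Ideal.Quotient.eq.2 hc).symm


theorem torsionFree_ringOfIntegers :
    Module.IsTorsionFree K[X] (FunctionField.ringOfIntegers K F) :=
  Module.isTorsionFree_iff_algebraMap_injective.2
    (FunctionField.ringOfIntegers.algebraMap_injective K F)

theorem finite_ringOfIntegers : Module.Finite K[X] (FunctionField.ringOfIntegers K F) :=
  inferInstance

end PlacesFF


theorem exists_finset_zeros_X :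
    ∃ s : Finset (Place K F),
      (∀ v, v ∈ s ↔ 0 < v.ord (algebraMap K[X] F Polynomial.X)) ∧
      ∑ v ∈ s, v.ord (algebraMap K[X] F Polynomial.X) = (Module.finrank K⟮X⟯ F : ℤ) := by
  classical
  have hpmax : (Ideal.span {(Polynomial.X : K[X])}).IsMaximal := PlacesFF.span_X_isMaximal K
  have hp0 : Ideal.span {(Polynomial.X : K[X])} ≠ ⊥ := PlacesFF.span_X_ne_bot K
  have htf := PlacesFF.torsionFree_ringOfIntegers K F
  have hfin := PlacesFF.finite_ringOfIntegers K F
  have hmem : ∀ P : Ideal (FunctionField.ringOfIntegers K F),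
      P ∈ IsDedekindDomain.primesOverFinset (Ideal.span {(Polynomial.X : K[X])})
        (FunctionField.ringOfIntegers K F) ↔
      P ∈ Ideal.primesOver (Ideal.span {(Polynomial.X : K[X])})
        (FunctionField.ringOfIntegers K F) :=
    fun P => IsDedekindDomain.mem_primesOverFinset_iff hp0 _
  have hsum := Ideal.sum_ramification_inertia (FunctionField.ringOfIntegers K F) K⟮X⟯ F hp0
  set T := IsDedekindDomain.primesOverFinset (Ideal.span {(Polynomial.X : K[X])})
    (FunctionField.ringOfIntegers K F) with hT
  have hprime : ∀ P ∈ T, P.IsPrime := fun P hP => ((hmem P).1 hP).1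
  have hlies : ∀ P ∈ T, P.LiesOver (Ideal.span {(Polynomial.X : K[X])}) :=
    fun P hP => ((hmem P).1 hP).2
  have hnebot : ∀ P ∈ T, P ≠ ⊥ := fun P hP => by
    have := hlies P hP
    exact Ideal.ne_bot_of_liesOver_of_ne_bot hp0 P
  let mkH : {P // P ∈ T} →
      IsDedekindDomain.HeightOneSpectrum (FunctionField.ringOfIntegers K F) :=
    fun P => ⟨P.1, hprime P.1 P.2, hnebot P.1 P.2⟩
  let g : {P // P ∈ T} → Place K F := fun P => Place.ofHeightOneSpectrum (K := K) (mkH P)
  have hg_inj : Function.Injective g := by
    intro P Q hPQ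
    have h1 := PlacesFF.primeIdeal_ofHeightOneSpectrum K F (mkH P)
      (PlacesFF.X_mem_ofHeightOneSpectrum K F _)
    have h2 := PlacesFF.primeIdeal_ofHeightOneSpectrum K F (mkH Q)
      (PlacesFF.X_mem_ofHeightOneSpectrum K F _)
    apply Subtype.ext
    show (mkH P).asIdeal = (mkH Q).asIdeal
    rw [← h1, ← h2]
    have key : ∀ (v w : Place K F) (hv : algebraMap K[X] F Polynomial.X ∈ v.toValuationSubring)
        (hw : algebraMap K[X] F Polynomial.X ∈ w.toValuationSubring), v = w →
        PlacesFF.primeIdeal K F v hv = PlacesFF.primeIdeal K F w hw := by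
      rintro v w hv hw rfl; rfl
    exact key _ _ _ _ hPQ
  have hord : ∀ P : {P // P ∈ T}, (g P).ord (algebraMap K[X] F Polynomial.X) =
      ((Ideal.ramificationIdx' (Ideal.span {(Polynomial.X : K[X])}) P.1 *
        Ideal.inertiaDeg' (Ideal.span {(Polynomial.X : K[X])}) P.1 : ℕ) : ℤ) := by
    intro P
    have hl := hlies P.1 P.2
    have h1 : Ideal.inertiaDeg' (Ideal.span {(Polynomial.X : K[X])}) P.1 = 1 :=
      PlacesFF.inertiaDeg_eq_one K F (mkH P) _
    rw [h1, mul_one]
    exact PlacesFF.ord_X_eq_ramificationIdx K F (mkH P)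
  refine ⟨T.attach.image g, ?_, ?_⟩
  · intro v
    rw [Finset.mem_image]
    constructor
    · rintro ⟨P, -, rfl⟩
      rw [hord P]
      have hl := hlies P.1 P.2
      have hpr := hprime P.1 P.2
      have h1 : Ideal.ramificationIdx' (Ideal.span {(Polynomial.X : K[X])}) P.1 ≠ 0 :=
        Ideal.IsDedekindDomain.ramificationIdx'_ne_zero_of_liesOver P.1 hp0
      have h2 : Ideal.inertiaDeg' (Ideal.span {(Polynomial.X : K[X])}) P.1 = 1 :=
        PlacesFF.inertiaDeg_eq_one K F (mkH P) _
      rw [h2, mul_one]
      exact_mod_cast Nat.pos_of_ne_zero h1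
    · intro hv
      have hX : algebraMap K[X] F Polynomial.X ∈ v.toValuationSubring :=
        PlacesFF.mem_of_ord_nonneg K F v _ hv.le
      have hval := PlacesFF.valuationSubring_toPrime K F v hX
      have hordv := PlacesFF.ord_eq_of_toValuationSubring_eq v (PlacesFF.toPrime K F v hX)
        hval.symm (algebraMap K[X] F Polynomial.X)
      have hXmem : algebraMap K[X] (FunctionField.ringOfIntegers K F) Polynomial.X ∈
          (PlacesFF.toPrime K F v hX).asIdeal := by
        rw [← (PlacesFF.toPrime K F v hX).valuation_lt_one_iff_mem (K := F)]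
        change (PlacesFF.toPrime K F v hX).valuation F (algebraMap K[X] F Polynomial.X) < 1
        rw [hordv] at hv
        by_contra hcon
        rw [not_lt] at hcon
        have h0 : (PlacesFF.toPrime K F v hX).valuation F (algebraMap K[X] F Polynomial.X) ≠ 0 :=
          fun h => by rw [h] at hcon; exact absurd hcon (by simp)
        have := (WithZero.log_le_log one_ne_zero h0).2 hcon
        rw [WithZero.log_one] at this
        omega
      have hP₀T : (PlacesFF.toPrime K F v hX).asIdeal ∈ T := by
        rw [hmem]
        refine ⟨(PlacesFF.toPrime K F v hX).isPrime, ⟨?_⟩⟩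
        exact hpmax.eq_of_le (Ideal.comap_ne_top _ (PlacesFF.toPrime K F v hX).isPrime.ne_top)
          (by rw [Ideal.span_singleton_le_iff_mem]; exact hXmem)
      refine ⟨⟨(PlacesFF.toPrime K F v hX).asIdeal, hP₀T⟩, Finset.mem_attach _ _, ?_⟩
      apply Place.ext
      rw [← hval]
      rfl
  · rw [Finset.sum_image (fun P _ Q _ h => hg_inj h), ← hsum, Nat.cast_sum, ← Finset.sum_attach T]
    exact Finset.sum_congr rfl (fun P _ => hord P)

end FF

end Fermat.Agent.S24
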