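import Mathlib
import Fermat.Prelude.Def_AlgebraicCurve_CanonicalDivisor
import Fermat.Agent.S24.PlacesFF

/-!
# S24, work package H1b: places of a function field in one variable, general setting
-/

set_option autoImplicit false
set_option linter.unusedSectionVars false

namespace Fermat.Agent.S24

open AlgebraicCurve IntermediateField KaehlerDifferential
open scoped Polynomial RatFunc

variable {K F : Type*} [Field K] [IsAlgClosed K] [CharZero K] [Field F] [Algebra K F]

namespace Places

omit [IsAlgClosed K] [CharZero K] in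
/-- for a nonzero element of the valuation ring: positive order iff in the maximal ideal -/
theorem ord_pos_iff_mem_maximalIdeal (v : Place K F) (a : v.toValuationSubring) (ha : a ≠ 0) :
    0 < v.ord (a : F) ↔ a ∈ IsLocalRing.maximalIdeal v.toValuationSubring := by
  have hne : v.adicValuation (a : F) ≠ 0 :=
    v.adicValuation_ne_zero (by simpa using ha)
  rw [Place.ord, neg_pos, WithZero.log_lt_iff_lt_exp hne, WithZero.exp_zero,
    v.adicValuation_coe, IsDedekindDomain.HeightOneSpectrum.intValuation_lt_one_iff_mem,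
    v.heightOneSpectrum_asIdeal]

omit [IsAlgClosed K] [CharZero K] in
/-- for a nonzero element: nonnegative order iff in the valuation ring -/
theorem ord_nonneg_iff_mem (v : Place K F) {f : F} (hf : f ≠ 0) :
    0 ≤ v.ord f ↔ f ∈ v.toValuationSubring := by
  obtain ⟨π, hπ⟩ := IsDiscreteValuationRing.exists_irreducible v.toValuationSubring
  obtain ⟨u, hu⟩ := v.exists_unit_mul_zpow hf hπ
  have hπ0 : (π : F) ≠ 0 := by simpa using hπ.ne_zero
  constructor
  · intro h
    rw [hu]
    obtain ⟨n, hn⟩ := Int.eq_ofNat_of_zero_le h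
    rw [hn, zpow_natCast]
    exact mul_mem (u : v.toValuationSubring).2 (pow_mem π.2 n)
  · intro h
    set a : v.toValuationSubring := ⟨f, h⟩ with ha
    have ha0 : a ≠ 0 := fun h0 => hf (congrArg Subtype.val h0)
    by_cases hunit : IsUnit a
    · have h1 := v.ord_coe_unit hunit.unit
      rw [IsUnit.unit_spec] at h1
      show 0 ≤ v.ord (a : F)
      rw [h1]
    · have hmem : a ∈ IsLocalRing.maximalIdeal v.toValuationSubring :=
        (IsLocalRing.mem_maximalIdeal _).mpr hunit
      exact ((ord_pos_iff_mem_maximalIdeal v a ha0).mpr hmem).le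

end Places

set_option linter.unusedVariables false in
/-- instance package: view `F` as a Mathlib function field via a transcendental element -/
theorem exists_ffInst (y : F) (hy : Transcendental K y) [FiniteDimensional K⟮y⟯ F] :
    ∃ (i1 : Algebra K[X] F) (i2 : Algebra K⟮X⟯ F),
      algebraMap K[X] F Polynomial.X = y ∧ IsScalarTower K K[X] F ∧ IsScalarTower K[X] K⟮X⟯ F ∧
      IsScalarTower K K⟮X⟯ F ∧ FunctionField K F ∧
      Module.finrank K⟮X⟯ F = Module.finrank K⟮y⟯ F := by
  let e : RatFunc K ≃ₐ[K] K⟮y⟯ := RatFunc.algEquivOfTranscendental y hy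
  let i1 : Algebra K[X] F := (Polynomial.aeval y).toRingHom.toAlgebra
  let i2 : Algebra (RatFunc K) F :=
    ((algebraMap K⟮y⟯ F).comp (e : RatFunc K →+* K⟮y⟯)).toAlgebra
  have h1 : ∀ p : K[X], algebraMap K[X] F p = Polynomial.aeval y p := fun p => rfl
  have h2 : ∀ r : RatFunc K, algebraMap (RatFunc K) F r = ((e r : K⟮y⟯) : F) := fun r => rfl
  refine ⟨i1, i2, ?_, ?_, ?_, ?_, ?_, ?_⟩
  · rw [h1, Polynomial.aeval_X]
  · refine IsScalarTower.of_algebraMap_eq fun a => ?_
    rw [h1]
    simp
  · refine IsScalarTower.of_algebraMap_eq fun p => ?_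
    rw [h1, h2, RatFunc.algEquivOfTranscendental_algebraMap]
    have h3 := Polynomial.aeval_algebraMap_apply F (AdjoinSimple.gen K y) p
    rw [AdjoinSimple.algebraMap_gen] at h3
    rw [h3]
    rfl
  · refine IsScalarTower.of_algebraMap_eq fun a => ?_
    rw [h2, e.commutes]
    rfl
  · let b := Module.finBasis K⟮y⟯ F
    have hsm : ∀ (c : K⟮y⟯) (x : F), e.symm.toRingEquiv c • x = c • x := by
      intro c x
      rw [Algebra.smul_def, Algebra.smul_def, h2]
      simp
    exact (b.mapCoeffs e.symm.toRingEquiv hsm).finiteDimensional_of_finite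
  · exact Algebra.finrank_eq_of_equiv_equiv e.toRingEquiv (RingEquiv.refl F) (by ext; rfl)

/-- exchange: finite over `K⟮x⟯` implies finite over `K⟮y⟯` for every transcendental `y` -/
theorem finiteDimensional_of_transcendental (x y : F) (hx : Transcendental K x)
    [FiniteDimensional K⟮x⟯ F] (hy : Transcendental K y) : FiniteDimensional K⟮y⟯ F := by
  obtain ⟨i1, i2, h1, h2, h3, h4, h5, h6⟩ := exists_ffInst x hx
  exact FunctionField.finiteDimensional_of_adjoin_transcendental hy

/-- zeros of a transcendental element -/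
theorem exists_finset_zeros (y : F) (hy : Transcendental K y) [FiniteDimensional K⟮y⟯ F] :
    ∃ s : Finset (Place K F), (∀ v, v ∈ s ↔ 0 < v.ord y) ∧
      ∑ v ∈ s, v.ord y = (Module.finrank K⟮y⟯ F : ℤ) := by
  obtain ⟨i1, i2, h1, h2, h3, h4, h5, h6⟩ := exists_ffInst y hy
  have h := exists_finset_zeros_X K F
  rw [h1, h6] at h
  exact h

/-- all places have degree one -/
theorem place_deg_eq_one (x : F) (hx : Transcendental K x) [FiniteDimensional K⟮x⟯ F]
    (v : Place K F) : v.deg = 1 := by
  rcases v.toValuationSubring.mem_or_inv_mem x with hxv | hxv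
  · obtain ⟨i1, i2, h1, h2, h3, h4, h5, h6⟩ := exists_ffInst x hx
    exact deg_eq_one_of_X_mem K F v (h1 ▸ hxv)
  · have hx' : Transcendental K x⁻¹ := fun h => hx (by simpa using h.inv)
    have := finiteDimensional_of_transcendental x x⁻¹ hx hx'
    obtain ⟨i1, i2, h1, h2, h3, h4, h5, h6⟩ := exists_ffInst x⁻¹ hx'
    exact deg_eq_one_of_X_mem K F v (h1 ▸ hxv)

/-- residues: an integral element is congruent to a constant -/
theorem exists_residue (x : F) (hx : Transcendental K x) [FiniteDimensional K⟮x⟯ F]
    (v : Place K F) (u : F) (hu : u ∈ v.toValuationSubring) :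
    ∃ a : K, u = algebraMap K F a ∨ 0 < v.ord (u - algebraMap K F a) := by
  have hdeg : Module.finrank K v.ResidueField = 1 := place_deg_eq_one x hx v
  have hbij := (Algebra.finrank_eq_one_iff_bijective_algebraMap (F := K)
    (E := v.ResidueField)).mp hdeg
  obtain ⟨a, ha⟩ := hbij.2 (IsLocalRing.residue v.toValuationSubring ⟨u, hu⟩)
  refine ⟨a, ?_⟩
  by_cases h0 : u = algebraMap K F a
  · exact Or.inl h0
  · right
    set w : v.toValuationSubring := ⟨u, hu⟩ - algebraMap K v.toValuationSubring a with hw
    have hw0 : w ≠ 0 := by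
      intro h
      apply h0
      have := congrArg (fun z : v.toValuationSubring => (z : F)) h
      simp only [hw, AddSubgroupClass.coe_sub, Place.coe_algebraMap, ZeroMemClass.coe_zero] at this
      exact sub_eq_zero.mp this
    have hmem : w ∈ IsLocalRing.maximalIdeal v.toValuationSubring := by
      rw [← IsLocalRing.residue_eq_zero_iff, hw, map_sub, ← ha]
      exact sub_self _
    have := (Places.ord_pos_iff_mem_maximalIdeal v w hw0).mpr hmem
    simpa [hw] using this

namespace Places

section FF

variable (K F)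
variable [Algebra K[X] F] [Algebra K⟮X⟯ F] [IsScalarTower K K[X] F] [IsScalarTower K[X] K⟮X⟯ F]
  [FunctionField K F]

/-- the identity map between the two incarnations of a subalgebra -/
def restrictEquiv (R : Subalgebra K[X] F) : (R.restrictScalars K) ≃+* R where
  toFun b := ⟨b.1, b.2⟩
  invFun r := ⟨r.1, r.2⟩
  left_inv _ := rfl
  right_inv _ := rfl
  map_mul' _ _ := rfl
  map_add' _ _ := rfl

theorem mem_atPrime_iff
    (P : IsDedekindDomain.HeightOneSpectrum (FunctionField.ringOfIntegers K F)) (u : F) :
    u ∈ P.valuationSubringAtPrime F ↔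
      ∃ b s : FunctionField.ringOfIntegers K F, s ∉ P.asIdeal ∧ u * (s : F) = (b : F) := by
  rw [IsDedekindDomain.HeightOneSpectrum.valuationSubringAtPrime_eq_valuationSubring,
    Valuation.mem_valuationSubring_iff]
  constructor
  · intro h
    obtain ⟨n, d, hnd⟩ := P.exists_primeCompl_mul_eq_of_integer u h
    exact ⟨n, d, d.2, hnd⟩
  · rintro ⟨b, s, hs, hus⟩
    have hs1 : P.valuation F (algebraMap (FunctionField.ringOfIntegers K F) F s) = 1 := by
      rw [IsDedekindDomain.HeightOneSpectrum.valuation_of_algebraMap]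
      exact IsDedekindDomain.HeightOneSpectrum.intValuation_eq_one_iff.mpr hs
    have hb1 : P.valuation F (algebraMap (FunctionField.ringOfIntegers K F) F b) ≤ 1 :=
      P.valuation_le_one _
    have h3 : u * algebraMap (FunctionField.ringOfIntegers K F) F s
        = algebraMap (FunctionField.ringOfIntegers K F) F b := hus
    have h4 := congrArg (P.valuation F) h3
    rw [map_mul, hs1, mul_one] at h4
    rw [h4]
    exact hb1

theorem mem_asIdeal_iff
    (P : IsDedekindDomain.HeightOneSpectrum (FunctionField.ringOfIntegers K F))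
    (b : FunctionField.ringOfIntegers K F) :
    b ∈ P.asIdeal ↔ 0 < -(WithZero.log (P.valuation F (b : F))) ∨ b = 0 := by
  by_cases hb : b = 0
  · simp [hb]
  · have hbF : algebraMap (FunctionField.ringOfIntegers K F) F b ≠ 0 :=
      fun h => hb (Subtype.ext h)
    have hne : P.valuation F (algebraMap (FunctionField.ringOfIntegers K F) F b) ≠ 0 :=
      (Valuation.ne_zero_iff _).mpr hbF
    have h1 : (b : F) = algebraMap (FunctionField.ringOfIntegers K F) F b := rfl
    rw [h1, neg_pos, WithZero.log_lt_iff_lt_exp hne, WithZero.exp_zero,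
      IsDedekindDomain.HeightOneSpectrum.valuation_of_algebraMap,
      IsDedekindDomain.HeightOneSpectrum.intValuation_lt_one_iff_mem]
    simp [hb]

theorem finiteType_ringOfIntegers :
    Algebra.FiniteType K ((FunctionField.ringOfIntegers K F).restrictScalars K) := by
  have hfin : Module.Finite K[X] (FunctionField.ringOfIntegers K F) := inferInstance
  have h1 : Algebra.FiniteType K[X] (FunctionField.ringOfIntegers K F) := inferInstance
  have h0 : Algebra.FiniteType K K[X] := inferInstance
  have h2 : Algebra.FiniteType K (FunctionField.ringOfIntegers K F) := h0.trans h1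
  let e : (FunctionField.ringOfIntegers K F) ≃ₐ[K]
      ((FunctionField.ringOfIntegers K F).restrictScalars K) :=
    AlgEquiv.ofRingEquiv (f := (restrictEquiv K F (FunctionField.ringOfIntegers K F)).symm)
      (fun a => rfl)
  exact h2.equiv e

theorem localization_model_ff (v : Place K F)
    (hv : algebraMap K[X] F Polynomial.X ∈ v.toValuationSubring) :
    ∃ (B : Subalgebra K F) (P : Ideal B), Algebra.FiniteType K B ∧ P.IsMaximal ∧
      (∀ u : F, u ∈ v.toValuationSubring ↔ ∃ b s : B, s ∉ P ∧ u * (s : F) = (b : F)) ∧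
      (∀ b : B, b ∈ P ↔ 0 < v.ord (b : F) ∨ b = 0) := by
  obtain ⟨P, hP, hord⟩ := place_eq_atPrime K F v hv
  refine ⟨(FunctionField.ringOfIntegers K F).restrictScalars K,
    P.asIdeal.comap ((restrictEquiv K F (FunctionField.ringOfIntegers K F) : _ ≃+* _) : _ →+* _),
    finiteType_ringOfIntegers K F, ?_, ?_, ?_⟩
  · have := P.isMaximal
    exact Ideal.comap_isMaximal_of_surjective _
      (restrictEquiv K F (FunctionField.ringOfIntegers K F)).surjective
  · intro u
    rw [hP, mem_atPrime_iff]
    constructor
    · rintro ⟨b, s, hs, hus⟩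
      exact ⟨(restrictEquiv K F _).symm b, (restrictEquiv K F _).symm s, hs, hus⟩
    · rintro ⟨b, s, hs, hus⟩
      exact ⟨restrictEquiv K F _ b, restrictEquiv K F _ s, hs, hus⟩
  · intro b
    rw [Ideal.mem_comap, hord]
    exact mem_asIdeal_iff K F P (restrictEquiv K F _ b)

end FF

end Places

/-- the local ring of a place is a localization of a finitely generated `K`-algebra at a prime
(packaged existentially so that no instances leak) -/
theorem exists_localization_model (x : F) (hx : Transcendental K x) [FiniteDimensional K⟮x⟯ F]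
    (v : Place K F) :
    ∃ (B : Subalgebra K F) (P : Ideal B), Algebra.FiniteType K B ∧ P.IsMaximal ∧
      (∀ u : F, u ∈ v.toValuationSubring ↔ ∃ b s : B, s ∉ P ∧ u * (s : F) = (b : F)) ∧
      (∀ b : B, b ∈ P ↔ 0 < v.ord (b : F) ∨ b = 0) := by
  rcases v.toValuationSubring.mem_or_inv_mem x with hxv | hxv
  · obtain ⟨i1, i2, h1, h2, h3, h4, h5, h6⟩ := exists_ffInst x hx
    exact Places.localization_model_ff K F v (h1 ▸ hxv)
  · have hx' : Transcendental K x⁻¹ := fun h => hx (by simpa using h.inv)
    have := finiteDimensional_of_transcendental x x⁻¹ hx hx'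
    obtain ⟨i1, i2, h1, h2, h3, h4, h5, h6⟩ := exists_ffInst x⁻¹ hx'
    exact Places.localization_model_ff K F v (h1 ▸ hxv)

end Fermat.Agent.S24
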