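import Mathlib
import Fermat.Prelude.Def_AlgebraicCurve_CanonicalDivisor
import Fermat.Agent.S24.Places

/-!
# S24, work package B0: every nontrivial valuation ring over `K` is a place
-/

set_option autoImplicit false
set_option linter.unusedSectionVars false

namespace Fermat.Agent.S24

open AlgebraicCurve IntermediateField KaehlerDifferential
open scoped Polynomial RatFunc

section FFraw

variable (K F : Type*) [Field K] [IsAlgClosed K] [CharZero K] [Field F] [Algebra K F]
  [Algebra K[X] F] [Algebra K⟮X⟯ F] [IsScalarTower K K[X] F] [IsScalarTower K[X] K⟮X⟯ F]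
  [FunctionField K F]

namespace PlacesRaw

open IsDedekindDomain WithZero

/-- Polynomials lie in a valuation ring containing the constants and `X`. -/
theorem algebraMap_mem_of_X_mem (O : ValuationSubring F)
    (hK : ∀ a : K, algebraMap K F a ∈ O)
    (hX : algebraMap K[X] F Polynomial.X ∈ O) (p : K[X]) :
    algebraMap K[X] F p ∈ O := by
  induction p using Polynomial.induction_on with
  | C a =>
    rw [← Polynomial.algebraMap_eq, ← IsScalarTower.algebraMap_apply K K[X] F]
    exact hK a
  | add p q hp hq => rw [map_add]; exact O.add_mem _ _ hp hq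
  | monomial n a h =>
    rw [pow_succ, ← mul_assoc, map_mul]
    exact O.mul_mem _ _ h hX

/-- The ring of integers is contained in such a valuation ring. -/
theorem mem_of_mem_ringOfIntegers (O : ValuationSubring F)
    (hK : ∀ a : K, algebraMap K F a ∈ O)
    (hX : algebraMap K[X] F Polynomial.X ∈ O) (b : F)
    (hb : b ∈ FunctionField.ringOfIntegers K F) : b ∈ O := by
  have hint : IsIntegral K[X] b := hb
  obtain ⟨p, hmonic, hp⟩ := hint
  let φ : K[X] →+* O :=
    (algebraMap K[X] F).codRestrict O.toSubring (algebraMap_mem_of_X_mem K F O hK hX)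
  have hint' : IsIntegral O b := by
    refine ⟨p.map φ, hmonic.map φ, ?_⟩
    rw [Polynomial.eval₂_map]
    exact hp
  obtain ⟨y, hy⟩ := IsIntegrallyClosed.isIntegral_iff.1 hint'
  rw [← hy]
  exact y.2

/-- The inclusion of the ring of integers in the valuation ring. -/
noncomputable def incl (O : ValuationSubring F)
    (hK : ∀ a : K, algebraMap K F a ∈ O)
    (hX : algebraMap K[X] F Polynomial.X ∈ O) :
    FunctionField.ringOfIntegers K F →+* O where
  toFun b := ⟨(b : F), mem_of_mem_ringOfIntegers K F O hK hX _ b.2⟩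
  map_one' := rfl
  map_mul' _ _ := rfl
  map_zero' := rfl
  map_add' _ _ := rfl

/-- The prime ideal of the ring of integers cut out by the valuation ring. -/
noncomputable def primeIdeal (O : ValuationSubring F)
    (hK : ∀ a : K, algebraMap K F a ∈ O)
    (hX : algebraMap K[X] F Polynomial.X ∈ O) :
    Ideal (FunctionField.ringOfIntegers K F) :=
  (IsLocalRing.maximalIdeal O).comap (incl K F O hK hX)

theorem isUnit_incl_of_notMem (O : ValuationSubring F)
    (hK : ∀ a : K, algebraMap K F a ∈ O)
    (hX : algebraMap K[X] F Polynomial.X ∈ O)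
    (s : FunctionField.ringOfIntegers K F) (hs : s ∉ primeIdeal K F O hK hX) :
    IsUnit (incl K F O hK hX s) := by
  by_contra hnu
  exact hs hnu

/-- A quotient `n / d` with `d` outside the prime ideal lies in the valuation ring. -/
theorem mem_of_mul_eq (O : ValuationSubring F)
    (hK : ∀ a : K, algebraMap K F a ∈ O)
    (hX : algebraMap K[X] F Polynomial.X ∈ O)
    (x : F) (n d : FunctionField.ringOfIntegers K F) (hd : d ∉ primeIdeal K F O hK hX)
    (h : x * (d : F) = (n : F)) : x ∈ O := by
  obtain ⟨u, hu⟩ := isUnit_incl_of_notMem K F O hK hX d hd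
  have h1 : ((u : O) : F) = (d : F) := by rw [hu]; rfl
  have h2 : ((u : O) : F) * (((u⁻¹ : Oˣ) : O) : F) = 1 :=
    congrArg Subtype.val u.mul_inv
  have hx : x = ((incl K F O hK hX n * ((u⁻¹ : Oˣ) : O) : O) : F) := by
    calc x = x * (((u : O) : F) * (((u⁻¹ : Oˣ) : O) : F)) := by rw [h2, mul_one]
      _ = (x * (d : F)) * (((u⁻¹ : Oˣ) : O) : F) := by rw [h1]; ring
      _ = (n : F) * (((u⁻¹ : Oˣ) : O) : F) := by rw [h]
      _ = _ := rfl
  rw [hx]
  exact SetLike.coe_mem _

theorem primeIdeal_ne_bot (O : ValuationSubring F)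
    (hK : ∀ a : K, algebraMap K F a ∈ O)
    (hX : algebraMap K[X] F Polynomial.X ∈ O) (hO : O ≠ ⊤) :
    primeIdeal K F O hK hX ≠ ⊥ := by
  intro hbot
  apply hO
  rw [eq_top_iff]
  intro x _
  obtain ⟨a, s, hs, rfl⟩ := IsFractionRing.div_surjective
    (A := FunctionField.ringOfIntegers K F) x
  have hs0 : s ≠ 0 := nonZeroDivisors.ne_zero hs
  have hsI : s ∉ primeIdeal K F O hK hX := by
    rw [hbot, Ideal.mem_bot]; exact hs0
  have hsF : algebraMap (FunctionField.ringOfIntegers K F) F s ≠ 0 := by
    intro h0
    exact hs0 (by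
      apply Subtype.ext
      exact h0)
  refine mem_of_mul_eq K F O hK hX _ a s hsI ?_
  exact div_mul_cancel₀ _ hsF

/-- The height one prime cut out by a nontrivial valuation ring containing `K[X]`. -/
noncomputable def toPrime (O : ValuationSubring F)
    (hK : ∀ a : K, algebraMap K F a ∈ O)
    (hX : algebraMap K[X] F Polynomial.X ∈ O) (hO : O ≠ ⊤) :
    HeightOneSpectrum (FunctionField.ringOfIntegers K F) where
  asIdeal := primeIdeal K F O hK hX
  isPrime := Ideal.comap_isPrime _ _
  ne_bot := primeIdeal_ne_bot K F O hK hX hO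

theorem valuationSubring_toPrime (O : ValuationSubring F)
    (hK : ∀ a : K, algebraMap K F a ∈ O)
    (hX : algebraMap K[X] F Polynomial.X ∈ O) (hO : O ≠ ⊤) :
    ((toPrime K F O hK hX hO).valuation F).valuationSubring = O := by
  rw [← HeightOneSpectrum.valuationSubringAtPrime_eq_valuationSubring]
  refine ValuationSubring.eq_of_le_of_ne_top _ ?_ hO
  rw [HeightOneSpectrum.valuationSubringAtPrime_eq_valuationSubring]
  intro x hx
  obtain ⟨n, d, hnd⟩ := (toPrime K F O hK hX hO).exists_primeCompl_mul_eq_of_integer x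
    ((Valuation.mem_valuationSubring_iff _ _).1 hx)
  exact mem_of_mul_eq K F O hK hX x n d d.2 hnd

/-- function-field version: a nontrivial valuation ring containing `K[X]` is a place -/
theorem exists_place_ff (O : ValuationSubring F)
    (hK : ∀ a : K, algebraMap K F a ∈ O)
    (hX : algebraMap K[X] F Polynomial.X ∈ O) (hO : O ≠ ⊤) :
    ∃ v : Place K F, v.toValuationSubring = O :=
  ⟨Place.ofHeightOneSpectrum (K := K) (toPrime K F O hK hX hO),
    valuationSubring_toPrime K F O hK hX hO⟩

end PlacesRaw

end FFraw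

section Raw

variable {K F : Type*} [Field K] [IsAlgClosed K] [CharZero K] [Field F] [Algebra K F]

theorem exists_place_of_valuationSubring (x : F) (hx : Transcendental K x)
    [FiniteDimensional K⟮x⟯ F] (O : ValuationSubring F)
    (hK : ∀ a : K, algebraMap K F a ∈ O) (hO : O ≠ ⊤) :
    ∃ v : Place K F, v.toValuationSubring = O := by
  rcases O.mem_or_inv_mem x with hxO | hxO
  · obtain ⟨i1, i2, h1, h2, h3, h4, h5, h6⟩ := exists_ffInst x hx
    exact PlacesRaw.exists_place_ff K F O hK (h1 ▸ hxO) hO
  · have hx' : Transcendental K x⁻¹ := fun h => hx (by simpa using h.inv)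
    have := finiteDimensional_of_transcendental x x⁻¹ hx hx'
    obtain ⟨i1, i2, h1, h2, h3, h4, h5, h6⟩ := exists_ffInst x⁻¹ hx'
    exact PlacesRaw.exists_place_ff K F O hK (h1 ▸ hxO) hO

end Raw

end Fermat.Agent.S24
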