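import Mathlib
import Fermat.Prelude.Def_AlgebraicCurve_CanonicalDivisor
import Fermat.Agent.S24.Places
import Fermat.Agent.S24.PlacesRaw

/-!
# S24, work package B1: extension of the constant field

`K ⊆ K'` algebraically closed, `φ : F → F'` with `F` and `K'` linearly disjoint over `K` and
`F' = K'(φ F)`.  Then degrees over the rational subfield and numbers of zeros do not change.
-/

set_option autoImplicit false
set_option linter.unusedSectionVars false

namespace Fermat.Agent.S24

open AlgebraicCurve IntermediateField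
open scoped Polynomial

namespace BaseChange

section Basic

variable {K K' F F' : Type*} [Field K] [Field K'] [Field F] [Field F'] [Algebra K F]
  [Algebra K' F']

/-- linear disjointness for families indexed by any finite type -/
theorem linearIndependent_map {κ : Type*} [Finite κ] (φ : F →+* F')
    (hLD : ∀ (n : ℕ) (f : Fin n → F), LinearIndependent K f → LinearIndependent K' (φ ∘ f))
    (f : κ → F) (hf : LinearIndependent K f) : LinearIndependent K' (φ ∘ f) := by
  obtain ⟨n, ⟨e⟩⟩ := Finite.exists_equiv_fin κ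
  have h1 : LinearIndependent K (f ∘ e.symm) := hf.comp _ e.symm.injective
  have h2 := hLD n _ h1
  have h3 : (φ ∘ f) = (φ ∘ (f ∘ e.symm)) ∘ e := by
    ext i
    simp
  rw [h3]
  exact h2.comp _ e.injective

/-- powers of a transcendental element are linearly independent -/
theorem linearIndependent_pow_of_transcendental (x : F) (hx : Transcendental K x) (M : ℕ) :
    LinearIndependent K (fun m : Fin M => x ^ (m : ℕ)) := by
  rw [Fintype.linearIndependent_iff]
  intro g hg i
  set P : K[X] := ∑ m : Fin M, Polynomial.monomial (m : ℕ) (g m) with hP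
  have h1 : Polynomial.aeval x P = 0 := by
    rw [hP, map_sum]
    simpa [Polynomial.aeval_monomial, Algebra.smul_def] using hg
  have h2 : P = 0 := (transcendental_iff.mp hx) P h1
  have h3 : P.coeff (i : ℕ) = g i := by
    rw [hP, Polynomial.finsetSum_coeff]
    simp [Polynomial.coeff_monomial, Fin.val_inj]
  rw [← h3, h2, Polynomial.coeff_zero]

/-- transcendence is preserved -/
theorem transcendental_map (φ : F →+* F')
    (hLD : ∀ (n : ℕ) (f : Fin n → F), LinearIndependent K f → LinearIndependent K' (φ ∘ f))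
    (x : F) (hx : Transcendental K x) : Transcendental K' (φ x) := by
  rw [transcendental_iff]
  intro P hP
  have hpow := linearIndependent_pow_of_transcendental x hx (P.natDegree + 1)
  have h2 := hLD _ _ hpow
  rw [Fintype.linearIndependent_iff] at h2
  have h3 := h2 (fun m => P.coeff m) (by
    rw [Polynomial.aeval_eq_sum_range, Finset.sum_range] at hP
    simpa using hP)
  ext m
  by_cases hm : m < P.natDegree + 1
  · simpa using h3 ⟨m, hm⟩
  · simp [Polynomial.coeff_eq_zero_of_natDegree_lt (by omega : P.natDegree < m)]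

/-- raw `K[X]`-linear independence transfers along `φ` -/
theorem poly_indep_map (φ : F →+* F')
    (hLD : ∀ (n : ℕ) (f : Fin n → F), LinearIndependent K f → LinearIndependent K' (φ ∘ f))
    (x : F) {n : ℕ} (b : Fin n → F)
    (hb : ∀ P : Fin n → K[X], ∑ i, Polynomial.aeval x (P i) * b i = 0 → P = 0)
    (P' : Fin n → K'[X]) (h : ∑ i, Polynomial.aeval (φ x) (P' i) * φ (b i) = 0) : P' = 0 := by
  classical
  set M : ℕ := (Finset.univ.sup fun i => (P' i).natDegree) + 1 with hM
  have hdeg : ∀ i, (P' i).natDegree < M := fun i => by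
    have : (P' i).natDegree ≤ Finset.univ.sup fun i => (P' i).natDegree :=
      Finset.le_sup (f := fun i => (P' i).natDegree) (Finset.mem_univ i)
    omega
  -- the `K`-independent family `x ^ m * b i`
  have hg : LinearIndependent K (fun im : Fin n × Fin M => x ^ (im.2 : ℕ) * b im.1) := by
    rw [Fintype.linearIndependent_iff]
    intro a ha im
    set P : Fin n → K[X] := fun i => ∑ m : Fin M, Polynomial.monomial (m : ℕ) (a (i, m)) with hP
    have h1 : ∑ i, Polynomial.aeval x (P i) * b i = 0 := by
      rw [← ha, Fintype.sum_prod_type]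
      refine Finset.sum_congr rfl fun i _ => ?_
      rw [hP, map_sum, Finset.sum_mul]
      refine Finset.sum_congr rfl fun m _ => ?_
      rw [Polynomial.aeval_monomial, Algebra.smul_def, mul_assoc]
    have h2 := hb P h1
    have h3 : (P im.1).coeff (im.2 : ℕ) = a im := by
      rw [hP, Polynomial.finsetSum_coeff]
      simp [Polynomial.coeff_monomial, Fin.val_inj]
    rw [← h3, h2]
    simp
  have hg' := linearIndependent_map φ hLD _ hg
  rw [Fintype.linearIndependent_iff] at hg'
  have h4 := hg' (fun im => (P' im.1).coeff (im.2 : ℕ)) (by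
    rw [← h, Fintype.sum_prod_type]
    refine Finset.sum_congr rfl fun i _ => ?_
    rw [Polynomial.aeval_eq_sum_range' (hdeg i), Finset.sum_mul, Finset.sum_range]
    refine Finset.sum_congr rfl fun m _ => ?_
    simp only [Function.comp_apply, map_mul, map_pow, Algebra.smul_def]
    ring)
  funext i
  ext m
  by_cases hm : m < M
  · simpa using h4 (i, ⟨m, hm⟩)
  · simp [Polynomial.coeff_eq_zero_of_natDegree_lt (by have := hdeg i; omega : (P' i).natDegree < m)]

/-- `φ` maps `K⟮x⟯` into `K'⟮φ x⟯` -/
theorem map_mem_adjoin (ι : K →+* K') (φ : F →+* F')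
    (hφ : ∀ a : K, φ (algebraMap K F a) = algebraMap K' F' (ι a)) (x : F) {r : F}
    (hr : r ∈ K⟮x⟯) : φ r ∈ K'⟮φ x⟯ := by
  induction hr using IntermediateField.adjoin_induction with
  | mem y hy =>
    rw [Set.mem_singleton_iff.mp hy]
    exact mem_adjoin_simple_self K' (φ x)
  | algebraMap a =>
    rw [hφ]
    exact IntermediateField.algebraMap_mem _ _
  | add y z _ _ hy hz =>
    rw [map_add]
    exact add_mem hy hz
  | inv y _ hy =>
    rw [map_inv₀]
    exact inv_mem hy
  | mul y z _ _ hy hz =>
    rw [map_mul]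
    exact mul_mem hy hz

/-- the induced ring homomorphism `K⟮x⟯ → K'⟮φ x⟯` -/
def adjoinMap (ι : K →+* K') (φ : F →+* F')
    (hφ : ∀ a : K, φ (algebraMap K F a) = algebraMap K' F' (ι a)) (x : F) :
    K⟮x⟯ →+* K'⟮φ x⟯ where
  toFun r := ⟨φ r, map_mem_adjoin ι φ hφ x r.2⟩
  map_one' := by ext; simp
  map_mul' a b := by ext; simp
  map_zero' := by ext; simp
  map_add' a b := by ext; simp

theorem coe_adjoinMap (ι : K →+* K') (φ : F →+* F')
    (hφ : ∀ a : K, φ (algebraMap K F a) = algebraMap K' F' (ι a)) (x : F) (r : K⟮x⟯) :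
    ((adjoinMap ι φ hφ x r : K'⟮φ x⟯) : F') = φ (r : F) := rfl

theorem isAlgebraic_map (ι : K →+* K') (φ : F →+* F')
    (hφ : ∀ a : K, φ (algebraMap K F a) = algebraMap K' F' (ι a)) (x : F)
    [Algebra.IsAlgebraic K⟮x⟯ F] (f : F) : IsAlgebraic K'⟮φ x⟯ (φ f) := by
  have hf : IsIntegral K⟮x⟯ f := (Algebra.IsAlgebraic.isAlgebraic f).isIntegral
  exact (hf.map_of_comp_eq (adjoinMap ι φ hφ x) φ (by ext r; rfl)).isAlgebraic

/-- the image of a basis spans -/
theorem span_range_map (ι : K →+* K') (φ : F →+* F')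
    (hφ : ∀ a : K, φ (algebraMap K F a) = algebraMap K' F' (ι a))
    (hgen : IntermediateField.adjoin K' (Set.range φ) = ⊤) (x : F)
    [FiniteDimensional K⟮x⟯ F] {n : ℕ} (b : Module.Basis (Fin n) K⟮x⟯ F) :
    Submodule.span K'⟮φ x⟯ (Set.range (φ ∘ b)) = ⊤ := by
  have h1 : ∀ f : F, φ f ∈ Submodule.span K'⟮φ x⟯ (Set.range (φ ∘ b)) := by
    intro f
    rw [← b.sum_repr f, map_sum]
    refine Submodule.sum_mem _ fun i _ => ?_
    have h : φ ((b.repr f i) • b i) = (adjoinMap ι φ hφ x (b.repr f i)) • φ (b i) := by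
      rw [IntermediateField.smul_def, IntermediateField.smul_def, smul_eq_mul, smul_eq_mul,
        map_mul]
      rfl
    rw [h]
    exact Submodule.smul_mem _ _ (Submodule.subset_span ⟨i, rfl⟩)
  have h2 : Subalgebra.toSubmodule (Algebra.adjoin K'⟮φ x⟯ (Set.range φ)) ≤
      Submodule.span K'⟮φ x⟯ (Set.range (φ ∘ b)) := by
    rw [Algebra.adjoin_eq_span]
    have hcl : (Submonoid.closure (Set.range φ) : Set F') = Set.range φ := by
      have h := Submonoid.closure_eq (MonoidHom.mrange (φ : F →* F'))
      have h' : ((MonoidHom.mrange (φ : F →* F')) : Set F') = Set.range φ := by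
        ext y
        simp
      rw [h'] at h
      rw [h, h']
    rw [Submodule.span_le, hcl]
    rintro _ ⟨f, rfl⟩
    exact h1 f
  have h3 : IntermediateField.adjoin K'⟮φ x⟯ (Set.range φ) = ⊤ := by
    rw [eq_top_iff]
    intro y _
    have hy : y ∈ IntermediateField.adjoin K' (Set.range φ) := by
      rw [hgen]
      trivial
    have hle : IntermediateField.adjoin K' (Set.range φ) ≤
        (IntermediateField.adjoin K'⟮φ x⟯ (Set.range φ)).restrictScalars K' := by
      rw [IntermediateField.adjoin_le_iff]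
      intro z hz
      exact IntermediateField.subset_adjoin K'⟮φ x⟯ (Set.range φ) hz
    exact hle hy
  have h4 : (IntermediateField.adjoin K'⟮φ x⟯ (Set.range φ)).toSubalgebra =
      Algebra.adjoin K'⟮φ x⟯ (Set.range φ) :=
    IntermediateField.adjoin_toSubalgebra_of_isAlgebraic (fun y hy => by
      obtain ⟨f, rfl⟩ := hy
      exact isAlgebraic_map ι φ hφ x f)
  rw [eq_top_iff]
  intro y _
  apply h2
  have hy : y ∈ (IntermediateField.adjoin K'⟮φ x⟯ (Set.range φ)).toSubalgebra := by
    rw [h3]
    trivial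
  rw [h4] at hy
  exact hy

end Basic

section Restrict

variable {K K' F F' : Type*} [Field K] [Field K'] [Field F] [Field F'] [Algebra K F]
  [Algebra K' F']

/-- semilinearity of `φ` -/
theorem map_smul_semilinear (ι : K →+* K') (φ : F →+* F')
    (hφ : ∀ a : K, φ (algebraMap K F a) = algebraMap K' F' (ι a)) (a : K) (f : F) :
    φ (a • f) = ι a • φ f := by
  rw [Algebra.smul_def, map_mul, hφ, Algebra.smul_def]

/-- `K`-spans map into `K'`-spans -/
theorem map_mem_span (ι : K →+* K') (φ : F →+* F')
    (hφ : ∀ a : K, φ (algebraMap K F a) = algebraMap K' F' (ι a)) {n : ℕ} (e : Fin n → F)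
    {u : F} (hu : u ∈ Submodule.span K (Set.range e)) :
    φ u ∈ Submodule.span K' (Set.range (φ ∘ e)) := by
  induction hu using Submodule.span_induction with
  | mem y hy =>
    obtain ⟨j, rfl⟩ := hy
    exact Submodule.subset_span ⟨j, rfl⟩
  | zero =>
    rw [map_zero]
    exact Submodule.zero_mem _
  | add y z _ _ hy hz =>
    rw [map_add]
    exact Submodule.add_mem _ hy hz
  | smul a y _ hy =>
    rw [map_smul_semilinear ι φ hφ]
    exact Submodule.smul_mem _ _ hy

/-- linear disjointness, subspace form: an element outside a `K`-subspace `U` maps outside the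
`K'`-span of the image of `U` -/
theorem map_notMem_span (ι : K →+* K') (φ : F →+* F')
    (hφ : ∀ a : K, φ (algebraMap K F a) = algebraMap K' F' (ι a))
    (hLD : ∀ (n : ℕ) (f : Fin n → F), LinearIndependent K f → LinearIndependent K' (φ ∘ f))
    (U : Submodule K F) (w : F) (hw : w ∉ U) :
    φ w ∉ Submodule.span K' (φ '' (U : Set F)) := by
  classical
  intro h
  obtain ⟨T, hT, hwT⟩ := Submodule.mem_span_finite_of_mem_span h
  have hT' : ∀ t ∈ T, ∃ u, u ∈ U ∧ φ u = t := fun t ht => hT ht
  choose! pre hpreU hpre using hT'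
  set U0 : Submodule K F := Submodule.span K (pre '' (T : Set F')) with hU0
  have hU0U : U0 ≤ U := Submodule.span_le.mpr (by
    rintro _ ⟨t, ht, rfl⟩
    exact hpreU t ht)
  have hfin : FiniteDimensional K U0 :=
    FiniteDimensional.span_of_finite K ((T : Set F').toFinite.image pre)
  let bas := Module.finBasis K U0
  set e : Fin (Module.finrank K U0) → F := fun j => (bas j : F) with he
  have he_li : LinearIndependent K e :=
    bas.linearIndependent.map' U0.subtype (Submodule.ker_subtype U0)
  have he_span : Submodule.span K (Set.range e) = U0 := by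
    have h1 := bas.span_eq
    have h2 : Set.range e = U0.subtype '' (Set.range bas) := by
      ext z
      simp [he]
    rw [h2, ← Submodule.map_span, h1, Submodule.map_top, Submodule.range_subtype]
  have hw0 : w ∉ Submodule.span K (Set.range e) := by
    rw [he_span]
    exact fun h => hw (hU0U h)
  have hcons : LinearIndependent K (Fin.cons w e : Fin (Module.finrank K U0 + 1) → F) :=
    linearIndependent_finCons.mpr ⟨he_li, hw0⟩
  have hcons' := hLD _ _ hcons
  have hcomp : (φ ∘ (Fin.cons w e : Fin (Module.finrank K U0 + 1) → F)) =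
      Fin.cons (φ w) (φ ∘ e) := by
    funext j
    refine Fin.cases ?_ (fun i => ?_) j <;> simp
  rw [hcomp, linearIndependent_finCons] at hcons'
  apply hcons'.2
  have hTle : Submodule.span K' (T : Set F') ≤ Submodule.span K' (Set.range (φ ∘ e)) := by
    rw [Submodule.span_le]
    intro t ht
    rw [← hpre t ht]
    apply map_mem_span ι φ hφ e
    rw [he_span]
    exact Submodule.subset_span ⟨t, ht, rfl⟩
  exact hTle hwT

/-- the order function of a place lying over `v` is a positive multiple of that of `v` -/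
theorem exists_ord_eq_mul (φ : F →+* F') (v : Place K F) (v' : Place K' F')
    (hR : ∀ f : F, f ∈ v.toValuationSubring ↔ φ f ∈ v'.toValuationSubring) :
    ∃ e : ℤ, 0 < e ∧ ∀ f : F, v'.ord (φ f) = e * v.ord f := by
  obtain ⟨π, hπ⟩ := IsDiscreteValuationRing.exists_irreducible v.toValuationSubring
  have hπ0 : (π : F) ≠ 0 := by simpa using hπ.ne_zero
  have hφπ0 : φ (π : F) ≠ 0 := by simpa using hπ0
  have hordπ : v.ord (π : F) = 1 := v.ord_coe_irreducible hπ
  have he0 : 0 ≤ v'.ord (φ (π : F)) :=
    (Places.ord_nonneg_iff_mem v' hφπ0).mpr ((hR _).mp π.2)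
  have he1 : v'.ord (φ (π : F)) ≠ 0 := by
    intro h0
    have h1 : 0 ≤ v'.ord (φ ((π : F)⁻¹)) := by
      rw [map_inv₀, v'.ord_inv, h0]
      simp
    have h2 : φ ((π : F)⁻¹) ∈ v'.toValuationSubring :=
      (Places.ord_nonneg_iff_mem v' (by simpa using hπ0)).mp h1
    have h3 : (π : F)⁻¹ ∈ v.toValuationSubring := (hR _).mpr h2
    have h4 : 0 ≤ v.ord ((π : F)⁻¹) :=
      (Places.ord_nonneg_iff_mem v (inv_ne_zero hπ0)).mpr h3
    rw [v.ord_inv, hordπ] at h4
    omega
  refine ⟨v'.ord (φ (π : F)), lt_of_le_of_ne he0 (Ne.symm he1), fun f => ?_⟩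
  rcases eq_or_ne f 0 with rfl | hf
  · simp
  obtain ⟨u, hu⟩ := v.exists_unit_mul_zpow hf hπ
  have hu0 : ((u : v.toValuationSubring) : F) ≠ 0 := by simp
  have hφu0 : φ ((u : v.toValuationSubring) : F) ≠ 0 := by simp
  have hui : (((u⁻¹ : v.toValuationSubringˣ) : v.toValuationSubring) : F)
      = (((u : v.toValuationSubring) : F))⁻¹ := by
    have h := congrArg (fun z : v.toValuationSubring => (z : F)) (u.mul_inv)
    simp only [MulMemClass.coe_mul, OneMemClass.coe_one] at h
    exact eq_inv_of_mul_eq_one_right h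
  have hφu : v'.ord (φ ((u : v.toValuationSubring) : F)) = 0 := by
    have h1 : 0 ≤ v'.ord (φ ((u : v.toValuationSubring) : F)) :=
      (Places.ord_nonneg_iff_mem v' hφu0).mpr ((hR _).mp (u : v.toValuationSubring).2)
    have h2 : 0 ≤ v'.ord (φ (((u : v.toValuationSubring) : F))⁻¹) := by
      rw [← hui]
      exact (Places.ord_nonneg_iff_mem v' (by rw [hui]; simp)).mpr
        ((hR _).mp ((u⁻¹ : v.toValuationSubringˣ) : v.toValuationSubring).2)
    rw [map_inv₀, v'.ord_inv] at h2
    omega
  conv_lhs => rw [hu]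
  rw [map_mul, map_zpow₀, v'.ord_mul hφu0 (zpow_ne_zero _ hφπ0), hφu, v'.ord_zpow, zero_add,
    mul_comm]

end Restrict

section Over

variable {K K' F F' : Type*} [Field K] [Field K'] [Field F] [Field F'] [Algebra K F]
  [Algebra K' F']

/-- the maximal ideal of a place, as a `K`-subspace of `F` -/
def maxSub (v : Place K F) : Submodule K F where
  carrier := {f | ∃ h : f ∈ v.toValuationSubring,
    (⟨f, h⟩ : v.toValuationSubring) ∈ IsLocalRing.maximalIdeal v.toValuationSubring}
  add_mem' := by
    rintro a b ⟨ha, hma⟩ ⟨hb, hmb⟩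
    exact ⟨add_mem ha hb, Ideal.add_mem _ hma hmb⟩
  zero_mem' := ⟨zero_mem _, Ideal.zero_mem _⟩
  smul_mem' := by
    rintro c f ⟨hf, hmf⟩
    have hcf : c • f ∈ v.toValuationSubring := by
      rw [Algebra.smul_def]
      exact mul_mem (v.algebraMap_mem' c) hf
    refine ⟨hcf, ?_⟩
    have h : (⟨c • f, hcf⟩ : v.toValuationSubring) =
        (⟨algebraMap K F c, v.algebraMap_mem' c⟩ : v.toValuationSubring) * ⟨f, hf⟩ := by
      ext
      simp [Algebra.smul_def]
    rw [h]
    exact Ideal.mul_mem_left _ _ hmf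

theorem one_notMem_maxSub (v : Place K F) : (1 : F) ∉ maxSub v := by
  rintro ⟨h, hm⟩
  exact (IsLocalRing.mem_maximalIdeal _).mp hm isUnit_one

/-- existence of a place of `F'` over a given place of `F` -/
theorem exists_place_over [IsAlgClosed K'] [CharZero K'] (ι : K →+* K') (φ : F →+* F')
    (hφ : ∀ a : K, φ (algebraMap K F a) = algebraMap K' F' (ι a))
    (hLD : ∀ (n : ℕ) (f : Fin n → F), LinearIndependent K f → LinearIndependent K' (φ ∘ f))
    (x' : F') (hx' : Transcendental K' x') [FiniteDimensional K'⟮x'⟯ F'] (v : Place K F) :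
    ∃ v' : Place K' F', ∀ f : F, f ∈ v.toValuationSubring ↔ φ f ∈ v'.toValuationSubring := by
  obtain ⟨π, hπ⟩ := IsDiscreteValuationRing.exists_irreducible v.toValuationSubring
  have hπ0 : (π : F) ≠ 0 := by simpa using hπ.ne_zero
  have hφπ0 : φ (π : F) ≠ 0 := by simpa using hπ0
  have hπmax : π ∈ IsLocalRing.maximalIdeal v.toValuationSubring :=
    (IsLocalRing.mem_maximalIdeal _).mpr hπ.not_isUnit
  -- the subalgebra generated by the image of the valuation ring
  set A' : Subalgebra K' F' := Algebra.adjoin K' (φ '' (v.toValuationSubring : Set F)) with hA'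
  have hmemA : ∀ o ∈ v.toValuationSubring, φ o ∈ A' :=
    fun o ho => Algebra.subset_adjoin ⟨o, ho, rfl⟩
  have hAspan : ∀ a ∈ A', a ∈ Submodule.span K' (φ '' (v.toValuationSubring : Set F)) := by
    intro a ha
    have h1 : a ∈ Subalgebra.toSubmodule A' := ha
    rw [hA', Algebra.adjoin_eq_span] at h1
    have hcl : (Submonoid.closure (φ '' (v.toValuationSubring : Set F)) : Set F') =
        φ '' (v.toValuationSubring : Set F) := by
      have h := Submonoid.closure_eq
        (Submonoid.map (φ : F →* F') v.toValuationSubring.toSubring.toSubmonoid)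
      have h' : ((Submonoid.map (φ : F →* F') v.toValuationSubring.toSubring.toSubmonoid :
          Submonoid F') : Set F') = φ '' (v.toValuationSubring : Set F) := by
        ext y
        simp
      rw [h'] at h
      rw [h, h']
    rwa [hcl] at h1
  have hmul : ∀ a ∈ Submodule.span K' (φ '' (v.toValuationSubring : Set F)),
      a * φ (π : F) ∈ Submodule.span K' (φ '' (maxSub v : Set F)) := by
    intro a ha
    induction ha using Submodule.span_induction with
    | mem y hy =>
      obtain ⟨o, ho, rfl⟩ := hy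
      rw [← map_mul]
      refine Submodule.subset_span ⟨o * π, ⟨mul_mem ho π.2, ?_⟩, rfl⟩
      have h : (⟨o * (π : F), mul_mem ho π.2⟩ : v.toValuationSubring) = ⟨o, ho⟩ * π := by
        ext
        simp
      rw [h]
      exact Ideal.mul_mem_left _ _ hπmax
    | zero => simp
    | add y z _ _ hy hz =>
      rw [add_mul]
      exact Submodule.add_mem _ hy hz
    | smul c y _ hy =>
      rw [smul_mul_assoc]
      exact Submodule.smul_mem _ _ hy
  -- the proper ideal generated by `φ π`
  set I : Ideal A'.toSubring :=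
    Ideal.span {(⟨φ (π : F), hmemA _ π.2⟩ : A'.toSubring)} with hI
  have hItop : I ≠ ⊤ := by
    intro htop
    have h1 : (1 : A'.toSubring) ∈ I := by
      rw [htop]
      trivial
    rw [hI, Ideal.mem_span_singleton'] at h1
    obtain ⟨a, ha⟩ := h1
    have h2 : (a : F') * φ (π : F) = 1 := congrArg Subtype.val ha
    have h3 := hmul (a : F') (hAspan _ a.2)
    rw [h2] at h3
    have h4 := map_notMem_span ι φ hφ hLD (maxSub v) 1 (one_notMem_maxSub v)
    rw [map_one] at h4
    exact h4 h3
  obtain ⟨B, hAB, hIB⟩ := Ideal.image_subset_nonunits_valuationSubring I hItop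
  have hφπB : φ (π : F) ∈ B.nonunits :=
    hIB ⟨⟨φ (π : F), hmemA _ π.2⟩, Ideal.subset_span rfl, rfl⟩
  have hinv : (φ (π : F))⁻¹ ∉ B :=
    ((ValuationSubring.mem_nonunits_iff_or B).mp hφπB).resolve_left hφπ0
  have hK' : ∀ a : K', algebraMap K' F' a ∈ B := fun a => hAB (A'.algebraMap_mem a)
  have hBtop : B ≠ ⊤ := by
    intro h
    apply hinv
    rw [h]
    trivial
  obtain ⟨v', hv'⟩ := exists_place_of_valuationSubring x' hx' B hK' hBtop
  refine ⟨v', ?_⟩
  have hle : v.toValuationSubring ≤ B.comap φ :=
    fun o ho => ValuationSubring.mem_comap.mpr (hAB (hmemA o ho))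
  have hne : B.comap φ ≠ ⊤ := by
    intro h
    have h1 : (π : F)⁻¹ ∈ B.comap φ := by
      rw [h]
      trivial
    rw [ValuationSubring.mem_comap, map_inv₀] at h1
    exact hinv h1
  have heq := ValuationSubring.eq_of_le_of_ne_top v.toValuationSubring hle hne
  intro f
  rw [hv', heq, ValuationSubring.mem_comap]

/-- restriction of a place of `F'` (at which some `φ y` vanishes) to `F` -/
theorem exists_place_under [IsAlgClosed K] [CharZero K] (ι : K →+* K') (φ : F →+* F')
    (hφ : ∀ a : K, φ (algebraMap K F a) = algebraMap K' F' (ι a))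
    (x : F) (hx : Transcendental K x) [FiniteDimensional K⟮x⟯ F] (v' : Place K' F')
    (y : F) (hy : 0 < v'.ord (φ y)) :
    ∃ v : Place K F, ∀ f : F, f ∈ v.toValuationSubring ↔ φ f ∈ v'.toValuationSubring := by
  have hφy0 : φ y ≠ 0 := by
    intro h
    rw [h, v'.ord_zero] at hy
    exact lt_irrefl _ hy
  have hK : ∀ a : K, algebraMap K F a ∈ v'.toValuationSubring.comap φ := by
    intro a
    rw [ValuationSubring.mem_comap, hφ]
    exact v'.algebraMap_mem' _
  have hO : v'.toValuationSubring.comap φ ≠ ⊤ := by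
    intro h
    have h1 : y⁻¹ ∈ v'.toValuationSubring.comap φ := by
      rw [h]
      trivial
    rw [ValuationSubring.mem_comap, map_inv₀] at h1
    have h2 := (Places.ord_nonneg_iff_mem v' (inv_ne_zero hφy0)).mpr h1
    rw [v'.ord_inv] at h2
    omega
  obtain ⟨v, hv⟩ := exists_place_of_valuationSubring x hx _ hK hO
  exact ⟨v, fun f => by rw [hv, ValuationSubring.mem_comap]⟩

end Over

section Count

/-- a surjection which does not increase a weighted count with positive weights is a bijection -/
theorem card_eq_of_surjective_of_sum_le {A B : Type*} [Fintype A] [Fintype B] (ρ : A → B)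
    (hρ : Function.Surjective ρ) (w : B → ℤ) (hw : ∀ b, 0 < w b)
    (hsum : ∑ a, w (ρ a) ≤ ∑ b, w b) : Fintype.card A = Fintype.card B := by
  classical
  obtain ⟨s, hs⟩ := hρ.hasRightInverse
  have hsinj : Function.Injective s := hs.injective
  have himg : Finset.univ.image s = Finset.univ := by
    by_contra hne
    obtain ⟨a0, ha0⟩ : ∃ a0, a0 ∉ Finset.univ.image s := by
      by_contra h
      exact hne (Finset.eq_univ_iff_forall.mpr (fun a => by
        by_contra ha
        exact h ⟨a, ha⟩))
    have h1 : ∑ a ∈ Finset.univ.image s, w (ρ a) < ∑ a, w (ρ a) :=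
      Finset.sum_lt_sum_of_subset (Finset.subset_univ _) (Finset.mem_univ a0) ha0 (hw (ρ a0))
        (fun j _ _ => (hw (ρ j)).le)
    have h2 : ∑ a ∈ Finset.univ.image s, w (ρ a) = ∑ b, w b := by
      rw [Finset.sum_image (fun x _ y _ h => hsinj h)]
      exact Finset.sum_congr rfl fun b _ => by rw [hs b]
    omega
  have hsurj : Function.Surjective s := fun a => by
    have h : a ∈ Finset.univ.image s := by
      rw [himg]
      exact Finset.mem_univ a
    obtain ⟨b, _, hb⟩ := Finset.mem_image.mp h
    exact ⟨b, hb⟩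
  exact (Fintype.card_of_bijective ⟨hsinj, hsurj⟩).symm

end Count

section Degree

variable {K K' F F' : Type*} [Field K] [IsAlgClosed K] [CharZero K]
  [Field K'] [IsAlgClosed K'] [CharZero K'] [Field F] [Field F'] [Algebra K F] [Algebra K' F']

/-- compatibility of `φ` with polynomial evaluation -/
theorem map_aeval (ι : K →+* K') (φ : F →+* F')
    (hφ : ∀ a : K, φ (algebraMap K F a) = algebraMap K' F' (ι a)) (x : F) (P : K[X]) :
    φ (Polynomial.aeval x P) = Polynomial.aeval (φ x) (P.map ι) := by
  rw [Polynomial.aeval_def, Polynomial.aeval_def, Polynomial.hom_eval₂, Polynomial.eval₂_map]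
  congr 1
  ext a
  exact hφ a

/-- transcendence descends -/
theorem transcendental_of_map (ι : K →+* K') (φ : F →+* F')
    (hφ : ∀ a : K, φ (algebraMap K F a) = algebraMap K' F' (ι a)) (x : F)
    (hx' : Transcendental K' (φ x)) : Transcendental K x := by
  rw [transcendental_iff]
  intro P hP
  have h1 : Polynomial.aeval (φ x) (P.map ι) = 0 := by
    rw [← map_aeval ι φ hφ, hP, map_zero]
  have h2 := (transcendental_iff.mp hx') _ h1
  exact (Polynomial.map_eq_zero_iff ι.injective).mp h2

/-- a `K⟮x⟯`-linearly independent family has at most `[F' : K'(φ x)]` members -/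
theorem card_le_finrank_map (φ : F →+* F')
    (hLD : ∀ (n : ℕ) (f : Fin n → F), LinearIndependent K f → LinearIndependent K' (φ ∘ f))
    (x : F) (hx : Transcendental K x) (hx' : Transcendental K' (φ x))
    [FiniteDimensional K'⟮φ x⟯ F'] {n : ℕ} (b : Fin n → F)
    (hbli : LinearIndependent K⟮x⟯ b) : n ≤ Module.finrank K'⟮φ x⟯ F' := by
  obtain ⟨i1, i2, h1, h2, h3, h4, h5, h6⟩ := exists_ffInst (φ x) hx'
  have hgen' : ∀ P : K[X], Polynomial.aeval x P =
      ((Polynomial.aeval (AdjoinSimple.gen K x) P : K⟮x⟯) : F) := by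
    intro P
    have h := Polynomial.aeval_algebraMap_apply F (AdjoinSimple.gen K x) P
    rw [AdjoinSimple.algebraMap_gen] at h
    rw [h]
    rfl
  have hb : ∀ P : Fin n → K[X], ∑ i, Polynomial.aeval x (P i) * b i = 0 → P = 0 := by
    intro P hP
    have hli := hbli
    rw [Fintype.linearIndependent_iff] at hli
    have h0 := hli (fun i => Polynomial.aeval (AdjoinSimple.gen K x) (P i)) (by
      rw [← hP]
      refine Finset.sum_congr rfl fun i _ => ?_
      rw [IntermediateField.smul_def, smul_eq_mul, hgen'])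
    funext i
    have h7 : Polynomial.aeval x (P i) = 0 := by
      rw [hgen', h0 i]
      simp
    exact (transcendental_iff.mp hx) (P i) h7
  have hb' := poly_indep_map φ hLD x b hb
  have hmap : ∀ g : K'[X], algebraMap K'[X] F' g = Polynomial.aeval (φ x) g := by
    intro g
    have h := Polynomial.aeval_algebraMap_apply F' (Polynomial.X : K'[X]) g
    rw [h1, Polynomial.aeval_X_left_apply] at h
    exact h.symm
  have hli : LinearIndependent K'[X] (φ ∘ b) := by
    rw [Fintype.linearIndependent_iff]
    intro g hg i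
    have h := hb' g (by
      rw [← hg]
      refine Finset.sum_congr rfl fun i _ => ?_
      rw [Algebra.smul_def, hmap]
      rfl)
    rw [h]
    rfl
  have hli' : LinearIndependent (RatFunc K') (φ ∘ b) :=
    (LinearIndependent.iff_fractionRing K'[X] (RatFunc K')).mp hli
  have h8 := hli'.fintype_card_le_finrank
  rw [h6] at h8
  simpa using h8

/-- the degree over the rational subfield does not change (ascent form) -/
theorem finrank_ascent (ι : K →+* K') (φ : F →+* F')
    (hφ : ∀ a : K, φ (algebraMap K F a) = algebraMap K' F' (ι a))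
    (hLD : ∀ (n : ℕ) (f : Fin n → F), LinearIndependent K f → LinearIndependent K' (φ ∘ f))
    (hgen : IntermediateField.adjoin K' (Set.range φ) = ⊤)
    (x : F) (hx : Transcendental K x) [FiniteDimensional K⟮x⟯ F] :
    Transcendental K' (φ x) ∧ FiniteDimensional K'⟮φ x⟯ F' ∧
      Module.finrank K'⟮φ x⟯ F' = Module.finrank K⟮x⟯ F := by
  have htr := transcendental_map φ hLD x hx
  let b : Module.Basis (Fin (Module.finrank K⟮x⟯ F)) K⟮x⟯ F := Module.finBasis K⟮x⟯ F
  have hspan := span_range_map ι φ hφ hgen x b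
  have hfin : FiniteDimensional K'⟮φ x⟯ F' := by
    refine ⟨?_⟩
    rw [← hspan]
    exact Submodule.fg_span (Set.finite_range _)
  refine ⟨htr, hfin, le_antisymm ?_ ?_⟩
  · have h := finrank_range_le_card (R := K'⟮φ x⟯) (φ ∘ b)
    rw [Set.finrank, hspan, finrank_top] at h
    simpa using h
  · exact card_le_finrank_map φ hLD x hx htr (fun i => b i) b.linearIndependent

end Degree

end BaseChange

section BaseChange

variable {K K' F F' : Type*} [Field K] [IsAlgClosed K] [CharZero K]
  [Field K'] [IsAlgClosed K'] [CharZero K'] [Field F] [Field F'] [Algebra K F] [Algebra K' F']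

/-- the degree over the rational subfield does not change (descent form: finiteness is
assumed for `F'` and deduced for `F`) -/
theorem baseChange_finrank (ι : K →+* K') (φ : F →+* F')
    (hφ : ∀ a : K, φ (algebraMap K F a) = algebraMap K' F' (ι a))
    (hLD : ∀ (n : ℕ) (f : Fin n → F), LinearIndependent K f → LinearIndependent K' (φ ∘ f))
    (hgen : IntermediateField.adjoin K' (Set.range φ) = ⊤)
    (x : F) (hx' : Transcendental K' (φ x)) [FiniteDimensional K'⟮φ x⟯ F'] :
    Transcendental K x ∧ FiniteDimensional K⟮x⟯ F ∧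
      Module.finrank K⟮x⟯ F = Module.finrank K'⟮φ x⟯ F' := by
  have hx := BaseChange.transcendental_of_map ι φ hφ x hx'
  have hrank : Module.rank K⟮x⟯ F ≤ (Module.finrank K'⟮φ x⟯ F' : ℕ) := by
    apply rank_le
    intro s hs
    have hli : LinearIndependent K⟮x⟯ (fun i : Fin s.card => ((s.equivFin.symm i : s) : F)) :=
      hs.comp _ s.equivFin.symm.injective
    exact BaseChange.card_le_finrank_map φ hLD x hx hx' _ hli
  have hfin : FiniteDimensional K⟮x⟯ F :=
    Module.rank_lt_aleph0_iff.mp (lt_of_le_of_lt hrank (Cardinal.natCast_lt_aleph0))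
  obtain ⟨-, -, h⟩ := BaseChange.finrank_ascent ι φ hφ hLD hgen x hx
  exact ⟨hx, hfin, h.symm⟩

/-- the number of zeros of a function does not change -/
theorem baseChange_card_zeros (ι : K →+* K') (φ : F →+* F')
    (hφ : ∀ a : K, φ (algebraMap K F a) = algebraMap K' F' (ι a))
    (hLD : ∀ (n : ℕ) (f : Fin n → F), LinearIndependent K f → LinearIndependent K' (φ ∘ f))
    (hgen : IntermediateField.adjoin K' (Set.range φ) = ⊤)
    (x : F) (hx : Transcendental K x) [FiniteDimensional K⟮x⟯ F]
    (y : F) (hy : Transcendental K y) :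
    Nat.card {v' : Place K' F' // 0 < v'.ord (φ y)} = Nat.card {v : Place K F // 0 < v.ord y} := by
  classical
  obtain ⟨hx', hfin', -⟩ := BaseChange.finrank_ascent ι φ hφ hLD hgen x hx
  have hFy : FiniteDimensional K⟮y⟯ F := finiteDimensional_of_transcendental x y hx hy
  obtain ⟨hy', hfiny', hdeg⟩ := BaseChange.finrank_ascent ι φ hφ hLD hgen y hy
  obtain ⟨S, hS, hSsum⟩ := exists_finset_zeros y hy
  obtain ⟨S', hS', hS'sum⟩ := exists_finset_zeros (φ y) hy'
  let _i1 : Fintype {v : Place K F // 0 < v.ord y} := Fintype.subtype S hS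
  let _i2 : Fintype {v' : Place K' F' // 0 < v'.ord (φ y)} := Fintype.subtype S' hS'
  rw [Nat.card_eq_fintype_card, Nat.card_eq_fintype_card]
  -- the restriction map
  have hres : ∀ a : {v' : Place K' F' // 0 < v'.ord (φ y)},
      ∃ b : {v : Place K F // 0 < v.ord y},
        ∀ f : F, f ∈ b.1.toValuationSubring ↔ φ f ∈ a.1.toValuationSubring := by
    intro a
    obtain ⟨v, hv⟩ := BaseChange.exists_place_under ι φ hφ x hx a.1 y a.2
    obtain ⟨e, he, hord⟩ := BaseChange.exists_ord_eq_mul φ v a.1 hv
    have hpos : 0 < v.ord y := by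
      have h := a.2
      rw [hord] at h
      exact (mul_pos_iff_of_pos_left he).mp h
    exact ⟨⟨v, hpos⟩, hv⟩
  choose ρ hρ using hres
  have hsurj : Function.Surjective ρ := by
    intro b
    obtain ⟨v', hv'⟩ := BaseChange.exists_place_over ι φ hφ hLD (φ x) hx' b.1
    obtain ⟨e, he, hord⟩ := BaseChange.exists_ord_eq_mul φ b.1 v' hv'
    have hpos : 0 < v'.ord (φ y) := by
      rw [hord]
      exact mul_pos he b.2
    refine ⟨⟨v', hpos⟩, ?_⟩
    apply Subtype.ext
    apply Place.ext
    ext f
    rw [hρ ⟨v', hpos⟩ f, hv' f]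
  have hle : ∀ a, (ρ a).1.ord y ≤ a.1.ord (φ y) := by
    intro a
    obtain ⟨e, he, hord⟩ := BaseChange.exists_ord_eq_mul φ (ρ a).1 a.1 (hρ a)
    rw [hord]
    have h := (ρ a).2
    nlinarith
  apply BaseChange.card_eq_of_surjective_of_sum_le ρ hsurj (fun b => b.1.ord y) (fun b => b.2)
  calc ∑ a, (ρ a).1.ord y
      ≤ ∑ a : {v' : Place K' F' // 0 < v'.ord (φ y)}, a.1.ord (φ y) :=
        Finset.sum_le_sum fun a _ => hle a
    _ = ∑ v' ∈ S', v'.ord (φ y) := (Finset.sum_subtype S' hS' (fun v' => v'.ord (φ y))).symm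
    _ = (Module.finrank K'⟮φ y⟯ F' : ℤ) := hS'sum
    _ = (Module.finrank K⟮y⟯ F : ℤ) := by rw [hdeg]
    _ = ∑ v ∈ S, v.ord y := hSsum.symm
    _ = ∑ b : {v : Place K F // 0 < v.ord y}, b.1.ord y :=
        Finset.sum_subtype S hS (fun v => v.ord y)

end BaseChange

end Fermat.Agent.S24
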