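import Mathlib
import Fermat.Prelude.Def_ModularCurve_ArithmeticGalois
import Fermat.Agent.S24.Defs

/-!
# S24, WP-B2: the coefficient extension `ℚ̄((q)) → ℂ((q))`

The coefficientwise embedding `ι : ℚ̄ → ℂ` induces a ring homomorphism
`FF ℚ̄ N → FF ℂ N` which is `ι`-semilinear on constants, preserves linear independence
over the constants, has image generating `FF ℂ N` over `ℂ`, and maps `j` to `j`.
-/

set_option autoImplicit false

namespace Fermat.Agent.S24

open AlgebraicCurve IntermediateField ModularCurve

namespace CoeffBC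

section General

variable {K C : Type*} [Field K] [Field C] [Algebra ℚ K] [Algebra ℚ C]

omit [Algebra ℚ K] [Algebra ℚ C] in
/-- coefficient maps send constants to constants -/
theorem coeffMap_algebraMap' (ι : K →+* C) (a : K) :
    coeffMap ι (algebraMap K (LaurentSeries K) a) = algebraMap C (LaurentSeries C) (ι a) := by
  rw [algebraMap_laurentSeries_eq_single, algebraMap_laurentSeries_eq_single, coeffMap_single]

/-- coefficients of a scalar multiple in the base-changed field -/
theorem coe_smul_coeff (F₀ : IntermediateField ℚ (LaurentSeries ℚ)) (a : K)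
    (x : ↥(laurentBaseChange K F₀)) (m : ℤ) :
    ((a • x : ↥(laurentBaseChange K F₀)) : LaurentSeries K).coeff m =
      a * (x : LaurentSeries K).coeff m := by
  rw [Algebra.smul_def, MulMemClass.coe_mul, IntermediateField.coe_algebraMap_apply,
    algebraMap_laurentSeries_eq_single]
  exact HahnSeries.coeff_single_zero_mul

/-- coefficient maps commute with the rational coefficient embeddings -/
theorem coeffMap_coeffEmb' (ι : K →+* C) (x : LaurentSeries ℚ) :
    coeffMap ι (coeffEmb K x) = coeffEmb C x := by
  rw [coeffEmb, coeffMap_coeffMap]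
  exact coeffMap_congr (RingHom.ext fun c => by simp) x

theorem coeffMap_mem (ι : K →+* C) (F₀ : IntermediateField ℚ (LaurentSeries ℚ))
    {x : LaurentSeries K} (hx : x ∈ laurentBaseChange K F₀) :
    coeffMap ι x ∈ laurentBaseChange C F₀ := by
  rw [mem_laurentBaseChange_iff] at hx
  induction hx using Subfield.closure_induction with
  | mem y hy =>
      rcases hy with ⟨a, rfl⟩ | ⟨z, hz, rfl⟩
      · rw [coeffMap_algebraMap']
        exact (laurentBaseChange C F₀).algebraMap_mem _
      · rw [coeffMap_coeffEmb']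
        exact coeffEmb_mem_laurentBaseChange C hz
  | one => simp
  | add x y _ _ hx hy => simpa using add_mem hx hy
  | neg x _ hx => simpa using neg_mem hx
  | inv x _ hx => simpa using inv_mem hx
  | mul x y _ _ hx hy => simpa using mul_mem hx hy

/-- the coefficient extension on the base-changed fields -/
noncomputable def bc (ι : K →+* C) (F₀ : IntermediateField ℚ (LaurentSeries ℚ)) :
    ↥(laurentBaseChange K F₀) →+* ↥(laurentBaseChange C F₀) :=
  (coeffMap ι).restrict (laurentBaseChange K F₀) (laurentBaseChange C F₀)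
    fun _ hx => coeffMap_mem ι F₀ hx

theorem coe_bc (ι : K →+* C) (F₀ : IntermediateField ℚ (LaurentSeries ℚ))
    (x : ↥(laurentBaseChange K F₀)) :
    ((bc ι F₀ x : ↥(laurentBaseChange C F₀)) : LaurentSeries C) =
      coeffMap ι (x : LaurentSeries K) := rfl

theorem bc_algebraMap (ι : K →+* C) (F₀ : IntermediateField ℚ (LaurentSeries ℚ)) (a : K) :
    bc ι F₀ (algebraMap K ↥(laurentBaseChange K F₀) a) =
      algebraMap C ↥(laurentBaseChange C F₀) (ι a) := by
  apply Subtype.ext
  rw [coe_bc]
  exact coeffMap_algebraMap' ι a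

/-- linear independence over the constants is preserved -/
theorem bc_linearIndependent (ι : K →+* C) (F₀ : IntermediateField ℚ (LaurentSeries ℚ))
    (n : ℕ) (f : Fin n → ↥(laurentBaseChange K F₀)) (hf : LinearIndependent K f) :
    LinearIndependent C (bc ι F₀ ∘ f) := by
  classical
  -- coefficient vectors
  let w : ℤ → (Fin n → K) := fun m i => ((f i : ↥(laurentBaseChange K F₀)) : LaurentSeries K).coeff m
  -- their span is everything
  have hW : Submodule.span K (Set.range w) = ⊤ := by
    by_contra hne
    obtain ⟨l, hl0, hl⟩ := Submodule.exists_le_ker_of_lt_top _ (lt_top_iff_ne_top.mpr hne)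
    have hrel : ∑ i, l (Pi.single i 1) • f i = 0 := by
      apply Subtype.ext
      ext m
      have h1 : l (w m) = 0 := hl (Submodule.subset_span ⟨m, rfl⟩)
      have h2 : w m = ∑ i, w m i • (Pi.single i (1 : K) : Fin n → K) := by
        ext j
        simp [Finset.sum_apply, Pi.single_apply]
      rw [h2, map_sum] at h1
      simp only [map_smul, smul_eq_mul] at h1
      rw [IntermediateField.coe_sum, HahnSeries.coeff_sum]
      simp only [ZeroMemClass.coe_zero, HahnSeries.coeff_zero]
      rw [← h1]
      refine Finset.sum_congr rfl fun i _ => ?_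
      exact (coe_smul_coeff F₀ (l (Pi.single i 1)) (f i) m).trans (mul_comm _ _)
    have hzero := Fintype.linearIndependent_iff.mp hf _ hrel
    apply hl0
    apply LinearMap.ext
    intro v
    have h2 : v = ∑ i, v i • (Pi.single i (1 : K) : Fin n → K) := by
      ext j
      simp [Finset.sum_apply, Pi.single_apply]
    show l v = 0
    rw [h2, map_sum]
    exact Finset.sum_eq_zero fun i _ => by rw [map_smul, hzero i, smul_zero]
  rw [Fintype.linearIndependent_iff]
  intro c hc j
  -- the `ι`-semilinear functional attached to `c` vanishes on all coefficient vectors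
  let Z : Submodule K (Fin n → K) :=
    { carrier := {v | ∑ i, c i * ι (v i) = 0}
      add_mem' := by
        intro a b ha hb
        simp only [Set.mem_ofPred_eq, Pi.add_apply, map_add, mul_add, Finset.sum_add_distrib] at *
        rw [ha, hb, add_zero]
      zero_mem' := by simp
      smul_mem' := by
        intro a v hv
        simp only [Set.mem_ofPred_eq, Pi.smul_apply, smul_eq_mul, map_mul] at *
        have : ∑ i, c i * (ι a * ι (v i)) = ι a * ∑ i, c i * ι (v i) := by
          rw [Finset.mul_sum]
          exact Finset.sum_congr rfl fun i _ => by ring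
        rw [this, hv, mul_zero] }
  have hZ : Submodule.span K (Set.range w) ≤ Z := by
    rw [Submodule.span_le]
    rintro _ ⟨m, rfl⟩
    show ∑ i, c i * ι (w m i) = 0
    have h1 := congrArg (fun y : ↥(laurentBaseChange C F₀) => (y : LaurentSeries C).coeff m) hc
    simp only [Function.comp_apply, ZeroMemClass.coe_zero, HahnSeries.coeff_zero] at h1
    rw [IntermediateField.coe_sum, HahnSeries.coeff_sum] at h1
    rw [← h1]
    refine Finset.sum_congr rfl fun i _ => ?_
    exact (coe_smul_coeff F₀ (c i) (bc ι F₀ (f i)) m).symm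
  have hj : (Pi.single j (1 : K) : Fin n → K) ∈ Z := hZ (hW ▸ Submodule.mem_top)
  have hj' : ∑ i, c i * ι ((Pi.single j (1 : K) : Fin n → K) i) = 0 := hj
  simpa [Pi.single_apply] using hj'

/-- the image generates -/
theorem adjoin_range_bc (ι : K →+* C) (F₀ : IntermediateField ℚ (LaurentSeries ℚ)) :
    IntermediateField.adjoin C (Set.range (bc ι F₀)) = ⊤ := by
  rw [eq_top_iff]
  intro y _
  set E := IntermediateField.adjoin C (Set.range (bc ι F₀)) with hE
  have hle : laurentBaseChange C F₀ ≤ IntermediateField.lift E := by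
    change IntermediateField.adjoin C (⇑(coeffEmb C) '' (F₀ : Set (LaurentSeries ℚ))) ≤ _
    rw [IntermediateField.adjoin_le_iff]
    rintro _ ⟨x, hx, rfl⟩
    have h1 : bc ι F₀ ⟨coeffEmb K x, coeffEmb_mem_laurentBaseChange K hx⟩ ∈ E :=
      IntermediateField.subset_adjoin C _ ⟨_, rfl⟩
    have h2 := (IntermediateField.mem_lift
      (bc ι F₀ ⟨coeffEmb K x, coeffEmb_mem_laurentBaseChange K hx⟩)).mpr h1
    rw [coe_bc] at h2
    rw [SetLike.mem_coe, ← coeffMap_coeffEmb' ι x]
    exact h2
  exact (IntermediateField.mem_lift y).mp (hle y.2)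

end General

end CoeffBC

/-- WP-B2: the coefficient extension `ℚ̄((q)) → ℂ((q))` on the function fields of `X₀(N)`. -/
theorem exists_barToComplex (N : ℕ) [NeZero N] :
    ∃ (ι : AlgebraicClosure ℚ →+* ℂ) (φ : FF (AlgebraicClosure ℚ) N →+* FF ℂ N),
      (∀ a : AlgebraicClosure ℚ,
        φ (algebraMap (AlgebraicClosure ℚ) (FF (AlgebraicClosure ℚ) N) a) =
          algebraMap ℂ (FF ℂ N) (ι a)) ∧
      (∀ (n : ℕ) (f : Fin n → FF (AlgebraicClosure ℚ) N),
        LinearIndependent (AlgebraicClosure ℚ) f → LinearIndependent ℂ (φ ∘ f)) ∧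
      IntermediateField.adjoin ℂ (Set.range φ) = ⊤ ∧
      φ (jBC (AlgebraicClosure ℚ) N) = jBC ℂ N := by
  obtain ⟨ι⟩ : Nonempty (AlgebraicClosure ℚ →+* ℂ) := by
    letI : Algebra ℚ (AlgebraicClosure ℚ) :=
      @AlgebraicClosure.instAlgebra ℚ _ ℚ _ (Algebra.id ℚ)
    exact ⟨(IsAlgClosed.lift : AlgebraicClosure ℚ →ₐ[ℚ] ℂ).toRingHom⟩
  refine ⟨ι, CoeffBC.bc ι (modularFunctionFieldFull N), ?_, ?_, ?_, ?_⟩
  · exact fun a => CoeffBC.bc_algebraMap ι _ a
  · exact fun n f hf => CoeffBC.bc_linearIndependent ι _ n f hf
  · exact CoeffBC.adjoin_range_bc ι _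
  · apply Subtype.ext
    rw [CoeffBC.coe_bc, coe_jBC, coe_jBC]
    exact CoeffBC.coeffMap_coeffEmb' ι jq

end Fermat.Agent.S24
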