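import Mathlib
import Fermat.Prelude.Def_AlgebraicCurve_CanonicalDivisor
import Fermat.Agent.S24.Places
import Fermat.Agent.S20.AinfDVR

/-!
# S24: bridge between height one primes of a Dedekind domain and places of its fraction field
-/

set_option autoImplicit false
set_option linter.unusedSectionVars false

namespace Fermat.Agent.S24

open AlgebraicCurve IsDedekindDomain
open scoped Polynomial

namespace PrimeBridge

section General

variable {K F : Type*} [Field K] [Field F] [Algebra K F]
variable (B : Type*) [CommRing B] [IsDedekindDomain B] [Algebra B F] [IsFractionRing B F]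

/-- the place of `F = Frac B` attached to a height one prime of `B` -/
noncomputable def placeOfPrime (hK : ∀ a : K, algebraMap K F a ∈ (algebraMap B F).range)
    (𝔮 : HeightOneSpectrum B) : Place K F where
  toValuationSubring := (𝔮.valuation F).valuationSubring
  algebraMap_mem' := fun a => by
    obtain ⟨b, hb⟩ := hK a
    rw [← hb, Valuation.mem_valuationSubring_iff]
    exact 𝔮.valuation_le_one b
  ne_top' := by
    simp only [ne_eq, Valuation.valuationSubring_eq_top_iff, not_not]
    infer_instance
  isPrincipalIdealRing' := Place.isPrincipalIdealRing_valuationSubring 𝔮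

theorem placeOfPrime_toValuationSubring (hK : ∀ a : K, algebraMap K F a ∈ (algebraMap B F).range)
    (𝔮 : HeightOneSpectrum B) :
    (placeOfPrime B hK 𝔮).toValuationSubring = (𝔮.valuation F).valuationSubring := rfl

theorem placeOfPrime_ord (hK : ∀ a : K, algebraMap K F a ∈ (algebraMap B F).range)
    (𝔮 : HeightOneSpectrum B) (f : F) :
    (placeOfPrime B hK 𝔮).ord f = -(WithZero.log (𝔮.valuation F f)) :=
  PlacesFF.ord_eq_of_toValuationSubring_eq _ 𝔮 rfl f

theorem algebraMap_mem_placeOfPrime (hK : ∀ a : K, algebraMap K F a ∈ (algebraMap B F).range)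
    (𝔮 : HeightOneSpectrum B) (b : B) :
    algebraMap B F b ∈ (placeOfPrime B hK 𝔮).toValuationSubring := by
  show algebraMap B F b ∈ (𝔮.valuation F).valuationSubring
  rw [Valuation.mem_valuationSubring_iff]
  exact 𝔮.valuation_le_one b

/-- positivity of the order of an element of `B` at the place of a prime -/
theorem placeOfPrime_ord_pos_iff (hK : ∀ a : K, algebraMap K F a ∈ (algebraMap B F).range)
    (𝔮 : HeightOneSpectrum B) (b : B) (hb : b ≠ 0) :
    0 < (placeOfPrime B hK 𝔮).ord (algebraMap B F b) ↔ b ∈ 𝔮.asIdeal := by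
  have hbF : algebraMap B F b ≠ 0 := by
    rw [Ne, map_eq_zero_iff _ (IsFractionRing.injective B F)]
    exact hb
  have hne : 𝔮.valuation F (algebraMap B F b) ≠ 0 := (Valuation.ne_zero_iff _).2 hbF
  rw [placeOfPrime_ord, neg_pos, WithZero.log_lt_iff_lt_exp hne, WithZero.exp_zero,
    𝔮.valuation_lt_one_iff_mem]

variable {B}

/-- the inclusion of `B` in the valuation ring of a place containing it -/
noncomputable def incl (v : Place K F) (hB : ∀ b : B, algebraMap B F b ∈ v.toValuationSubring) :
    B →+* v.toValuationSubring :=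
  (algebraMap B F).codRestrict v.toValuationSubring.toSubring hB

theorem coe_incl (v : Place K F) (hB : ∀ b : B, algebraMap B F b ∈ v.toValuationSubring)
    (b : B) : ((incl v hB b : v.toValuationSubring) : F) = algebraMap B F b := rfl

/-- the center on `B` of a place containing `B` -/
noncomputable def center (v : Place K F)
    (hB : ∀ b : B, algebraMap B F b ∈ v.toValuationSubring) : Ideal B :=
  (IsLocalRing.maximalIdeal v.toValuationSubring).comap (incl v hB)

theorem isUnit_incl_of_notMem (v : Place K F)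
    (hB : ∀ b : B, algebraMap B F b ∈ v.toValuationSubring) (s : B) (hs : s ∉ center v hB) :
    IsUnit (incl v hB s) := by
  by_contra hnu
  exact hs hnu

theorem mem_of_mul_eq (v : Place K F)
    (hB : ∀ b : B, algebraMap B F b ∈ v.toValuationSubring)
    (x : F) (n d : B) (hd : d ∉ center v hB)
    (h : x * algebraMap B F d = algebraMap B F n) : x ∈ v.toValuationSubring := by
  obtain ⟨u, hu⟩ := isUnit_incl_of_notMem v hB d hd
  have h1 : ((u : v.toValuationSubring) : F) = algebraMap B F d := by rw [hu]; rfl
  have h2 : ((u : v.toValuationSubring) : F) *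
      (((u⁻¹ : v.toValuationSubringˣ) : v.toValuationSubring) : F) = 1 :=
    congrArg Subtype.val u.mul_inv
  have hx : x = ((incl v hB n * ((u⁻¹ : v.toValuationSubringˣ) : v.toValuationSubring) :
      v.toValuationSubring) : F) := by
    calc x = x * (((u : v.toValuationSubring) : F) *
          (((u⁻¹ : v.toValuationSubringˣ) : v.toValuationSubring) : F)) := by rw [h2, mul_one]
      _ = (x * algebraMap B F d) *
          (((u⁻¹ : v.toValuationSubringˣ) : v.toValuationSubring) : F) := by rw [h1]; ring
      _ = algebraMap B F n *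
          (((u⁻¹ : v.toValuationSubringˣ) : v.toValuationSubring) : F) := by rw [h]
      _ = _ := rfl
  rw [hx]
  exact SetLike.coe_mem _

theorem center_ne_bot (v : Place K F)
    (hB : ∀ b : B, algebraMap B F b ∈ v.toValuationSubring) : center v hB ≠ ⊥ := by
  intro hbot
  apply v.ne_top'
  rw [eq_top_iff]
  intro x _
  obtain ⟨a, s, hs, rfl⟩ := IsFractionRing.div_surjective (A := B) x
  have hs0 : s ≠ 0 := nonZeroDivisors.ne_zero hs
  have hsI : s ∉ center v hB := by
    rw [hbot, Ideal.mem_bot]; exact hs0
  have hsF : algebraMap B F s ≠ 0 := by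
    rw [Ne, map_eq_zero_iff _ (IsFractionRing.injective B F)]
    exact hs0
  refine mem_of_mul_eq v hB _ a s hsI ?_
  exact div_mul_cancel₀ _ hsF

/-- the height one prime of `B` cut out by a place containing `B` -/
noncomputable def toPrime (v : Place K F)
    (hB : ∀ b : B, algebraMap B F b ∈ v.toValuationSubring) : HeightOneSpectrum B where
  asIdeal := center v hB
  isPrime := Ideal.comap_isPrime _ _
  ne_bot := center_ne_bot v hB

theorem valuationSubring_toPrime (v : Place K F)
    (hB : ∀ b : B, algebraMap B F b ∈ v.toValuationSubring) :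
    ((toPrime v hB).valuation F).valuationSubring = v.toValuationSubring := by
  rw [← HeightOneSpectrum.valuationSubringAtPrime_eq_valuationSubring]
  refine ValuationSubring.eq_of_le_of_ne_top _ ?_ v.ne_top'
  rw [HeightOneSpectrum.valuationSubringAtPrime_eq_valuationSubring]
  intro x hx
  obtain ⟨n, d, hnd⟩ := (toPrime v hB).exists_primeCompl_mul_eq_of_integer x
    ((Valuation.mem_valuationSubring_iff _ _).1 hx)
  exact mem_of_mul_eq v hB x n d d.2 hnd

theorem ord_eq_toPrime (v : Place K F)
    (hB : ∀ b : B, algebraMap B F b ∈ v.toValuationSubring) (f : F) :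
    v.ord f = -(WithZero.log ((toPrime v hB).valuation F f)) :=
  PlacesFF.ord_eq_of_toValuationSubring_eq v _ (valuationSubring_toPrime v hB).symm f

theorem placeOfPrime_toPrime (hK : ∀ a : K, algebraMap K F a ∈ (algebraMap B F).range)
    (v : Place K F) (hB : ∀ b : B, algebraMap B F b ∈ v.toValuationSubring) :
    placeOfPrime B hK (toPrime v hB) = v :=
  Place.ext (valuationSubring_toPrime v hB)

theorem center_placeOfPrime (hK : ∀ a : K, algebraMap K F a ∈ (algebraMap B F).range)
    (𝔮 : HeightOneSpectrum B)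
    (hB : ∀ b : B, algebraMap B F b ∈ (placeOfPrime B hK 𝔮).toValuationSubring) :
    center (placeOfPrime B hK 𝔮) hB = 𝔮.asIdeal := by
  symm
  refine 𝔮.isMaximal.eq_of_le (toPrime _ hB).isPrime.ne_top ?_
  intro b hb
  show incl _ hB b ∈ IsLocalRing.maximalIdeal _
  rw [IsLocalRing.mem_maximalIdeal, mem_nonunits_iff]
  rintro ⟨u, hu⟩
  have h1 : 𝔮.valuation F (algebraMap B F b) < 1 := (𝔮.valuation_lt_one_iff_mem b).2 hb
  obtain ⟨w, hw⟩ : ∃ w : (placeOfPrime B hK 𝔮).toValuationSubring,
      incl _ hB b * w = 1 := ⟨((u⁻¹ : _ˣ) : _), by rw [← hu]; exact u.mul_inv⟩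
  have h2 : 𝔮.valuation F (w : F) ≤ 1 :=
    (Valuation.mem_valuationSubring_iff _ _).1 w.2
  have h3 : algebraMap B F b * (w : F) = 1 := congrArg Subtype.val hw
  have h4 := congrArg (𝔮.valuation F) h3
  rw [map_mul, map_one] at h4
  have : 𝔮.valuation F (algebraMap B F b) * 𝔮.valuation F (w : F) < 1 :=
    mul_lt_one_of_nonneg_of_lt_one_left zero_le h1 h2
  rw [h4] at this
  exact lt_irrefl _ this

theorem toPrime_placeOfPrime (hK : ∀ a : K, algebraMap K F a ∈ (algebraMap B F).range)
    (𝔮 : HeightOneSpectrum B)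
    (hB : ∀ b : B, algebraMap B F b ∈ (placeOfPrime B hK 𝔮).toValuationSubring) :
    toPrime (placeOfPrime B hK 𝔮) hB = 𝔮 :=
  HeightOneSpectrum.ext (center_placeOfPrime hK 𝔮 hB)

variable (B) in
/-- places of `F = Frac B` containing `B` correspond to the height one primes of `B` -/
noncomputable def placeEquivPrimes (hK : ∀ a : K, algebraMap K F a ∈ (algebraMap B F).range) :
    {v : Place K F // ∀ b : B, algebraMap B F b ∈ v.toValuationSubring} ≃
      HeightOneSpectrum B where
  toFun v := toPrime v.1 v.2
  invFun 𝔮 := ⟨placeOfPrime B hK 𝔮, algebraMap_mem_placeOfPrime B hK 𝔮⟩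
  left_inv v := Subtype.ext (placeOfPrime_toPrime hK v.1 v.2)
  right_inv 𝔮 := toPrime_placeOfPrime hK 𝔮 _

theorem placeEquivPrimes_apply (hK : ∀ a : K, algebraMap K F a ∈ (algebraMap B F).range)
    (v : {v : Place K F // ∀ b : B, algebraMap B F b ∈ v.toValuationSubring}) :
    placeEquivPrimes B hK v = toPrime v.1 v.2 := rfl

theorem placeEquivPrimes_symm_apply (hK : ∀ a : K, algebraMap K F a ∈ (algebraMap B F).range)
    (𝔮 : HeightOneSpectrum B) :
    ((placeEquivPrimes B hK).symm 𝔮 : Place K F) = placeOfPrime B hK 𝔮 := rfl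

end General

end PrimeBridge

namespace PrimeBridge

section General2

variable {K F : Type*} [Field K] [Field F] [Algebra K F]
variable {B : Type*} [CommRing B] [IsDedekindDomain B] [Algebra B F] [IsFractionRing B F]

theorem ord_pos_iff_mem_toPrime (v : Place K F)
    (hB : ∀ b : B, algebraMap B F b ∈ v.toValuationSubring) (b : B) (hb : b ≠ 0) :
    0 < v.ord (algebraMap B F b) ↔ b ∈ (toPrime v hB).asIdeal := by
  have hbF : algebraMap B F b ≠ 0 := by
    rw [Ne, map_eq_zero_iff _ (IsFractionRing.injective B F)]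
    exact hb
  have hne : (toPrime v hB).valuation F (algebraMap B F b) ≠ 0 :=
    (Valuation.ne_zero_iff _).2 hbF
  rw [ord_eq_toPrime v hB, neg_pos, WithZero.log_lt_iff_lt_exp hne, WithZero.exp_zero,
    (toPrime v hB).valuation_lt_one_iff_mem]

/-- a ring hom into `F` with image in the valuation ring of `v`, and integral elements -/
theorem mem_of_isIntegral {A : Type*} [CommRing A] (φ : A →+* F) (v : Place K F)
    (hA : ∀ a : A, φ a ∈ v.toValuationSubring) (x : F)
    (hx : ∃ p : Polynomial A, p.Monic ∧ Polynomial.eval₂ φ x p = 0) :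
    x ∈ v.toValuationSubring := by
  obtain ⟨p, hmonic, hp⟩ := hx
  let ψ : A →+* v.toValuationSubring := φ.codRestrict v.toValuationSubring.toSubring hA
  have hint' : IsIntegral v.toValuationSubring x := by
    refine ⟨p.map ψ, hmonic.map ψ, ?_⟩
    rw [Polynomial.eval₂_map]
    exact hp
  obtain ⟨y, hy⟩ := IsIntegrallyClosed.isIntegral_iff.1 hint'
  rw [← hy]
  exact y.2

end General2

end PrimeBridge

section RH

open scoped RatFunc
open Fermat.Agent.S20 Polynomial

variable (k : Type) [Field k] [IsAlgClosed k] [CharZero k]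
variable (L : Type*) [Field L] [Algebra k[X] L] [FaithfulSMul k[X] L]
  [Algebra k L] [IsScalarTower k k[X] L]
variable (B : Type*) [CommRing B] [IsDedekindDomain B] [Algebra k[X] B] [Algebra B L]
  [IsFractionRing B L] [IsScalarTower k[X] B L] [IsIntegralClosure B k[X] L]

namespace PrimeBridge

theorem const_mem_range (a : k) : algebraMap k L a ∈ (algebraMap B L).range :=
  ⟨algebraMap k[X] B (C a), by
    rw [← IsScalarTower.algebraMap_apply k[X] B L, ← Polynomial.algebraMap_eq,
      ← IsScalarTower.algebraMap_apply k k[X] L]⟩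

theorem poly_mem_of_X_mem (v : Place k L)
    (hX : algebraMap k[X] L X ∈ v.toValuationSubring) (p : k[X]) :
    algebraMap k[X] L p ∈ v.toValuationSubring := by
  induction p using Polynomial.induction_on with
  | C a =>
    rw [← Polynomial.algebraMap_eq, ← IsScalarTower.algebraMap_apply k k[X] L]
    exact v.algebraMap_mem' a
  | add p q hp hq => rw [map_add]; exact v.toValuationSubring.add_mem _ _ hp hq
  | monomial n a h =>
    rw [pow_succ, ← mul_assoc, map_mul]
    exact v.toValuationSubring.mul_mem _ _ h hX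

theorem algebraMap_mem_of_X_mem (v : Place k L)
    (hX : algebraMap k[X] L X ∈ v.toValuationSubring) (b : B) :
    algebraMap B L b ∈ v.toValuationSubring := by
  refine mem_of_isIntegral (algebraMap k[X] L) v (poly_mem_of_X_mem k L v hX) _ ?_
  exact (IsIntegralClosure.isIntegral k[X] L b).algebraMap

theorem X_mem_of_ord_pos (v : Place k L) (a : k)
    (h : 0 < v.ord (algebraMap k[X] L (X - C a))) :
    algebraMap k[X] L X ∈ v.toValuationSubring := by
  have h0 : algebraMap k[X] L (X - C a) ≠ 0 := by
    intro h0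
    rw [h0, Place.ord_zero] at h
    exact lt_irrefl _ h
  have h1 : algebraMap k[X] L (X - C a) ∈ v.toValuationSubring :=
    (Places.ord_nonneg_iff_mem v h0).1 h.le
  have h2 : algebraMap k[X] L (C a) ∈ v.toValuationSubring := by
    rw [← Polynomial.algebraMap_eq, ← IsScalarTower.algebraMap_apply k k[X] L]
    exact v.algebraMap_mem' a
  have h3 : algebraMap k[X] L X = algebraMap k[X] L (X - C a) + algebraMap k[X] L (C a) := by
    rw [← map_add, sub_add_cancel]
  rw [h3]
  exact v.toValuationSubring.add_mem _ _ h1 h2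

end PrimeBridge

/-- zeros of `X - a`: places of `L` versus primes of `B` -/
theorem card_places_zero_eq (a : k) :
    Nat.card {v : Place k L // 0 < v.ord (algebraMap k[X] L (X - C a))} =
      Nat.card {𝔮 : HeightOneSpectrum B // algebraMap k[X] B (X - C a) ∈ 𝔮.asIdeal} := by
  have hK : ∀ c : k, algebraMap k L c ∈ (algebraMap B L).range :=
    PrimeBridge.const_mem_range k L B
  have hne : algebraMap k[X] B (X - C a) ≠ 0 := by
    intro h0
    have h2 : algebraMap k[X] L (X - C a) = algebraMap k[X] L 0 := by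
      rw [IsScalarTower.algebraMap_apply k[X] B L, h0, map_zero, map_zero]
    exact Polynomial.X_sub_C_ne_zero a (FaithfulSMul.algebraMap_injective k[X] L h2)
  have h1 : ∀ v : Place k L, 0 < v.ord (algebraMap k[X] L (X - C a)) →
      ∀ b : B, algebraMap B L b ∈ v.toValuationSubring := fun v hv =>
    PrimeBridge.algebraMap_mem_of_X_mem k L B v (PrimeBridge.X_mem_of_ord_pos k L v a hv)
  refine (Nat.card_congr (Equiv.subtypeSubtypeEquivSubtype (fun {v} hv => h1 v hv)).symm).trans ?_
  refine Nat.card_congr (Equiv.subtypeEquiv (PrimeBridge.placeEquivPrimes B hK) ?_)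
  intro x
  rw [PrimeBridge.placeEquivPrimes_apply, IsScalarTower.algebraMap_apply k[X] B L]
  exact PrimeBridge.ord_pos_iff_mem_toPrime x.1 x.2 _ hne


section RHinf

variable (B' : Type*) [CommRing B'] [IsDedekindDomain B'] [Algebra (Ainf k) B']
  [Algebra B' L] [IsFractionRing B' L] [IsScalarTower (Ainf k) B' L]
  [IsIntegralClosure B' (Ainf k) L]

namespace PrimeBridge

/-- a quotient `p(T) / q(T)` with `deg p ≤ deg q` lies in every valuation ring that contains
the constants but not `T` -/
theorem div_mem_of_natDegree_le {E : Type*} [Field E] (O : ValuationSubring E) (i : k →+* E)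
    (hi : ∀ c : k, i c ∈ O) (T : E) (hT : T ∉ O) (p q : k[X]) (hq : q ≠ 0)
    (hpq : p.natDegree ≤ q.natDegree) :
    Polynomial.eval₂ i T p / Polynomial.eval₂ i T q ∈ O := by
  have hT0 : T ≠ 0 := fun h => hT (h ▸ O.zero_mem)
  have hTinv : T⁻¹ ∈ O := (O.mem_or_inv_mem T).resolve_left hT
  let _ : Invertible T := invertibleOfNonzero hT0
  have hinv : ⅟T = T⁻¹ := invOf_eq_inv T
  have hp := Polynomial.eval₂_reflect_mul_pow i T q.natDegree p hpq
  have hq' := Polynomial.eval₂_reflect_mul_pow i T q.natDegree q le_rfl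
  rw [← hp, ← hq', hinv, mul_div_mul_right _ _ (pow_ne_zero _ hT0)]
  let i' : k →+* O := i.codRestrict O.toSubring hi
  let t' : O := ⟨T⁻¹, hTinv⟩
  have hval : ∀ g : k[X], Polynomial.eval₂ i T⁻¹ g = ((Polynomial.eval₂ i' t' g : O) : E) := by
    intro g
    exact (Polynomial.hom_eval₂ g i' O.subtype t').symm
  rw [hval, hval]
  have ht' : t' ∈ IsLocalRing.maximalIdeal O := by
    rw [IsLocalRing.mem_maximalIdeal, mem_nonunits_iff]
    intro hu
    obtain ⟨w, hw⟩ := hu.exists_right_inv
    have h1 : T⁻¹ * (w : E) = 1 := congrArg Subtype.val hw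
    have hwT : (w : E) = T := by
      have h2 := congrArg (fun z => T * z) h1
      simp only [← mul_assoc, mul_inv_cancel₀ hT0, one_mul, mul_one] at h2
      exact h2
    exact hT (hwT ▸ w.2)
  have hg0 : (Polynomial.reflect q.natDegree q).coeff 0 = q.leadingCoeff := by
    rw [Polynomial.coeff_reflect, Polynomial.revAt_le (Nat.zero_le _), Nat.sub_zero]
    rfl
  have hunit : IsUnit (Polynomial.eval₂ i' t' (Polynomial.reflect q.natDegree q)) := by
    have hdecomp : Polynomial.eval₂ i' t' (Polynomial.reflect q.natDegree q) =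
        t' * Polynomial.eval₂ i' t' (Polynomial.reflect q.natDegree q).divX +
          i' ((Polynomial.reflect q.natDegree q).coeff 0) := by
      conv_lhs => rw [← Polynomial.X_mul_divX_add (Polynomial.reflect q.natDegree q)]
      rw [Polynomial.eval₂_add, Polynomial.eval₂_mul, Polynomial.eval₂_X, Polynomial.eval₂_C]
    have hc : IsUnit (i' ((Polynomial.reflect q.natDegree q).coeff 0)) :=
      (IsUnit.mk0 _ (by rw [hg0]; exact Polynomial.leadingCoeff_ne_zero.2 hq)).map i'
    by_contra hnu
    have h1 : Polynomial.eval₂ i' t' (Polynomial.reflect q.natDegree q) ∈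
        IsLocalRing.maximalIdeal O := hnu
    have h2 : t' * Polynomial.eval₂ i' t' (Polynomial.reflect q.natDegree q).divX ∈
        IsLocalRing.maximalIdeal O := Ideal.mul_mem_right _ _ ht'
    have h3 : i' ((Polynomial.reflect q.natDegree q).coeff 0) ∈ IsLocalRing.maximalIdeal O := by
      have := Ideal.sub_mem _ h1 h2
      rwa [hdecomp, add_sub_cancel_left] at this
    exact h3 hc
  obtain ⟨u, hu⟩ := hunit
  have hu0 : ((u : O) : E) ≠ 0 := by
    intro h0
    have h1 : ((u : O) : E) * (((u⁻¹ : Oˣ) : O) : E) = 1 := congrArg Subtype.val u.mul_inv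
    rw [h0, zero_mul] at h1
    exact zero_ne_one h1
  have key : ((Polynomial.eval₂ i' t' (Polynomial.reflect q.natDegree p) : O) : E) /
      ((Polynomial.eval₂ i' t' (Polynomial.reflect q.natDegree q) : O) : E) =
      ((Polynomial.eval₂ i' t' (Polynomial.reflect q.natDegree p) * ((u⁻¹ : Oˣ) : O) : O) : E) := by
    rw [← hu, div_eq_iff hu0]
    have h1 : (((u⁻¹ : Oˣ) : O) : E) * ((u : O) : E) = 1 := congrArg Subtype.val u.inv_mul
    show _ = ((Polynomial.eval₂ i' t' (Polynomial.reflect q.natDegree p) : O) : E) *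
      (((u⁻¹ : Oˣ) : O) : E) * ((u : O) : E)
    rw [mul_assoc, h1, mul_one]
  rw [key]
  exact SetLike.coe_mem _


theorem ainf_mem_of_X_notMem (v : Place k L)
    (hX : algebraMap k[X] L X ∉ v.toValuationSubring) (f : Ainf k) :
    algebraMap (Ainf k) L f ∈ v.toValuationSubring := by
  have hpoly : ∀ p : k[X], algebraMap k[X] L p =
      Polynomial.eval₂ ((algebraMap k[X] L).comp Polynomial.C) (algebraMap k[X] L X) p := by
    intro p
    have h := Polynomial.hom_eval₂ p Polynomial.C (algebraMap k[X] L) X
    rwa [Polynomial.eval₂_C_X] at h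
  have hi : ∀ c : k, ((algebraMap k[X] L).comp Polynomial.C) c ∈ v.toValuationSubring := by
    intro c
    rw [RingHom.comp_apply, ← Polynomial.algebraMap_eq, ← IsScalarTower.algebraMap_apply k k[X] L]
    exact v.algebraMap_mem' c
  have hval : algebraMap (Ainf k) L f =
      algebraMap k[X] L (f : RatFunc k).num / algebraMap k[X] L (f : RatFunc k).denom := by
    show algebraMap (RatFunc k) L (f : RatFunc k) = _
    conv_lhs => rw [← RatFunc.num_div_denom (f : RatFunc k)]
    rw [map_div₀, ← IsScalarTower.algebraMap_apply k[X] (RatFunc k) L,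
      ← IsScalarTower.algebraMap_apply k[X] (RatFunc k) L]
  have hdeg : (f : RatFunc k).num.natDegree ≤ (f : RatFunc k).denom.natDegree := by
    have h := f.2
    rw [mem_Ainf, RatFunc.intDegree] at h
    omega
  rw [hval, hpoly, hpoly (f : RatFunc k).denom]
  exact div_mem_of_natDegree_le k v.toValuationSubring _ hi _ hX _ _
    (RatFunc.denom_ne_zero _) hdeg

theorem algebraMap_mem_of_X_notMem (v : Place k L)
    (hX : algebraMap k[X] L X ∉ v.toValuationSubring) (b : B') :
    algebraMap B' L b ∈ v.toValuationSubring :=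
  mem_of_isIntegral (algebraMap (Ainf k) L) v (ainf_mem_of_X_notMem k L v hX) _
    (IsIntegralClosure.isIntegral (Ainf k) L b).algebraMap

theorem const_mem_range_inf (a : k) : algebraMap k L a ∈ (algebraMap B' L).range := by
  refine ⟨algebraMap (Ainf k) B' (Ainf.const a), ?_⟩
  rw [← IsScalarTower.algebraMap_apply (Ainf k) B' L]
  show algebraMap (RatFunc k) L ((Ainf.const a : Ainf k) : RatFunc k) = algebraMap k L a
  rw [Ainf.coe_const, IsScalarTower.algebraMap_apply k k[X] L,
    IsScalarTower.algebraMap_apply k[X] (RatFunc k) L,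
    ← IsScalarTower.algebraMap_apply k k[X] (RatFunc k)]

theorem xinv_eq : algebraMap B' L (algebraMap (Ainf k) B' Ainf.Xinv) =
    (algebraMap k[X] L X)⁻¹ := by
  rw [← IsScalarTower.algebraMap_apply (Ainf k) B' L]
  show algebraMap (RatFunc k) L ((Ainf.Xinv : Ainf k) : RatFunc k) = _
  rw [Ainf.coe_Xinv, map_inv₀, ← RatFunc.algebraMap_X,
    ← IsScalarTower.algebraMap_apply k[X] (RatFunc k) L]

theorem X_ne_zero : algebraMap k[X] L X ≠ 0 := by
  intro h
  exact Polynomial.X_ne_zero
    (FaithfulSMul.algebraMap_injective k[X] L (h.trans (map_zero _).symm))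

theorem xinv_mem (hint : Algebra.IsIntegral (Ainf k) B') (𝔫 : HeightOneSpectrum B') :
    algebraMap (Ainf k) B' Ainf.Xinv ∈ 𝔫.asIdeal := by
  have hne : 𝔫.asIdeal.comap (algebraMap (Ainf k) B') ≠ ⊥ := by
    obtain ⟨b, hb, hb0⟩ := Submodule.exists_mem_ne_zero_of_ne_bot 𝔫.ne_bot
    exact Ideal.comap_ne_bot_of_integral_mem hb0 hb (Algebra.IsIntegral.isIntegral b)
  have hprime : (𝔫.asIdeal.comap (algebraMap (Ainf k) B')).IsPrime := Ideal.comap_isPrime _ _
  have hmax : (𝔫.asIdeal.comap (algebraMap (Ainf k) B')).IsMaximal := hprime.isMaximal hne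
  have heq := IsLocalRing.eq_maximalIdeal hmax
  have hmem : Ainf.Xinv ∈ 𝔫.asIdeal.comap (algebraMap (Ainf k) B') := by
    rw [heq, Ainf.maximalIdeal_eq]
    exact Ideal.mem_span_singleton_self _
  exact hmem

theorem ord_X_neg_placeOfPrime (hK : ∀ a : k, algebraMap k L a ∈ (algebraMap B' L).range)
    (𝔫 : HeightOneSpectrum B') :
    (placeOfPrime B' hK 𝔫).ord (algebraMap k[X] L X) < 0 := by
  have hne : algebraMap (Ainf k) B' Ainf.Xinv ≠ 0 := by
    intro h0
    have h1 := xinv_eq k L B'
    rw [h0, map_zero] at h1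
    exact inv_ne_zero (X_ne_zero k L) h1.symm
  have h1 := (placeOfPrime_ord_pos_iff B' hK 𝔫 (algebraMap (Ainf k) B' Ainf.Xinv) hne).2
    (xinv_mem k B' (IsIntegralClosure.isIntegral_algebra (Ainf k) L) 𝔫)
  rw [xinv_eq, Place.ord_inv] at h1
  linarith

end PrimeBridge

/-- poles of `X`: places of `L` versus primes of `B'` -/
theorem card_places_pole_eq :
    Nat.card {v : Place k L // v.ord (algebraMap k[X] L X) < 0} =
      Nat.card (HeightOneSpectrum B') := by
  have hK := PrimeBridge.const_mem_range_inf k L B'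
  refine Nat.card_congr ((Equiv.subtypeEquivRight ?_).trans (PrimeBridge.placeEquivPrimes B' hK))
  intro v
  constructor
  · intro hv
    have hX : algebraMap k[X] L X ∉ v.toValuationSubring := by
      intro hmem
      have := (Places.ord_nonneg_iff_mem v (PrimeBridge.X_ne_zero k L)).2 hmem
      omega
    exact PrimeBridge.algebraMap_mem_of_X_notMem k L B' v hX
  · intro hB
    have h := PrimeBridge.ord_X_neg_placeOfPrime k L B' hK (PrimeBridge.toPrime v hB)
    rwa [PrimeBridge.placeOfPrime_toPrime hK v hB] at h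

end RHinf

end RH

end Fermat.Agent.S24
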