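import Mathlib
import Fermat.Prelude.Def_AlgebraicCurve_CanonicalDivisor
import Fermat.Agent.S20.Ainf
import Fermat.Agent.S24.PrimeBridge

/-!
# S24, work package BR: primes of the two integral closures versus places
-/

set_option autoImplicit false
set_option linter.unusedSectionVars false

namespace Fermat.Agent.S24

open AlgebraicCurve IntermediateField Polynomial IsDedekindDomain
open scoped RatFunc

section Bridge

variable (k : Type) [Field k] [IsAlgClosed k] [CharZero k]
variable (L : Type) [Field L] [Algebra k[X] L] [FaithfulSMul k[X] L]
  [Algebra k L] [IsScalarTower k k[X] L] [FiniteDimensional (RatFunc k) L]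
variable (B : Type) [CommRing B] [IsDedekindDomain B] [Algebra k[X] B] [Algebra B L]
  [IsFractionRing B L] [IsScalarTower k[X] B L] [IsIntegralClosure B k[X] L]
variable (B' : Type) [CommRing B'] [IsDedekindDomain B'] [Algebra (S20.Ainf k) B']
  [Algebra B' L] [IsFractionRing B' L] [IsScalarTower (S20.Ainf k) B' L]
  [IsIntegralClosure B' (S20.Ainf k) L]

namespace Bridge

theorem transcendental_X : Transcendental k (algebraMap k[X] L X) := by
  rintro ⟨p, hp0, hp⟩
  apply hp0
  have h1 : Polynomial.aeval (algebraMap k[X] L X) p = algebraMap k[X] L p := by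
    rw [Polynomial.aeval_algebraMap_apply, Polynomial.aeval_X_left_apply]
  rw [h1] at hp
  exact FaithfulSMul.algebraMap_injective k[X] L (hp.trans (map_zero _).symm)

theorem algebraMap_comp_equiv :
    (algebraMap k⟮algebraMap k[X] L X⟯ L).comp
        ((RatFunc.algEquivOfTranscendental (algebraMap k[X] L X)
          (transcendental_X k L)) : RatFunc k →+* k⟮algebraMap k[X] L X⟯) =
      algebraMap (RatFunc k) L := by
  apply IsFractionRing.ringHom_ext (A := k[X])
  intro p
  rw [RingHom.comp_apply, RingHom.coe_coe, RatFunc.algEquivOfTranscendental_algebraMap,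
    ← IsScalarTower.algebraMap_apply k[X] (RatFunc k) L]
  have h3 := Polynomial.aeval_algebraMap_apply L
    (AdjoinSimple.gen k (algebraMap k[X] L X)) p
  rw [AdjoinSimple.algebraMap_gen] at h3
  rw [← h3, Polynomial.aeval_algebraMap_apply, Polynomial.aeval_X_left_apply]

end Bridge

/-- the image of `X` is transcendental and the degree over `k(X)` is the `RatFunc` degree -/
theorem bridge_finrank :
    Transcendental k (algebraMap k[X] L X) ∧
      FiniteDimensional k⟮algebraMap k[X] L X⟯ L ∧
      Module.finrank k⟮algebraMap k[X] L X⟯ L = Module.finrank (RatFunc k) L := by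
  have htr := Bridge.transcendental_X k L
  have hfin : Module.finrank k⟮algebraMap k[X] L X⟯ L = Module.finrank (RatFunc k) L := by
    symm
    refine Algebra.finrank_eq_of_equiv_equiv
      (RatFunc.algEquivOfTranscendental (algebraMap k[X] L X) htr).toRingEquiv
      (RingEquiv.refl L) ?_
    ext r
    have h := congrArg (fun f => f r) (Bridge.algebraMap_comp_equiv k L)
    simp only [RingHom.comp_apply] at h
    simpa using h
  refine ⟨htr, ?_, hfin⟩
  have hpos : 0 < Module.finrank (RatFunc k) L := Module.finrank_pos
  rw [← hfin] at hpos
  exact Module.finite_of_finrank_pos hpos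

/-- places over `X = a` are the primes of `B` over `X - a` -/
theorem bridge_card_zeros (a : k) :
    Nat.card {v : Place k L // 0 < v.ord (algebraMap k[X] L X - algebraMap k L a)} =
      Nat.card {𝔮 : HeightOneSpectrum B // algebraMap k[X] B (X - C a) ∈ 𝔮.asIdeal} := by
  have h := card_places_zero_eq k L B a
  have h1 : algebraMap k[X] L (X - C a) = algebraMap k[X] L X - algebraMap k L a := by
    rw [map_sub, ← Polynomial.algebraMap_eq, ← IsScalarTower.algebraMap_apply k k[X] L]
  rw [h1] at h
  exact h

/-- poles of `X` are the primes of the integral closure of the valuation ring at infinity -/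
theorem bridge_card_poles :
    Nat.card {v : Place k L // v.ord (algebraMap k[X] L X) < 0} =
      Nat.card (HeightOneSpectrum B') :=
  card_places_pole_eq k L B'

end Bridge

end Fermat.Agent.S24
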