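import Mathlib
import Fermat.Agent.S20.Ring
import Fermat.Agent.S20.Stab
import Fermat.Agent.S20.JOrder
import Fermat.Agent.S20.Places
import Fermat.Agent.S20.RHGen
import Fermat.Agent.S20.RH
import Fermat.Agent.S20.DictFin
import Fermat.Agent.S20.ConstFF
import Fermat.Agent.S20.DictInf
import Fermat.Agent.S20.ToCusp
import Fermat.Agent.S21.Defs
import Fermat.Agent.S21.Orbits
import Fermat.Agent.S21.UpperBound

/-!
# Exact counts of primes of `WH Γ₀(N)` over `j = 1728`, `j = 0`, `j = a` and at infinity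

The abstract Riemann–Hurwitz formula, the embedding of holomorphic differentials into weight two
cusp forms and the Eichler–Shimura upper bound squeeze the weak (`≤`) counts into equalities.
-/

set_option autoImplicit false

namespace Fermat.Agent.S24

open Polynomial IsDedekindDomain CongruenceSubgroup
open scoped MatrixGroups RatFunc

namespace Counts

/-- The squeeze: pure arithmetic. -/
theorem squeeze {n μ cI cρ cinf oS oST oT h s : ℕ} {g : ℚ}
    (hRH : (2 * h : ℤ) = 2 + n - cI - cρ - cinf)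
    (hTC : h ≤ s) (hUB : (s : ℚ) ≤ g) (hOC : (μ : ℚ) + 2 - oS - oT - oST = 2 * g)
    (hI : cI ≤ oS) (hρ : cρ ≤ oST) (hinf : cinf ≤ oT) (hdeg : μ ≤ n) :
    n = μ ∧ cI = oS ∧ cρ = oST ∧ cinf = oT := by
  have hRH' : (2 * (h : ℚ)) = 2 + n - cI - cρ - cinf := by exact_mod_cast hRH
  have hTC' : (h : ℚ) ≤ s := by exact_mod_cast hTC
  have hI' : (cI : ℚ) ≤ oS := by exact_mod_cast hI
  have hρ' : (cρ : ℚ) ≤ oST := by exact_mod_cast hρ
  have hinf' : (cinf : ℚ) ≤ oT := by exact_mod_cast hinf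
  have hdeg' : (μ : ℚ) ≤ n := by exact_mod_cast hdeg
  have e1 : (n : ℚ) ≤ μ := by linarith
  have e2 : (oS : ℚ) ≤ cI := by linarith
  have e3 : (oST : ℚ) ≤ cρ := by linarith
  have e4 : (oT : ℚ) ≤ cinf := by linarith
  exact ⟨le_antisymm (by exact_mod_cast e1) hdeg, le_antisymm hI (by exact_mod_cast e2),
    le_antisymm hρ (by exact_mod_cast e3), le_antisymm hinf (by exact_mod_cast e4)⟩

/-- All four exact counts at once. -/
theorem all_counts (N : ℕ) [NeZero N] :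
    Module.finrank (RatFunc ℂ) (S20.FF N) = Nat.card (SL(2, ℤ) ⧸ Gamma0 N) ∧
    Nat.card {𝔮 : HeightOneSpectrum (S20.WH (Gamma0 N)) //
        algebraMap ℂ[X] (S20.WH (Gamma0 N)) (X - C (S20.jFun UpperHalfPlane.I)) ∈ 𝔮.asIdeal} =
      S21.nOrb (SL(2, ℤ) ⧸ Gamma0 N) ModularGroup.S ∧
    Nat.card {𝔮 : HeightOneSpectrum (S20.WH (Gamma0 N)) //
        algebraMap ℂ[X] (S20.WH (Gamma0 N)) (X - C (S20.jFun S20.rho)) ∈ 𝔮.asIdeal} =
      S21.nOrb (SL(2, ℤ) ⧸ Gamma0 N) (ModularGroup.S * ModularGroup.T) ∧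
    Nat.card (HeightOneSpectrum (S20.Binf N)) =
      S21.nOrb (SL(2, ℤ) ⧸ Gamma0 N) ModularGroup.T := by
  have hfin := S21.finite_cuspForm_two N
  have hne : S20.jFun UpperHalfPlane.I ≠ S20.jFun S20.rho := by
    rw [S20.jFun_I, S20.jFun_rho]; norm_num
  obtain ⟨-, hRH⟩ := S20.finrank_holoDiff ℂ (S20.FF N) (S20.WH (Gamma0 N)) (S20.Binf N) _ _ hne
    (S20.const_of_isIntegral N) (S20.ramificationIdx_eq_one_of_ne N)
  exact squeeze hRH (S20.finrank_holoDiff_le_of_cusp N (S20.exists_prime_of_cusp N)) (S21.finrank_cuspForm_two_le N)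
    (S21.orbit_count N) (S20.card_primes_over_I_le N) (S20.card_primes_over_rho_le N)
    (S20.card_primes_inf_le N) (S20.le_finrank_FF N)

/-- Residue fields of an integral `k[X]`-algebra at maximal ideals over `X - a` are `k`
(`k` algebraically closed). -/
theorem residue_surjective {k : Type} [Field k] [IsAlgClosed k] {B : Type} [CommRing B]
    [Algebra k[X] B] [Algebra.IsIntegral k[X] B] (a : k) (𝔮 : Ideal B) (h𝔮 : 𝔮.IsMaximal)
    (ha : algebraMap k[X] B (X - C a) ∈ 𝔮) :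
    Function.Surjective ((Ideal.Quotient.mk 𝔮).comp (algebraMap k[X] B)) := by
  let _ : Field (B ⧸ 𝔮) := Ideal.Quotient.field 𝔮
  set φ : k[X] →+* B ⧸ 𝔮 := (Ideal.Quotient.mk 𝔮).comp (algebraMap k[X] B) with hφ
  set ψ : k →+* B ⧸ 𝔮 := φ.comp C with hψ
  have hφψ : ∀ q : k[X], φ q = ψ (q.eval a) := by
    intro q
    obtain ⟨r, hr⟩ : (X - C a) ∣ q - C (q.eval a) := Polynomial.X_sub_C_dvd_sub_C_eval
    have h0 : φ (X - C a) = 0 := Ideal.Quotient.eq_zero_iff_mem.mpr ha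
    have : φ (q - C (q.eval a)) = 0 := by
      rw [hr, map_mul, h0, zero_mul]
    rw [map_sub, sub_eq_zero] at this
    exact this
  have hcomp : ψ.comp (Polynomial.evalRingHom a) = φ := RingHom.ext fun q => (hφψ q).symm
  let _ : Algebra k (B ⧸ 𝔮) := ψ.toAlgebra
  have hint : Algebra.IsIntegral k (B ⧸ 𝔮) := by
    refine ⟨fun y => ?_⟩
    obtain ⟨b, rfl⟩ := Ideal.Quotient.mk_surjective y
    obtain ⟨P, hPm, hP⟩ := Algebra.IsIntegral.isIntegral (R := k[X]) b
    refine ⟨P.map (Polynomial.evalRingHom a), hPm.map _, ?_⟩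
    change Polynomial.eval₂ ψ _ _ = 0
    rw [Polynomial.eval₂_map, hcomp, hφ, ← Polynomial.hom_eval₂, hP, map_zero]
  intro y
  obtain ⟨c, hc⟩ := (IsAlgClosed.algebraMap_bijective_of_isIntegral (k := k) (K := B ⧸ 𝔮)).2 y
  exact ⟨C c, hc⟩

/-- If all primes over `π` are unramified with trivial residue extension, there are exactly
`[B : A]` of them. -/
theorem card_primes_eq_finrank {A : Type} [CommRing A] [IsDedekindDomain A] (π : A)
    {B : Type} [CommRing B] [IsDedekindDomain B] [Algebra A B] [Module.Finite A B]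
    [FaithfulSMul A B] (hπ : π ≠ 0) (hmax : (Ideal.span {π} : Ideal A).IsMaximal)
    (hres : ∀ 𝔮 : Ideal B, 𝔮.IsMaximal → algebraMap A B π ∈ 𝔮 →
      Function.Surjective ((Ideal.Quotient.mk 𝔮).comp (algebraMap A B)))
    (hunr : ∀ 𝔮 : HeightOneSpectrum B, algebraMap A B π ∈ 𝔮.asIdeal →
      𝔮.asIdeal.ramificationIdx A = 1) :
    Nat.card {𝔮 : HeightOneSpectrum B // algebraMap A B π ∈ 𝔮.asIdeal} = Module.finrank A B := by
  have h := S20.Places.sum_ramificationIdx π hπ hmax hres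
  have h1 : ∀ q : (Ideal.span {π} : Ideal A).primesOver B, q.1.ramificationIdx A = 1 := by
    intro q
    have := hunr ((S20.Places.equivOver π hπ hmax).symm q).1
      ((S20.Places.equivOver π hπ hmax).symm q).2
    exact this
  rw [Finset.sum_congr rfl (fun q _ => h1 q), Finset.sum_const, Finset.card_univ, smul_eq_mul,
    mul_one] at h
  rw [Nat.card_congr (S20.Places.equivOver π hπ hmax)]
  exact Nat.card_eq_fintype_card.trans h

end Counts

theorem finrank_FF_eq (N : ℕ) [NeZero N] :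
    Module.finrank (RatFunc ℂ) (S20.FF N) = Nat.card (SL(2, ℤ) ⧸ Gamma0 N) :=
  (Counts.all_counts N).1

theorem card_primes_over_I (N : ℕ) [NeZero N] :
    Nat.card {𝔮 : HeightOneSpectrum (S20.WH (Gamma0 N)) //
        algebraMap ℂ[X] (S20.WH (Gamma0 N)) (X - C (1728 : ℂ)) ∈ 𝔮.asIdeal} =
      S21.nOrb (SL(2, ℤ) ⧸ Gamma0 N) ModularGroup.S := by
  have h := (Counts.all_counts N).2.1
  rwa [S20.jFun_I] at h

theorem card_primes_over_rho (N : ℕ) [NeZero N] :
    Nat.card {𝔮 : HeightOneSpectrum (S20.WH (Gamma0 N)) //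
        algebraMap ℂ[X] (S20.WH (Gamma0 N)) (X - C (0 : ℂ)) ∈ 𝔮.asIdeal} =
      S21.nOrb (SL(2, ℤ) ⧸ Gamma0 N) (ModularGroup.S * ModularGroup.T) := by
  have h := (Counts.all_counts N).2.2.1
  rwa [S20.jFun_rho] at h

theorem card_primes_over_of_ne (N : ℕ) [NeZero N] (a : ℂ) (h0 : a ≠ 0) (h1 : a ≠ 1728) :
    Nat.card {𝔮 : HeightOneSpectrum (S20.WH (Gamma0 N)) //
        algebraMap ℂ[X] (S20.WH (Gamma0 N)) (X - C a) ∈ 𝔮.asIdeal} =
      Nat.card (SL(2, ℤ) ⧸ Gamma0 N) := by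
  have hmax := (S20.span_X_sub_C_isMaximal_and_ne_bot (k := ℂ) a).1
  have hπ : (X - C a : ℂ[X]) ≠ 0 := Polynomial.X_sub_C_ne_zero a
  -- a prime containing `X - a` contains no other `X - b`
  have hnot : ∀ (𝔮 : HeightOneSpectrum (S20.WH (Gamma0 N))) (b : ℂ), a ≠ b →
      algebraMap ℂ[X] (S20.WH (Gamma0 N)) (X - C a) ∈ 𝔮.asIdeal →
      algebraMap ℂ[X] (S20.WH (Gamma0 N)) (X - C b) ∉ 𝔮.asIdeal := by
    intro 𝔮 b hab ha hb
    have hsub : algebraMap ℂ[X] (S20.WH (Gamma0 N)) (C (b - a)) ∈ 𝔮.asIdeal := by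
      have : (C (b - a) : ℂ[X]) = (X - C a) - (X - C b) := by
        rw [C_sub]; ring
      rw [this, map_sub]
      exact 𝔮.asIdeal.sub_mem ha hb
    have hunit : IsUnit (algebraMap ℂ[X] (S20.WH (Gamma0 N)) (C (b - a))) := by
      apply IsUnit.map
      exact Polynomial.isUnit_C.mpr (isUnit_iff_ne_zero.mpr (sub_ne_zero.mpr (Ne.symm hab)))
    exact 𝔮.isPrime.ne_top (Ideal.eq_top_of_isUnit_mem _ hsub hunit)
  rw [Counts.card_primes_eq_finrank (X - C a) hπ hmax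
    (fun 𝔮 h𝔮 ha => Counts.residue_surjective a 𝔮 h𝔮 ha)
    (fun 𝔮 ha => S20.ramificationIdx_eq_one_of_ne N 𝔮
      (hnot 𝔮 _ (by rw [S20.jFun_I]; exact h1) ha)
      (hnot 𝔮 _ (by rw [S20.jFun_rho]; exact h0) ha)),
    S20.finrank_poly_WH_eq (Gamma0 N) (S20.FF N)]
  exact finrank_FF_eq N

theorem card_primes_inf (N : ℕ) [NeZero N] :
    Nat.card (HeightOneSpectrum (S20.Binf N)) =
      S21.nOrb (SL(2, ℤ) ⧸ Gamma0 N) ModularGroup.T :=
  (Counts.all_counts N).2.2.2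

end Fermat.Agent.S24
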