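import Mathlib
import Fermat.Prelude.Def_ModularCurve_LaurentCoeff

/-!
# Descent of linear dependence along a coefficient embedding of Laurent series

If Laurent series `f i` with coefficients in a field `K` become linearly dependent over
polynomial expressions `c i (ι t)` with coefficients in a bigger field `C` (after applying a
field embedding `ι : K →+* C` coefficientwise), then they are already linearly dependent over
polynomial expressions in `t` with coefficients in `K`.
-/

set_option autoImplicit false

open ModularCurve

namespace Fermat.Agent.S24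

namespace DescentLD

variable {K C : Type*} [Field K] [Field C] [Algebra K C]

/-- Apply a `K`-linear functional coefficientwise. -/
noncomputable def coeffFunctional (φ : C →ₗ[K] K) (g : LaurentSeries C) : LaurentSeries K :=
  g.map φ

lemma coeffFunctional_coeff (φ : C →ₗ[K] K) (g : LaurentSeries C) (n : ℤ) :
    (coeffFunctional φ g).coeff n = φ (g.coeff n) := rfl

lemma coeffFunctional_zero (φ : C →ₗ[K] K) : coeffFunctional φ (0 : LaurentSeries C) = 0 := by
  ext n
  simp [coeffFunctional_coeff]

lemma coeffFunctional_add (φ : C →ₗ[K] K) (g h : LaurentSeries C) :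
    coeffFunctional φ (g + h) = coeffFunctional φ g + coeffFunctional φ h := by
  ext n
  simp [coeffFunctional_coeff]

lemma coeffFunctional_sum {α : Type*} (φ : C →ₗ[K] K) (s : Finset α) (g : α → LaurentSeries C) :
    coeffFunctional φ (∑ i ∈ s, g i) = ∑ i ∈ s, coeffFunctional φ (g i) := by
  classical
  induction s using Finset.induction_on with
  | empty => simp [coeffFunctional_zero]
  | insert a s ha ih => rw [Finset.sum_insert ha, Finset.sum_insert ha, coeffFunctional_add, ih]

lemma support_coeffFunctional_subset (φ : C →ₗ[K] K) (g : LaurentSeries C) :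
    (coeffFunctional φ g).support ⊆ g.support := by
  intro n hn
  rw [HahnSeries.mem_support] at hn ⊢
  intro h0
  exact hn (by rw [coeffFunctional_coeff, h0, map_zero])

lemma support_coeffMap_subset (a : LaurentSeries K) :
    (coeffMap (algebraMap K C) a).support ⊆ a.support := by
  intro n hn
  rw [HahnSeries.mem_support] at hn ⊢
  intro h0
  exact hn (by rw [coeffMap_coeff, h0, map_zero])

/-- Coefficientwise functionals are linear over Laurent series with coefficients in `K`. -/
lemma coeffFunctional_mul (φ : C →ₗ[K] K) (a : LaurentSeries K) (g : LaurentSeries C) :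
    coeffFunctional φ (coeffMap (algebraMap K C) a * g) = a * coeffFunctional φ g := by
  ext n
  rw [coeffFunctional_coeff,
    HahnSeries.coeff_mul_left' a.isPWO_support (support_coeffMap_subset a),
    HahnSeries.coeff_mul_right' g.isPWO_support (support_coeffFunctional_subset φ g), map_sum]
  refine Finset.sum_congr rfl fun ij _ => ?_
  rw [coeffMap_coeff, ← Algebra.smul_def, map_smul, smul_eq_mul, coeffFunctional_coeff]

lemma coeffFunctional_C (φ : C →ₗ[K] K) (c : C) :
    coeffFunctional φ (HahnSeries.C c) = HahnSeries.C (φ c) := by
  ext n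
  rw [coeffFunctional_coeff, HahnSeries.C_apply, HahnSeries.C_apply]
  by_cases hn : n = 0
  · subst hn
    simp
  · rw [HahnSeries.coeff_single_of_ne hn, HahnSeries.coeff_single_of_ne hn, map_zero]

/-- Apply a functional to the coefficients of a polynomial. -/
noncomputable def mapPoly (φ : C →ₗ[K] K) (p : Polynomial C) : Polynomial K :=
  ∑ n ∈ p.support, Polynomial.monomial n (φ (p.coeff n))

lemma mapPoly_coeff (φ : C →ₗ[K] K) (p : Polynomial C) (n : ℕ) :
    (mapPoly φ p).coeff n = φ (p.coeff n) := by
  classical
  rw [mapPoly, Polynomial.finsetSum_coeff]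
  simp only [Polynomial.coeff_monomial]
  rw [Finset.sum_ite_eq' p.support n]
  split_ifs with h
  · rfl
  · rw [Polynomial.notMem_support_iff.mp h, map_zero]

end DescentLD

open DescentLD in
/-- **Descent of linear dependence**: a nontrivial relation
`∑ i, c i (ι t) * ι (f i) = 0` with polynomial coefficients over `C` yields a nontrivial relation
`∑ i, c' i (t) * f i = 0` with polynomial coefficients over `K`. -/
theorem exists_polys_of_coeffMap_dep {K C : Type*} [Field K] [Field C] (ι : K →+* C)
    (t : LaurentSeries K) {m : ℕ} (f : Fin m → LaurentSeries K) (c : Fin m → Polynomial C)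
    (hc : c ≠ 0)
    (h : ∑ i, Polynomial.eval₂ HahnSeries.C (coeffMap ι t) (c i) * coeffMap ι (f i) = 0) :
    ∃ c' : Fin m → Polynomial K, c' ≠ 0 ∧
      ∑ i, Polynomial.eval₂ HahnSeries.C t (c' i) * f i = 0 := by
  let _ : Algebra K C := ι.toAlgebra
  have hι : algebraMap K C = ι := rfl
  -- a nonzero coefficient
  obtain ⟨i₀, hi₀⟩ : ∃ i₀, c i₀ ≠ 0 := by
    by_contra hne
    push Not at hne
    exact hc (funext hne)
  obtain ⟨n₀, hn₀⟩ : ∃ n₀, (c i₀).coeff n₀ ≠ 0 := by
    by_contra hne
    push Not at hne
    exact hi₀ (Polynomial.ext fun n => by rw [hne n, Polynomial.coeff_zero])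
  obtain ⟨φ, hφ⟩ := Module.Projective.exists_dual_ne_zero K hn₀
  refine ⟨fun i => mapPoly φ (c i), ?_, ?_⟩
  · intro h0
    have := congrArg (fun p : Polynomial K => p.coeff n₀) (congrFun h0 i₀)
    simp only [Pi.zero_apply, Polynomial.coeff_zero] at this
    rw [mapPoly_coeff] at this
    exact hφ this
  · have key : ∀ i, coeffFunctional φ
        (Polynomial.eval₂ HahnSeries.C (coeffMap ι t) (c i) * coeffMap ι (f i)) =
        Polynomial.eval₂ HahnSeries.C t (mapPoly φ (c i)) * f i := by
      intro i
      rw [Polynomial.eval₂_eq_sum, Polynomial.sum_def, Finset.sum_mul, coeffFunctional_sum,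
        mapPoly, Polynomial.eval₂_finsetSum, Finset.sum_mul]
      refine Finset.sum_congr rfl fun n _ => ?_
      rw [Polynomial.eval₂_monomial, ← map_pow, mul_assoc, mul_comm (HahnSeries.C _),
        ← map_mul, ← hι, coeffFunctional_mul, coeffFunctional_C]
      ring
    have h2 := congrArg (coeffFunctional φ) h
    rw [coeffFunctional_sum, coeffFunctional_zero] at h2
    rw [← h2]
    exact Finset.sum_congr rfl fun i _ => (key i).symm

end Fermat.Agent.S24
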