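import Mathlib
import Fermat.Agent.S20.LevelOneBasic
import Fermat.Agent.S23.SepForm

/-!
# The function `j(N τ)`: weak holomorphy on `Γ₀(N)` and separation of cosets

`jN N τ = j(N τ)` is a weakly holomorphic `Γ₀(N)`-invariant function (`isWH_jN`), and its
conjugates by elements of `SL(2, ℤ)` outside `Γ₀(N)` are different from it (`jN_comp_ne`), by
comparing growth rates at `i∞`.
-/

set_option autoImplicit false

open UpperHalfPlane hiding I
open Complex Filter Function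
open scoped Manifold MatrixGroups ModularForm Topology

namespace Fermat.Agent.S24

open Fermat.Agent.S20 Fermat.Agent.S23.Sep ModularForm EisensteinSeries

/-- The function `τ ↦ j(N τ)`. -/
noncomputable def jN (N : ℕ) [NeZero N] (z : ℍ) : ℂ := jFun (dil N • z)

theorem jN_apply (N : ℕ) [NeZero N] (z : ℍ) : jN N z = jFun (dil N • z) := rfl

namespace DescentSep

theorem SL_smul_eq (γ : SL(2, ℤ)) (z : ℍ) :
    γ • z = Matrix.SpecialLinearGroup.mapGL ℝ γ • z := rfl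

theorem jFun_slash_triMat (a b d : ℝ) (ha : 0 < a) (hd : 0 < d) (z : ℍ) :
    jFun (triMat a b d (mul_pos ha hd).ne' • z) =
      ((a * d : ℝ) : ℂ) * (jFun ∣[(0 : ℤ)] triMat a b d (mul_pos ha hd).ne') z := by
  rw [triMat_slash 0 jFun a b d ha hd z]
  have h : ((a * d : ℝ) : ℂ) ≠ 0 := by
    exact_mod_cast (mul_pos ha hd).ne'
  simp only [zero_sub, neg_zero, zpow_zero, mul_one, zpow_neg, zpow_one]
  field_simp

theorem mdiff_jFun_triMat (a b d : ℝ) (ha : 0 < a) (hd : 0 < d) :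
    MDiff (fun z : ℍ => jFun (triMat a b d (mul_pos ha hd).ne' • z)) := by
  have h1 : MDiff (jFun ∣[(0 : ℤ)] triMat a b d (mul_pos ha hd).ne') := mdiff_jFun.slash 0 _
  have e : (fun z : ℍ => jFun (triMat a b d (mul_pos ha hd).ne' • z)) =
      ((a * d : ℝ) : ℂ) • (jFun ∣[(0 : ℤ)] triMat a b d (mul_pos ha hd).ne') := by
    funext z
    rw [jFun_slash_triMat a b d ha hd z]
    rfl
  rw [e]
  exact h1.const_smul _

/-- `j(N (γ τ)) = j((g τ + B) / n₁)` for a suitable upper triangular matrix. -/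
theorem exists_jN_smul_eq (N : ℕ) [NeZero N] (γ : SL(2, ℤ)) :
    ∃ (g n₁ B : ℤ) (hg : (0 : ℝ) < (g : ℝ)) (hn : (0 : ℝ) < (n₁ : ℝ)), (N : ℤ) = g * n₁ ∧
      (n₁ = 1 → (N : ℤ) ∣ γ 1 0) ∧
      ∀ z : ℍ, jN N (γ • z) = jFun (triMat (g : ℝ) (B : ℝ) (n₁ : ℝ) (mul_pos hg hn).ne' • z) := by
  obtain ⟨γ', g, n₁, B, hg, hn₁, hN, hdvd, hm⟩ := exists_decomp N γ
  have hgR : (0 : ℝ) < (g : ℝ) := by exact_mod_cast hg
  have hnR : (0 : ℝ) < (n₁ : ℝ) := by exact_mod_cast hn₁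
  refine ⟨g, n₁, B, hgR, hnR, hN, hdvd, fun z => ?_⟩
  have key := triMat_mul_mapGL (N : ℤ) 0 1 g B n₁ (dil_ne N) (mul_pos hgR hnR).ne' γ γ' hm
  change dil N * _ = _ at key
  rw [jN_apply, SL_smul_eq, ← mul_smul, key, mul_smul, ← SL_smul_eq, jFun_smul]

theorem jN_smul_of_mem (N : ℕ) [NeZero N] (γ : SL(2, ℤ)) (hγ : γ ∈ CongruenceSubgroup.Gamma0 N)
    (z : ℍ) : jN N (γ • z) = jN N z := by
  obtain ⟨γ', hγ'⟩ := exists_decomp_Gamma0 N γ hγ
  have key := triMat_mul_mapGL (N : ℤ) 0 1 (N : ℤ) 0 1 (dil_ne N) (dil_ne N) γ γ' hγ'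
  change dil N * _ = _ * dil N at key
  rw [jN_apply, SL_smul_eq, ← mul_smul, key, mul_smul, ← SL_smul_eq, jFun_smul]
  rfl

/-- `j(τ) q(τ) → 1` at `i∞`. -/
theorem tendsto_jFun_mul_q :
    Tendsto (fun z : ℍ => jFun z * Periodic.qParam 1 (z : ℂ)) atImInfty (𝓝 1) := by
  have h1 : Tendsto (fun z : ℍ => E₄ z ^ 3) atImInfty (𝓝 1) := by
    simpa using tendsto_E4.pow 3
  have h2 := tendsto_atImInfty_tprod_one_sub_eta_q_pow
  have h3 := h1.div h2 one_ne_zero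
  rw [div_one] at h3
  refine h3.congr' ?_
  have hev : ∀ᶠ z : ℍ in atImInfty, (∏' n : ℕ, (1 - eta_q n z) ^ 24) ≠ 0 :=
    h2.eventually_ne one_ne_zero
  filter_upwards [hev] with z hz
  have hq : Periodic.qParam 1 (z : ℂ) ≠ 0 := by
    simp [Periodic.qParam]
  simp only [Pi.div_apply]
  unfold jFun
  rw [discriminant_eq_q_prod]
  field_simp

theorem im_triMat_smul (a b d : ℝ) (ha : 0 < a) (hd : 0 < d) (z : ℍ) :
    (triMat a b d (mul_pos ha hd).ne' • z : ℍ).im = a / d * z.im := by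
  have h := congrArg Complex.im (triMat_smul_coe a b d ha hd z)
  rw [UpperHalfPlane.coe_im] at h
  rw [h]
  have e : ((a : ℂ) * (z : ℂ) + (b : ℂ)) / (d : ℂ) = (((a / d : ℝ) : ℂ)) * (z : ℂ) + ((b / d : ℝ) : ℂ) := by
    have hd' : (d : ℂ) ≠ 0 := by exact_mod_cast hd.ne'
    push_cast
    field_simp
  rw [e]
  simp

theorem norm_qParam_one (z : ℍ) :
    ‖Periodic.qParam 1 (z : ℂ)‖ = Real.exp (-(2 * Real.pi) * z.im) := by
  simp [Periodic.qParam, Complex.norm_exp]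

theorem tendsto_exp_neg_mul_im {c : ℝ} (hc : 0 < c) :
    Tendsto (fun z : ℍ => Real.exp (-c * z.im)) atImInfty (𝓝 0) := by
  have h1 : Tendsto (fun z : ℍ => z.im) atImInfty atTop := tendsto_comap
  have h2 : Tendsto (fun z : ℍ => -c * z.im) atImInfty atBot :=
    h1.const_mul_atTop_of_neg (by linarith)
  exact Real.tendsto_exp_atBot.comp h2


theorem tendsto_jFun_triMat_mul_q (a b d : ℝ) (ha : 0 < a) (hd : 0 < d) :
    Tendsto (fun z : ℍ => jFun (triMat a b d (mul_pos ha hd).ne' • z) *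
      Periodic.qParam 1 ((triMat a b d (mul_pos ha hd).ne' • z : ℍ) : ℂ)) atImInfty (𝓝 1) :=
  tendsto_jFun_mul_q.comp
    (UpperHalfPlane.tendsto_smul_atImInfty (g := triMat a b d (mul_pos ha hd).ne')
      (by simp [triMat_coe]))

/-- `j((a τ + b)/d) Δ(τ)^n` is bounded at `i∞` as soon as `a / d ≤ n`. -/
theorem isBoundedAtImInfty_jFun_triMat_mul (a b d : ℝ) (ha : 0 < a) (hd : 0 < d) (n : ℕ)
    (hn : a / d ≤ n) :
    IsBoundedAtImInfty (fun z : ℍ => jFun (triMat a b d (mul_pos ha hd).ne' • z) *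
      ModularForm.discriminant z ^ n) := by
  have hA := (tendsto_jFun_triMat_mul_q a b d ha hd).isBigO_one ℝ
  have hB := (tendsto_atImInfty_tprod_one_sub_eta_q_pow.pow n).isBigO_one ℝ
  have hC : (fun z : ℍ => Periodic.qParam 1 (z : ℂ) ^ n /
      Periodic.qParam 1 ((triMat a b d (mul_pos ha hd).ne' • z : ℍ) : ℂ)) =O[atImInfty]
      (fun _ => (1 : ℝ)) := by
    refine Asymptotics.IsBigO.of_bound 1 (Eventually.of_forall fun z => ?_)
    rw [norm_div, norm_pow, norm_qParam_one, norm_qParam_one, im_triMat_smul a b d ha hd z,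
      ← Real.exp_nat_mul, ← Real.exp_sub, norm_one, mul_one]
    rw [Real.exp_le_one_iff]
    have hz : 0 < z.im := z.im_pos
    have : (a / d) * z.im ≤ n * z.im := mul_le_mul_of_nonneg_right hn hz.le
    nlinarith [Real.pi_pos]
  have hABC := (hA.mul hB).mul hC
  simp only [mul_one] at hABC
  refine hABC.congr' (Eventually.of_forall fun z => ?_) (Eventually.of_forall fun z => rfl)
  have hq : Periodic.qParam 1 ((triMat a b d (mul_pos ha hd).ne' • z : ℍ) : ℂ) ≠ 0 := by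
    simp [Periodic.qParam]
  simp only
  rw [discriminant_eq_q_prod, mul_pow]
  field_simp


end DescentSep

open DescentSep

theorem mdiff_jN (N : ℕ) [NeZero N] : MDiff (jN N) := by
  have hN : (0 : ℝ) < ((N : ℤ) : ℝ) := by exact_mod_cast NeZero.pos N
  have h1 : (0 : ℝ) < ((1 : ℤ) : ℝ) := by norm_num
  exact mdiff_jFun_triMat ((N : ℤ) : ℝ) ((0 : ℤ) : ℝ) ((1 : ℤ) : ℝ) hN h1

/-- `τ ↦ j(N τ)` is a weakly holomorphic `Γ₀(N)`-invariant function. -/
theorem isWH_jN (N : ℕ) [NeZero N] : IsWH (CongruenceSubgroup.Gamma0 N) (jN N) where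
  mdiff := mdiff_jN N
  inv := fun γ hγ z => jN_smul_of_mem N γ hγ z
  bdd := by
    refine ⟨N, fun γ => ?_⟩
    obtain ⟨g, n₁, B, hg, hn, hN, -, hz⟩ := exists_jN_smul_eq N γ
    have hb := isBoundedAtImInfty_jFun_triMat_mul (g : ℝ) (B : ℝ) (n₁ : ℝ) hg hn N ?_
    · refine hb.congr' (Eventually.of_forall fun z => ?_) (Eventually.of_forall fun z => rfl)
      simp only
      rw [hz z]
    · have h1 : (1 : ℝ) ≤ (n₁ : ℝ) := by
        have : (0 : ℤ) < n₁ := by exact_mod_cast hn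
        exact_mod_cast this
      have hNR : (N : ℝ) = (g : ℝ) * (n₁ : ℝ) := by exact_mod_cast hN
      rw [hNR, div_le_iff₀ hn]
      nlinarith

/-- The conjugates of `j(N τ)` by elements outside `Γ₀(N)` differ from `j(N τ)`. -/
theorem jN_comp_ne (N : ℕ) [NeZero N] (γ : SL(2, ℤ)) (hγ : γ ∉ CongruenceSubgroup.Gamma0 N) :
    (fun z : ℍ => jN N (γ • z)) ≠ jN N := by
  intro heq
  obtain ⟨g, n₁, B, hg, hn, hN, hdvd, hz⟩ := exists_jN_smul_eq N γ
  apply hγ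
  rw [CongruenceSubgroup.Gamma0_mem, ZMod.intCast_zmod_eq_zero_iff_dvd]
  apply hdvd
  by_contra hn1
  have hn2 : (2 : ℝ) ≤ (n₁ : ℝ) := by
    have : (0 : ℤ) < n₁ := by exact_mod_cast hn
    have : (2 : ℤ) ≤ n₁ := by omega
    exact_mod_cast this
  have hNR : (N : ℝ) = (g : ℝ) * (n₁ : ℝ) := by exact_mod_cast hN
  have hNpos : (0 : ℝ) < ((N : ℤ) : ℝ) := by exact_mod_cast NeZero.pos N
  have h1pos : (0 : ℝ) < ((1 : ℤ) : ℝ) := by norm_num
  -- the two limits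
  have L1 := (tendsto_jFun_triMat_mul_q (g : ℝ) (B : ℝ) (n₁ : ℝ) hg hn).norm
  have L2 := (tendsto_jFun_triMat_mul_q ((N : ℤ) : ℝ) ((0 : ℤ) : ℝ) ((1 : ℤ) : ℝ) hNpos h1pos).norm
  have L3 := L2.div L1 (by simp)
  simp only [norm_one, div_one] at L3
  -- the quotient is an exponential tending to zero
  set c : ℝ := 2 * Real.pi * ((N : ℝ) - (g : ℝ) / (n₁ : ℝ)) with hc
  have hcpos : 0 < c := by
    have : (g : ℝ) / (n₁ : ℝ) < (N : ℝ) := by
      rw [hNR, div_lt_iff₀ hn]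
      nlinarith
    have := Real.pi_pos
    rw [hc]
    nlinarith
  have L4 := tendsto_exp_neg_mul_im hcpos
  have hev : ∀ᶠ z : ℍ in atImInfty,
      jFun (triMat (g : ℝ) (B : ℝ) (n₁ : ℝ) (mul_pos hg hn).ne' • z) ≠ 0 := by
    have := (tendsto_jFun_triMat_mul_q (g : ℝ) (B : ℝ) (n₁ : ℝ) hg hn).eventually_ne one_ne_zero
    filter_upwards [this] with z hz0 h0
    exact hz0 (by rw [h0, zero_mul])
  have hcongr : ∀ᶠ z : ℍ in atImInfty,
      (‖jFun (triMat ((N : ℤ) : ℝ) ((0 : ℤ) : ℝ) ((1 : ℤ) : ℝ) (mul_pos hNpos h1pos).ne' • z) *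
        Periodic.qParam 1 ((triMat ((N : ℤ) : ℝ) ((0 : ℤ) : ℝ) ((1 : ℤ) : ℝ)
          (mul_pos hNpos h1pos).ne' • z : ℍ) : ℂ)‖ /
      ‖jFun (triMat (g : ℝ) (B : ℝ) (n₁ : ℝ) (mul_pos hg hn).ne' • z) *
        Periodic.qParam 1 ((triMat (g : ℝ) (B : ℝ) (n₁ : ℝ) (mul_pos hg hn).ne' • z : ℍ) : ℂ)‖) =
      Real.exp (-c * z.im) := by
    filter_upwards [hev] with z hz0
    have e1 : jFun (triMat ((N : ℤ) : ℝ) ((0 : ℤ) : ℝ) ((1 : ℤ) : ℝ)
        (mul_pos hNpos h1pos).ne' • z) =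
        jFun (triMat (g : ℝ) (B : ℝ) (n₁ : ℝ) (mul_pos hg hn).ne' • z) := by
      rw [← hz z]
      exact (congrFun heq z).symm
    rw [e1, norm_mul, norm_mul, norm_qParam_one, norm_qParam_one, im_triMat_smul _ _ _ hNpos h1pos,
      im_triMat_smul _ _ _ hg hn, mul_div_mul_left _ _ (norm_ne_zero_iff.mpr hz0), ← Real.exp_sub]
    congr 1
    rw [hc]
    push_cast
    ring
  have L5 := L3.congr' hcongr
  have := tendsto_nhds_unique L5 L4
  norm_num at this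

/-- For `d ∣ N`, `τ ↦ j(d τ)` is a weakly holomorphic `Γ₀(N)`-invariant function. -/
theorem isWH_jN_of_dvd {d N : ℕ} [NeZero d] (h : d ∣ N) :
    IsWH (CongruenceSubgroup.Gamma0 N) (jN d) := by
  have hle : CongruenceSubgroup.Gamma0 N ≤ CongruenceSubgroup.Gamma0 d := by
    intro γ hγ
    rw [CongruenceSubgroup.Gamma0_mem, ZMod.intCast_zmod_eq_zero_iff_dvd] at hγ ⊢
    exact (Int.natCast_dvd_natCast.mpr h).trans hγ
  exact WH_mono hle (isWH_jN d)

end Fermat.Agent.S24
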