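import Mathlib
import Fermat.Agent.S20.JSurj
import Fermat.Agent.S23.Mixed
import Fermat.Agent.S23.Glue
import Fermat.Agent.S24.DescentSep

/-!
# Generation of the function field of `X₀(N)` by `j` and `j(N τ)`

Every weakly holomorphic `Γ₀(N)`-invariant function `f` satisfies `f · D = G` with `D`, `G`
polynomial expressions in `j` and `j(N τ)` and `D ≢ 0` (`exists_rel_jN`): Lagrange interpolation
over the cosets of `Γ₀(N)`, using the coset symmetric functions of `S23/Mixed.lean` for the
modular forms `f Δ^n` and `j(N τ) Δ^n'`.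
-/

set_option autoImplicit false

open UpperHalfPlane hiding I
open Complex Filter Function
open scoped Manifold MatrixGroups ModularForm Topology

namespace Fermat.Agent.S24

open Fermat.Agent.S20 Fermat.Agent.S23

namespace Generation

/-- slash of `f Δ^n` in weight `12 n`. -/
theorem slash_mul_disc_pow (f : ℍ → ℂ) (n : ℕ) (γ : SL(2, ℤ)) :
    (fun z : ℍ => f z * ModularForm.discriminant z ^ n) ∣[(12 * (n : ℤ))] γ =
      fun z : ℍ => f (γ • z) * ModularForm.discriminant z ^ n := by
  funext z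
  rw [ModularForm.SL_slash_apply, JSurj.disc_pow_smul, zpow_neg]
  have hd : denom γ z ^ (12 * (n : ℤ)) ≠ 0 := zpow_ne_zero _ (denom_ne_zero γ z)
  field_simp

/-- `f Δ^n` is a modular form of weight `12 n` on `Γ₀(N)` for a weakly holomorphic `f`. -/
theorem exists_modularForm_mul_disc (N : ℕ) [NeZero N] (f : ℍ → ℂ)
    (hf : IsWH (CongruenceSubgroup.Gamma0 N) f) :
    ∃ (n : ℕ) (F : ModularForm (CongruenceSubgroup.Gamma0 N) (12 * (n : ℤ))),
      ∀ z : ℍ, F z = f z * ModularForm.discriminant z ^ n := by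
  obtain ⟨n, hn⟩ := hf.bdd
  obtain ⟨F, hF⟩ := Glue.exists_modularForm_of_mdiff N (12 * (n : ℤ))
    (fun z : ℍ => f z * ModularForm.discriminant z ^ n)
    (hf.mdiff.mul (JSurj.mdiff_disc.pow n))
    (fun γ hγ => by
      rw [slash_mul_disc_pow]
      funext z
      rw [hf.inv γ hγ z])
    (fun γ => by
      rw [slash_mul_disc_pow]
      exact hn γ)
  exact ⟨n, F, fun z => congrFun hF z⟩

/-- A level-one modular form of weight `12 n` is `Δ^n` times a polynomial in `j`. -/
theorem exists_poly_of_levelOne {k : ℤ} (M : ModularForm 𝒮ℒ k) (n : ℕ) (hk : k = 12 * (n : ℤ)) :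
    ∃ p : Polynomial ℂ, ∀ z : ℍ, M z = p.eval (jFun z) * ModularForm.discriminant z ^ n := by
  subst hk
  have hΔ : ∀ z : ℍ, ModularForm.discriminant z ^ n ≠ 0 :=
    fun z => pow_ne_zero _ (ModularForm.discriminant_ne_zero z)
  obtain ⟨p, -, hp⟩ := exists_poly_of_bdd n (fun z : ℍ => M z / ModularForm.discriminant z ^ n)
    ((ModularFormClass.holo M).div (JSurj.mdiff_disc.pow n) hΔ)
    (fun γ z => by
      have h1 : M (γ • z) = denom γ z ^ (12 * (n : ℤ)) * M z :=
        SlashInvariantForm.slash_action_eqn'' M (γ := Matrix.SpecialLinearGroup.mapGL ℝ γ)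
          (Set.mem_range_self γ) z
      rw [h1, JSurj.disc_pow_smul]
      have hd : denom γ z ^ (12 * (n : ℤ)) ≠ 0 := zpow_ne_zero _ (denom_ne_zero γ z)
      have := hΔ z
      field_simp)
    (by
      have e : (fun z : ℍ => M z / ModularForm.discriminant z ^ n * ModularForm.discriminant z ^ n) =
          ⇑M := by
        funext z
        have := hΔ z
        field_simp
      rw [e]
      exact ModularFormClass.bdd_at_infty M)
  refine ⟨p, fun z => ?_⟩
  rw [← hp z]
  have := hΔ z
  field_simp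

end Generation

open Generation in
/-- **Generation**: every weakly holomorphic `Γ₀(N)`-invariant function `f` satisfies
`f · D = G` with `D, G` polynomial expressions in `j` and `j(N τ)`, `D ≢ 0`. -/
theorem exists_rel_jN (N : ℕ) [NeZero N] (f : ℍ → ℂ)
    (hf : IsWH (CongruenceSubgroup.Gamma0 N) f) :
    ∃ (d : ℕ) (c e : ℕ → Polynomial ℂ),
      (∀ z : ℍ, f z * ∑ m ∈ Finset.range d, (e m).eval (jFun z) * jN N z ^ (d - 1 - m) =
        ∑ m ∈ Finset.range d, (c m).eval (jFun z) * jN N z ^ (d - 1 - m)) ∧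
      (∃ z : ℍ, ∑ m ∈ Finset.range d, (e m).eval (jFun z) * jN N z ^ (d - 1 - m) ≠ 0) := by
  obtain ⟨n, F, hF⟩ := exists_modularForm_mul_disc N f hf
  obtain ⟨nH, H, hH⟩ := exists_modularForm_mul_disc N (jN N) (isWH_jN N)
  obtain ⟨d, hd⟩ : ∃ d : ℕ, d = Nat.card
      (𝒮ℒ ⧸ ((CongruenceSubgroup.Gamma0 N : Subgroup (GL (Fin 2) ℝ)).subgroupOf 𝒮ℒ)) := ⟨_, rfl⟩
  have hP : ∀ m : ℕ, ∃ p : Polynomial ℂ, ∀ z : ℍ, mixed F H m z =
      p.eval (jFun z) * ModularForm.discriminant z ^ (n + nH * m) :=
    fun m => exists_poly_of_levelOne (mixed F H m) (n + nH * m) (by push_cast; ring)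
  have hE : ∀ m : ℕ, ∃ p : Polynomial ℂ, ∀ z : ℍ, mixed (1 : ModularForm _ 0) H m z =
      p.eval (jFun z) * ModularForm.discriminant z ^ (nH * m) :=
    fun m => exists_poly_of_levelOne (mixed (1 : ModularForm _ 0) H m) (nH * m)
      (by push_cast; ring)
  choose P hP using hP
  choose E hE using hE
  have key1 : ∀ z : ℍ, ModularForm.discriminant z ^ (n + nH * (d - 1)) *
      ∑ m ∈ Finset.range d, (Polynomial.C ((-1 : ℂ) ^ m) * P m).eval (jFun z) *
        jN N z ^ (d - 1 - m) =
      f z * ModularForm.discriminant z ^ n * sepDenom H z := by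
    intro z
    have h1 := mixed_eval_self F H z
    rw [← hd, hF z] at h1
    rw [← h1, Finset.mul_sum]
    refine Finset.sum_congr rfl fun m hm => ?_
    have hm' := Finset.mem_range.1 hm
    rw [hP m z, hH z, Polynomial.eval_mul, Polynomial.eval_C, mul_pow, ← pow_mul]
    have e : n + nH * (d - 1) = (n + nH * m) + nH * (d - 1 - m) := by
      have : d - 1 = m + (d - 1 - m) := by omega
      conv_lhs => rw [this]
      ring
    rw [e, pow_add]
    ring
  have key2 : ∀ z : ℍ, ModularForm.discriminant z ^ (nH * (d - 1)) *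
      ∑ m ∈ Finset.range d, (Polynomial.C ((-1 : ℂ) ^ m) * E m).eval (jFun z) *
        jN N z ^ (d - 1 - m) = sepDenom H z := by
    intro z
    have h2 := mixed_one_eval_self H z
    rw [← hd] at h2
    rw [← h2, Finset.mul_sum]
    refine Finset.sum_congr rfl fun m hm => ?_
    have hm' := Finset.mem_range.1 hm
    rw [hE m z, hH z, Polynomial.eval_mul, Polynomial.eval_C, mul_pow, ← pow_mul]
    have e : nH * (d - 1) = nH * m + nH * (d - 1 - m) := by
      have : d - 1 = m + (d - 1 - m) := by omega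
      conv_lhs => rw [this]
      ring
    rw [e, pow_add]
    ring
  refine ⟨d, fun m => Polynomial.C ((-1 : ℂ) ^ m) * P m, fun m => Polynomial.C ((-1 : ℂ) ^ m) * E m,
    fun z => ?_, ?_⟩
  · have hΔ : ModularForm.discriminant z ^ (n + nH * (d - 1)) ≠ 0 :=
      pow_ne_zero _ (ModularForm.discriminant_ne_zero z)
    apply mul_left_cancel₀ hΔ
    rw [key1 z, ← key2 z, pow_add]
    ring
  · have hne : sepDenom H ≠ 0 := by
      refine sepDenom_ne_zero_SL H (fun γ hγ heq => jN_comp_ne N γ hγ (funext fun z => ?_))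
      have hHfun : (⇑H : ℍ → ℂ) = fun z : ℍ => jN N z * ModularForm.discriminant z ^ nH :=
        funext hH
      rw [hHfun, slash_mul_disc_pow] at heq
      have := congrFun heq z
      exact mul_right_cancel₀ (pow_ne_zero _ (ModularForm.discriminant_ne_zero z)) this
    obtain ⟨z, hz⟩ := Function.ne_iff.mp hne
    refine ⟨z, fun h0 => hz ?_⟩
    rw [← key2 z, h0, mul_zero]
    rfl

end Fermat.Agent.S24
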