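import Mathlib
import Fermat.Prelude.Def_ModularCurve_X0
import Fermat.Prelude.Def_ModularCurve_LaurentCoeff
import Fermat.Agent.S20.Defs
import Fermat.Agent.S20.LevelOneBasic
import Fermat.Agent.S24.JqExp

set_option autoImplicit false

open UpperHalfPlane hiding I
open Complex Filter Function
open scoped Topology Manifold MatrixGroups

namespace Fermat.Agent.S24

/-- The local parameter `q = exp (2 π i z)` as a function on `ℍ`. -/
noncomputable def qH (z : ℍ) : ℂ := Function.Periodic.qParam 1 (z : ℂ)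

theorem qH_ne_zero (z : ℍ) : qH z ≠ 0 := Function.Periodic.qParam_ne_zero _

theorem norm_qH_lt_one (z : ℍ) : ‖qH z‖ < 1 :=
  Function.Periodic.norm_qParam_lt_one one_pos z.im_pos

/-- Holomorphic, `1`-periodic and bounded at `i∞`. -/
structure IsHPB (g : ℍ → ℂ) : Prop where
  mdiff : MDiff g
  per : Function.Periodic (g ∘ ofComplex) ((1 : ℝ) : ℂ)
  bdd : IsBoundedAtImInfty g

theorem periodic_comp_ofComplex_of {f : ℍ → ℂ} (h : ∀ z : ℍ, f ((1 : ℝ) +ᵥ z) = f z) :
    Function.Periodic (f ∘ ofComplex) ((1 : ℝ) : ℂ) := by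
  intro w
  by_cases! hw : 0 < im w
  · have : 0 < im (w + ((1 : ℝ) : ℂ)) := by simp [hw]
    simp only [comp_apply, ofComplex_apply_of_im_pos this, ofComplex_apply_of_im_pos hw]
    convert h ⟨w, hw⟩ using 2
    ext
    simp [add_comm]
  · have : im (w + ((1 : ℝ) : ℂ)) ≤ 0 := by simpa using hw
    simp only [comp_apply]
    rw [ofComplex_apply_eq_of_im_nonpos this hw]

theorem vadd_of_periodic {f : ℍ → ℂ} (h : Function.Periodic (f ∘ ofComplex) ((1 : ℝ) : ℂ))
    (z : ℍ) : f ((1 : ℝ) +ᵥ z) = f z := by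
  have h1 := h (z : ℂ)
  have e : ((z : ℂ) + ((1 : ℝ) : ℂ)) = (((1 : ℝ) +ᵥ z : ℍ) : ℂ) := by
    rw [UpperHalfPlane.coe_vadd, add_comm]
  simp only [comp_apply] at h1
  rw [e, ofComplex_apply, ofComplex_apply] at h1
  exact h1

theorem qH_vadd (z : ℍ) : qH ((1 : ℝ) +ᵥ z) = qH z := by
  unfold qH Function.Periodic.qParam
  rw [UpperHalfPlane.coe_vadd]
  simp only [ofReal_one, div_one]
  rw [show 2 * (Real.pi : ℂ) * I * (1 + (z : ℂ)) = 2 * Real.pi * I * z + 2 * Real.pi * I by ring,
    Complex.exp_add, Complex.exp_two_pi_mul_I, mul_one]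

theorem mdiff_qH : MDiff qH := by
  rw [UpperHalfPlane.mdifferentiable_iff]
  have : DifferentiableOn ℂ (fun w : ℂ => Function.Periodic.qParam 1 w) {z | 0 < z.im} := by
    unfold Function.Periodic.qParam
    fun_prop
  refine this.congr fun w hw => ?_
  simp [qH, ofComplex_apply_of_im_pos hw]

theorem isHPB_qH : IsHPB qH where
  mdiff := mdiff_qH
  per := periodic_comp_ofComplex_of qH_vadd
  bdd := (UpperHalfPlane.qParam_tendsto_atImInfty one_pos).isBigO_one ℝ

theorem isHPB_const (c : ℂ) : IsHPB (fun _ => c) where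
  mdiff := mdifferentiable_const
  per := fun _ => rfl
  bdd := Filter.const_boundedAtFilter _ c

theorem IsHPB.mul {f g : ℍ → ℂ} (hf : IsHPB f) (hg : IsHPB g) : IsHPB (fun z => f z * g z) where
  mdiff := hf.mdiff.mul hg.mdiff
  per := fun w => by
    have h1 := hf.per w
    have h2 := hg.per w
    simp only [comp_apply] at h1 h2 ⊢
    rw [h1, h2]
  bdd := hf.bdd.mul hg.bdd

theorem IsHPB.add {f g : ℍ → ℂ} (hf : IsHPB f) (hg : IsHPB g) : IsHPB (fun z => f z + g z) where
  mdiff := hf.mdiff.add hg.mdiff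
  per := fun w => by
    have h1 := hf.per w
    have h2 := hg.per w
    simp only [comp_apply] at h1 h2 ⊢
    rw [h1, h2]
  bdd := hf.bdd.add hg.bdd

theorem IsHPB.pow {f : ℍ → ℂ} (hf : IsHPB f) (n : ℕ) : IsHPB (fun z => f z ^ n) := by
  induction n with
  | zero => simpa using isHPB_const 1
  | succ n ih => simpa [pow_succ] using ih.mul hf

theorem IsHPB.analyticAt {g : ℍ → ℂ} (hg : IsHPB g) : AnalyticAt ℂ (cuspFunction 1 g) 0 :=
  analyticAt_cuspFunction_zero one_pos hg.per hg.mdiff hg.bdd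

theorem IsHPB.hasSum {g : ℍ → ℂ} (hg : IsHPB g) (τ : ℍ) :
    HasSum (fun m : ℕ => (qExpansion 1 g).coeff m * qH τ ^ m) (g τ) := by
  exact hasSum_qExpansion one_pos hg.per hg.mdiff hg.bdd τ

/-- Uniqueness of `q`-expansions. -/
theorem IsHPB.qExpansion_eq_mk {g : ℍ → ℂ} (hg : IsHPB g) {c : ℕ → ℂ}
    (h : ∀ τ : ℍ, HasSum (fun m : ℕ => c m * qH τ ^ m) (g τ)) :
    qExpansion 1 g = PowerSeries.mk c := by
  have h' : ∀ τ : ℍ,
      HasSum (fun m : ℕ => c m • Function.Periodic.qParam (1 : ℝ) (τ : ℂ) ^ m) (g τ) :=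
    fun τ => by simpa only [smul_eq_mul, qH] using h τ
  have h1 := (hasFPowerSeriesOnBall_cuspFunction one_pos hg.analyticAt h').hasFPowerSeriesAt
  have h2 := hg.analyticAt.hasFPowerSeriesAt
  have h3 := h1.eq_formalMultilinearSeries h2
  have h4 := FormalMultilinearSeries.ofScalars_series_injective ℂ ℂ h3
  apply PowerSeries.ext
  intro m
  rw [PowerSeries.coeff_mk, qExpansion_coeff, congrFun h4 m]
  ring

theorem qExpansion_qH_pow (n : ℕ) : qExpansion 1 (fun z => qH z ^ n) = PowerSeries.X ^ n := by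
  rw [(isHPB_qH.pow n).qExpansion_eq_mk (c := fun m => if m = n then 1 else 0)]
  · ext m
    simp [PowerSeries.coeff_X_pow]
  · intro τ
    have := hasSum_ite_eq n (qH τ ^ n)
    refine this.congr_fun fun m => ?_
    split_ifs with hm
    · simp [hm]
    · simp

theorem IsHPB.qExpansion_mul {f g : ℍ → ℂ} (hf : IsHPB f) (hg : IsHPB g) :
    qExpansion 1 (fun z => f z * g z) = qExpansion 1 f * qExpansion 1 g :=
  UpperHalfPlane.qExpansion_mul hf.analyticAt hg.analyticAt

theorem IsHPB.qExpansion_add {f g : ℍ → ℂ} (hf : IsHPB f) (hg : IsHPB g) :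
    qExpansion 1 (fun z => f z + g z) = qExpansion 1 f + qExpansion 1 g :=
  UpperHalfPlane.qExpansion_add hf.analyticAt hg.analyticAt

theorem IsHPB.eq_zero_of_qExpansion {g : ℍ → ℂ} (hg : IsHPB g) (h : qExpansion 1 g = 0) :
    g = 0 :=
  (qExpansion_eq_zero_iff one_pos hg.per hg.mdiff hg.bdd).mp h

/-- Holomorphic, `1`-periodic and meromorphic at `i∞`. -/
structure IsPM (f : ℍ → ℂ) : Prop where
  mdiff : MDiff f
  per : Function.Periodic (f ∘ ofComplex) ((1 : ℝ) : ℂ)
  bdd : ∃ n : ℕ, IsBoundedAtImInfty (fun z => qH z ^ n * f z)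

theorem IsPM.isHPB {f : ℍ → ℂ} (hf : IsPM f) {n : ℕ}
    (hn : IsBoundedAtImInfty (fun z => qH z ^ n * f z)) : IsHPB (fun z => qH z ^ n * f z) where
  mdiff := (isHPB_qH.pow n).mdiff.mul hf.mdiff
  per := fun w => by
    have h1 := (isHPB_qH.pow n).per w
    have h2 := hf.per w
    simp only [comp_apply] at h1 h2 ⊢
    rw [h1, h2]
  bdd := hn

theorem IsPM.bdd_of_le {f : ℍ → ℂ} {n m : ℕ} (hnm : n ≤ m)
    (hn : IsBoundedAtImInfty (fun z => qH z ^ n * f z)) :
    IsBoundedAtImInfty (fun z => qH z ^ m * f z) := by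
  obtain ⟨d, rfl⟩ := Nat.exists_eq_add_of_le hnm
  have h := (isHPB_qH.pow d).bdd.mul hn
  have e : (fun z => qH z ^ (n + d) * f z)
      = (fun z => qH z ^ d) * (fun z => qH z ^ n * f z) := by
    funext z
    simp only [Pi.mul_apply, pow_add]
    ring
  rw [e]
  exact h

open Classical in
/-- The Laurent `q`-expansion of a periodic holomorphic function meromorphic at `i∞`
(junk value `0` otherwise). -/
noncomputable def qLaurentFun (f : ℍ → ℂ) : LaurentSeries ℂ :=
  if h : ∃ n : ℕ, IsBoundedAtImInfty (fun z => qH z ^ n * f z) then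
    HahnSeries.single (-(Nat.find h : ℤ)) (1 : ℂ) *
      HahnSeries.ofPowerSeries ℤ ℂ (qExpansion 1 (fun z => qH z ^ (Nat.find h) * f z))
  else 0

/-- The Laurent expansion can be computed with any admissible exponent. -/
theorem qLaurentFun_eq {f : ℍ → ℂ} (hf : IsPM f) {n : ℕ}
    (hn : IsBoundedAtImInfty (fun z => qH z ^ n * f z)) :
    qLaurentFun f = HahnSeries.single (-(n : ℤ)) (1 : ℂ) *
      HahnSeries.ofPowerSeries ℤ ℂ (qExpansion 1 (fun z => qH z ^ n * f z)) := by
  classical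
  have hex : ∃ n : ℕ, IsBoundedAtImInfty (fun z => qH z ^ n * f z) := ⟨n, hn⟩
  rw [qLaurentFun, dif_pos hex]
  have hle : Nat.find hex ≤ n := Nat.find_min' hex hn
  obtain ⟨d, hd⟩ := Nat.exists_eq_add_of_le hle
  have h0 := Nat.find_spec hex
  set n0 := Nat.find hex with hn0
  have e : (fun z => qH z ^ n * f z) = fun z => qH z ^ d * (qH z ^ n0 * f z) := by
    funext z
    rw [hd, pow_add]
    ring
  rw [e, (isHPB_qH.pow d).qExpansion_mul (hf.isHPB h0), qExpansion_qH_pow, map_mul,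
    HahnSeries.ofPowerSeries_X_pow, ← mul_assoc, HahnSeries.single_mul_single, hd]
  congr 2
  · push_cast
    ring_nf
  · simp

theorem isPM_const (c : ℂ) : IsPM (fun _ => c) where
  mdiff := mdifferentiable_const
  per := fun _ => rfl
  bdd := ⟨0, by simpa using (isHPB_const c).bdd⟩

theorem IsPM.mul {f g : ℍ → ℂ} (hf : IsPM f) (hg : IsPM g) : IsPM (f * g) where
  mdiff := hf.mdiff.mul hg.mdiff
  per := fun w => by
    have h1 := hf.per w
    have h2 := hg.per w
    simp only [comp_apply, Pi.mul_apply] at h1 h2 ⊢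
    rw [h1, h2]
  bdd := by
    obtain ⟨n, hn⟩ := hf.bdd
    obtain ⟨m, hm⟩ := hg.bdd
    refine ⟨n + m, ?_⟩
    have e : (fun z => qH z ^ (n + m) * (f * g) z)
        = (fun z => qH z ^ n * f z) * (fun z => qH z ^ m * g z) := by
      funext z
      simp only [Pi.mul_apply, pow_add]
      ring
    rw [e]
    exact hn.mul hm

theorem IsPM.add {f g : ℍ → ℂ} (hf : IsPM f) (hg : IsPM g) : IsPM (f + g) where
  mdiff := hf.mdiff.add hg.mdiff
  per := fun w => by
    have h1 := hf.per w
    have h2 := hg.per w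
    simp only [comp_apply, Pi.add_apply] at h1 h2 ⊢
    rw [h1, h2]
  bdd := by
    obtain ⟨n, hn⟩ := hf.bdd
    obtain ⟨m, hm⟩ := hg.bdd
    refine ⟨max n m, ?_⟩
    have e : (fun z => qH z ^ (max n m) * (f + g) z)
        = (fun z => qH z ^ (max n m) * f z) + (fun z => qH z ^ (max n m) * g z) := by
      funext z
      simp only [Pi.add_apply, mul_add]
    rw [e]
    exact (IsPM.bdd_of_le (le_max_left n m) hn).add (IsPM.bdd_of_le (le_max_right n m) hm)

theorem qLaurentFun_mul {f g : ℍ → ℂ} (hf : IsPM f) (hg : IsPM g) :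
    qLaurentFun (f * g) = qLaurentFun f * qLaurentFun g := by
  obtain ⟨n, hn⟩ := hf.bdd
  obtain ⟨m, hm⟩ := hg.bdd
  have e : (fun z => qH z ^ (n + m) * (f * g) z)
      = fun z => (qH z ^ n * f z) * (qH z ^ m * g z) := by
    funext z
    simp only [Pi.mul_apply, pow_add]
    ring
  have hb : IsBoundedAtImInfty (fun z => qH z ^ (n + m) * (f * g) z) := by
    rw [e]
    exact hn.mul hm
  rw [qLaurentFun_eq (hf.mul hg) hb, qLaurentFun_eq hf hn, qLaurentFun_eq hg hm, e,
    (hf.isHPB hn).qExpansion_mul (hg.isHPB hm), map_mul, mul_mul_mul_comm,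
    HahnSeries.single_mul_single]
  congr 2
  · push_cast
    ring_nf
  · simp

theorem qLaurentFun_add {f g : ℍ → ℂ} (hf : IsPM f) (hg : IsPM g) :
    qLaurentFun (f + g) = qLaurentFun f + qLaurentFun g := by
  obtain ⟨n, hn⟩ := hf.bdd
  obtain ⟨m, hm⟩ := hg.bdd
  have hn' := IsPM.bdd_of_le (le_max_left n m) hn
  have hm' := IsPM.bdd_of_le (le_max_right n m) hm
  have e : (fun z => qH z ^ (max n m) * (f + g) z)
      = fun z => (qH z ^ (max n m) * f z) + (qH z ^ (max n m) * g z) := by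
    funext z
    simp only [Pi.add_apply, mul_add]
  have hb : IsBoundedAtImInfty (fun z => qH z ^ (max n m) * (f + g) z) := by
    rw [e]
    exact hn'.add hm'
  rw [qLaurentFun_eq (hf.add hg) hb, qLaurentFun_eq hf hn', qLaurentFun_eq hg hm', e,
    (hf.isHPB hn').qExpansion_add (hg.isHPB hm'), map_add, mul_add]

theorem qLaurentFun_const (c : ℂ) :
    qLaurentFun (fun _ => c) = algebraMap ℂ (LaurentSeries ℂ) c := by
  have hb : IsBoundedAtImInfty (fun z : ℍ => qH z ^ 0 * c) := by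
    simpa using (isHPB_const c).bdd
  rw [qLaurentFun_eq (isPM_const c) hb,
    ((isPM_const c).isHPB hb).qExpansion_eq_mk (c := fun m => if m = 0 then c else 0)]
  · have : PowerSeries.mk (fun m : ℕ => if m = 0 then c else 0) = PowerSeries.C c := by
      ext m
      simp [PowerSeries.coeff_C]
    rw [this, HahnSeries.ofPowerSeries_C, ModularCurve.algebraMap_laurentSeries_eq_single]
    simp
  · intro τ
    have := hasSum_ite_eq (0 : ℕ) c
    rw [pow_zero, one_mul]
    refine this.congr_fun fun m => ?_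
    split_ifs with hm
    · simp [hm]
    · simp

theorem qLaurentFun_eq_zero {f : ℍ → ℂ} (hf : IsPM f) (h : qLaurentFun f = 0) : f = 0 := by
  obtain ⟨n, hn⟩ := hf.bdd
  rw [qLaurentFun_eq hf hn] at h
  have h1 : HahnSeries.ofPowerSeries ℤ ℂ (qExpansion 1 (fun z => qH z ^ n * f z)) = 0 := by
    rcases mul_eq_zero.mp h with h | h
    · exact absurd h (by simp)
    · exact h
  have h2 : qExpansion 1 (fun z => qH z ^ n * f z) = 0 :=
    HahnSeries.ofPowerSeries_injective (by rw [h1, map_zero])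
  have h3 := (hf.isHPB hn).eq_zero_of_qExpansion h2
  funext z
  have h4 := congrFun h3 z
  simp only [Pi.zero_apply, mul_eq_zero] at h4
  rcases h4 with h4 | h4
  · exact absurd h4 (pow_ne_zero n (qH_ne_zero z))
  · exact h4

/-- The `ℂ`-algebra of `1`-periodic holomorphic functions on `ℍ` that are meromorphic at
`i∞`. -/
def PM : Subalgebra ℂ (ℍ → ℂ) where
  carrier := {f | IsPM f}
  mul_mem' := fun hf hg => hf.mul hg
  add_mem' := fun hf hg => hf.add hg
  algebraMap_mem' := fun c => isPM_const c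

theorem mem_PM {f : ℍ → ℂ} : f ∈ PM ↔ IsPM f := Iff.rfl

/-- The Laurent `q`-expansion as a `ℂ`-algebra homomorphism. -/
noncomputable def qLaurent : PM →ₐ[ℂ] LaurentSeries ℂ where
  toFun f := qLaurentFun (f : ℍ → ℂ)
  map_one' := by
    have := qLaurentFun_const 1
    rw [map_one] at this
    exact this
  map_mul' f g := qLaurentFun_mul f.2 g.2
  map_zero' := by
    have := qLaurentFun_const 0
    rw [map_zero] at this
    exact this
  map_add' f g := qLaurentFun_add f.2 g.2
  commutes' c := qLaurentFun_const c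

theorem qLaurent_apply (f : PM) : qLaurent f = qLaurentFun (f : ℍ → ℂ) := rfl

theorem qLaurent_injective : Function.Injective qLaurent := by
  rw [injective_iff_map_eq_zero]
  intro f hf
  exact Subtype.ext (qLaurentFun_eq_zero f.2 hf)

theorem qH_isBigO_disc : qH =O[atImInfty] (fun z : ℍ => ModularForm.discriminant z) := by
  have h := ModularForm.exp_isBigO_discriminant
  refine Asymptotics.IsBigO.trans (Asymptotics.IsBigO.of_norm_left ?_) h
  have e : (fun z : ℍ => ‖qH z‖) = fun τ : ℍ => Real.exp (-2 * Real.pi * τ.im) := by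
    funext z
    simp [qH, Function.Periodic.qParam, Complex.norm_exp]
  rw [e]

/-- Weakly holomorphic `Γ₀(N)`-invariant functions are periodic and meromorphic at `i∞`. -/
theorem isPM_of_isWH (N : ℕ) {f : ℍ → ℂ}
    (hf : Fermat.Agent.S20.IsWH (CongruenceSubgroup.Gamma0 N) f) : IsPM f where
  mdiff := hf.mdiff
  per := periodic_comp_ofComplex_of fun z => by
    have hT : ModularGroup.T ∈ CongruenceSubgroup.Gamma0 N := by
      rw [CongruenceSubgroup.Gamma0_mem]
      simp [ModularGroup.T]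
    have := hf.inv ModularGroup.T hT z
    rwa [UpperHalfPlane.modular_T_smul] at this
  bdd := by
    obtain ⟨n, hn⟩ := hf.bdd
    refine ⟨n, ?_⟩
    have h1 := hn 1
    simp only [one_smul] at h1
    have h2 : (fun z : ℍ => qH z ^ n * f z)
        =O[atImInfty] (fun z : ℍ => ModularForm.discriminant z ^ n * f z) :=
      (qH_isBigO_disc.pow n).mul (Asymptotics.isBigO_refl f atImInfty)
    have h3 : (fun z : ℍ => ModularForm.discriminant z ^ n * f z)
        = fun z : ℍ => f z * ModularForm.discriminant z ^ n := by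
      funext z
      ring
    rw [h3] at h2
    exact h2.trans h1

theorem WH_le_PM (N : ℕ) : Fermat.Agent.S20.WH (CongruenceSubgroup.Gamma0 N) ≤ PM :=
  fun _ hf => isPM_of_isWH N hf

/-- Laurent expansion from a convergent expansion of `q ^ n * f`. -/
theorem qLaurentFun_eq_of_hasSum {f : ℍ → ℂ} (hmd : MDiff f)
    (hper : Function.Periodic (f ∘ ofComplex) ((1 : ℝ) : ℂ)) {n : ℕ} {c : ℕ → ℂ}
    (h : ∀ τ : ℍ, HasSum (fun m : ℕ => c m * qH τ ^ m) (qH τ ^ n * f τ)) :
    IsPM f ∧ qLaurentFun f = HahnSeries.single (-(n : ℤ)) (1 : ℂ) *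
      HahnSeries.ofPowerSeries ℤ ℂ (PowerSeries.mk c) := by
  have h' : ∀ τ : ℍ,
      HasSum (fun m : ℕ => c m • Function.Periodic.qParam (1 : ℝ) (τ : ℂ) ^ m)
        ((fun z => qH z ^ n * f z) τ) :=
    fun τ => by simpa only [smul_eq_mul, qH] using h τ
  have hb : IsBoundedAtImInfty (fun z => qH z ^ n * f z) :=
    isBoundedAtImInfty_of_hasSum_qExpansion one_pos h'
  have hpm : IsPM f := ⟨hmd, hper, ⟨n, hb⟩⟩
  refine ⟨hpm, ?_⟩
  rw [qLaurentFun_eq hpm hb, (hpm.isHPB hb).qExpansion_eq_mk h]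

theorem coeff_qExpand_jq_of_lt (d : ℕ) [NeZero d] {k : ℤ} (hk : k < -(d : ℤ)) :
    (ModularCurve.qExpand ℚ d ModularCurve.jq).coeff k = 0 := by
  have hd : (0 : ℤ) < d := by exact_mod_cast NeZero.pos d
  by_cases hdk : (d : ℤ) ∣ k
  · obtain ⟨m, rfl⟩ := hdk
    rw [ModularCurve.qExpand_coeff_mul]
    apply ModularCurve.coeff_jq_of_lt
    by_contra hm
    push Not at hm
    nlinarith
  · exact ModularCurve.qExpand_coeff_of_not_dvd d _ hdk

/-- (T3) The Laurent `q`-expansion of `z ↦ j (d z)` is the coefficient embedding of the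
Prelude series `qExpand ℚ d jq`. Here `φ` is any map with `φ z = d z`. -/
theorem qLaurentFun_jd (d : ℕ) [NeZero d] (φ : ℍ → ℍ) (hφ : ∀ z : ℍ, (φ z : ℂ) = d * z) :
    IsPM (fun z => Fermat.Agent.S20.jFun (φ z)) ∧
    qLaurentFun (fun z => Fermat.Agent.S20.jFun (φ z))
      = ModularCurve.coeffMap (algebraMap ℚ ℂ) (ModularCurve.qExpand ℚ d ModularCurve.jq) := by
  have hd : (0 : ℝ) < d := by exact_mod_cast NeZero.pos d
  have hmd : MDiff (fun z => Fermat.Agent.S20.jFun (φ z)) := by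
    rw [UpperHalfPlane.mdifferentiable_iff]
    have hj := UpperHalfPlane.mdifferentiable_iff.mp Fermat.Agent.S20.mdiff_jFun
    have hmaps : Set.MapsTo (fun w : ℂ => (d : ℂ) * w) {z : ℂ | 0 < z.im} {z : ℂ | 0 < z.im} := by
      intro w hw
      have hw' : 0 < w.im := hw
      show 0 < ((d : ℂ) * w).im
      simpa using mul_pos hd hw'
    have hcomp : DifferentiableOn ℂ
        ((Fermat.Agent.S20.jFun ∘ ofComplex) ∘ fun w : ℂ => (d : ℂ) * w) {z : ℂ | 0 < z.im} :=
      hj.comp (by fun_prop) hmaps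
    refine hcomp.congr fun w hw => ?_
    have hw' : 0 < ((d : ℂ) * w).im := hmaps hw
    simp only [comp_apply]
    congr 1
    apply UpperHalfPlane.ext
    rw [hφ, ofComplex_apply_of_im_pos hw, ofComplex_apply_of_im_pos hw']
  have hper : Function.Periodic ((fun z => Fermat.Agent.S20.jFun (φ z)) ∘ ofComplex)
      ((1 : ℝ) : ℂ) := by
    refine periodic_comp_ofComplex_of fun z => ?_
    have e : φ ((1 : ℝ) +ᵥ z) = ModularGroup.T ^ (d : ℤ) • φ z := by
      apply UpperHalfPlane.ext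
      rw [UpperHalfPlane.modular_T_zpow_smul, UpperHalfPlane.coe_vadd, hφ, hφ,
        UpperHalfPlane.coe_vadd]
      push_cast
      ring
    rw [e, Fermat.Agent.S20.jFun_smul]
  have hsum := fun τ : ℍ => jq_hasSum d τ (φ τ) (hφ τ)
  obtain ⟨hpm, hq⟩ := qLaurentFun_eq_of_hasSum hmd hper (n := d)
    (c := fun n : ℕ => (((ModularCurve.qExpand ℚ d ModularCurve.jq).coeff ((n : ℤ) - d) : ℚ) : ℂ))
    hsum
  refine ⟨hpm, ?_⟩
  rw [hq]
  ext k
  rw [HahnSeries.coeff_single_mul, one_mul, sub_neg_eq_add, ModularCurve.coeffMap_coeff]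
  by_cases hk : k + (d : ℤ) < 0
  · rw [ModularCurve.ofPowerSeries_coeff_of_neg _ hk, coeff_qExpand_jq_of_lt d (by omega)]
    simp
  · push Not at hk
    obtain ⟨m, hm⟩ := Int.eq_ofNat_of_zero_le hk
    rw [hm, HahnSeries.ofPowerSeries_apply_coeff, PowerSeries.coeff_mk,
      show ((m : ℤ) - d) = k by omega]
    rfl

end Fermat.Agent.S24
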