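import Mathlib
import Fermat.Agent.S24.QLaurent
import Fermat.Agent.S24.DescentSep
import Fermat.Agent.S24.Defs

set_option autoImplicit false

open UpperHalfPlane hiding I
open Complex Filter Function
open scoped Topology Manifold MatrixGroups
open Fermat.Agent.S20 ModularCurve

namespace Fermat.Agent.S24

/-- The Laurent `q`-expansion on weakly holomorphic `Γ₀(N)`-invariant functions. -/
noncomputable def qWH (N : ℕ) : WH (CongruenceSubgroup.Gamma0 N) →ₐ[ℂ] LaurentSeries ℂ :=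
  qLaurent.comp (Subalgebra.inclusion (WH_le_PM N))

theorem qWH_apply (N : ℕ) (f : WH (CongruenceSubgroup.Gamma0 N)) :
    qWH N f = qLaurentFun (f : ℍ → ℂ) := rfl

theorem qWH_injective (N : ℕ) : Function.Injective (qWH N) :=
  qLaurent_injective.comp (Subalgebra.inclusion_injective (WH_le_PM N))

/-- `j(dτ)` as an element of `WH Γ₀(N)` for `d ∣ N`. -/
noncomputable def jdWH (N d : ℕ) [NeZero d] (hd : d ∣ N) : WH (CongruenceSubgroup.Gamma0 N) :=
  ⟨jN d, isWH_jN_of_dvd hd⟩

theorem qWH_jdWH (N d : ℕ) [NeZero d] (hd : d ∣ N) :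
    qWH N (jdWH N d hd) = coeffEmb ℂ (qExpand ℚ d jq) :=
  (qLaurentFun_jd d (fun z => Fermat.Agent.S23.Sep.dil d • z)
    (Fermat.Agent.S23.Sep.coe_dil_smul d)).2

theorem qWH_jWH (N : ℕ) :
    qWH N (jWH (CongruenceSubgroup.Gamma0 N)) = coeffEmb ℂ jq := by
  have h := (qLaurentFun_jd 1 (fun z => z) (fun z => by simp)).2
  rw [qExpand_one_apply] at h
  exact h

theorem aeval_jWH_apply (Γ : Subgroup SL(2, ℤ)) (p : Polynomial ℂ) (z : ℍ) :
    ((Polynomial.aeval (jWH Γ) p : WH Γ) : ℍ → ℂ) z = p.eval (jFun z) := by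
  have h := Polynomial.aeval_algHom_apply
    ((Pi.evalAlgHom ℂ (fun _ : ℍ => ℂ) z).comp (WH Γ).val) (jWH Γ) p
  simp only [AlgHom.comp_apply, Subalgebra.coe_val, Pi.evalAlgHom_apply] at h
  rw [← h, jWH_apply, Polynomial.coe_aeval_eq_eval]

theorem aeval_mem_FF (N : ℕ) {x : LaurentSeries ℂ}
    (hx : x ∈ laurentBaseChange ℂ (modularFunctionFieldFull N)) (p : Polynomial ℂ) :
    Polynomial.aeval x p ∈ laurentBaseChange ℂ (modularFunctionFieldFull N) := by
  induction p using Polynomial.induction_on with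
  | C a =>
    rw [Polynomial.aeval_C]
    exact (laurentBaseChange ℂ (modularFunctionFieldFull N)).algebraMap_mem a
  | add p q hp hq =>
    rw [map_add]
    exact add_mem hp hq
  | monomial n a h =>
    rw [map_mul, Polynomial.aeval_C, map_pow, Polynomial.aeval_X]
    exact mul_mem ((laurentBaseChange ℂ (modularFunctionFieldFull N)).algebraMap_mem a)
      (pow_mem hx _)

theorem qWH_jWH_mem (N : ℕ) [NeZero N] :
    qWH N (jWH (CongruenceSubgroup.Gamma0 N)) ∈ laurentBaseChange ℂ (modularFunctionFieldFull N) := by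
  rw [qWH_jWH]
  exact (jBC ℂ N).2

theorem qWH_jdWH_mem (N d : ℕ) [NeZero d] (hd : d ∣ N) :
    qWH N (jdWH N d hd) ∈ laurentBaseChange ℂ (modularFunctionFieldFull N) := by
  rw [qWH_jdWH]
  exact (jdBC ℂ N d hd).2

/-- Membership of `q`-expansions in the formal function field, given a relation
`f · D = G` with `D, G ∈ ℂ[j][j_N]`, `D ≠ 0`. -/
theorem qWH_mem_FF_of_rel (N : ℕ) [NeZero N] (f : WH (CongruenceSubgroup.Gamma0 N))
    (hrel : ∃ (d : ℕ) (c e : ℕ → Polynomial ℂ),
      (∀ z : ℍ, (f : ℍ → ℂ) z * ∑ m ∈ Finset.range d, (e m).eval (jFun z) * jN N z ^ (d - 1 - m)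
        = ∑ m ∈ Finset.range d, (c m).eval (jFun z) * jN N z ^ (d - 1 - m)) ∧
      (∃ z : ℍ, ∑ m ∈ Finset.range d, (e m).eval (jFun z) * jN N z ^ (d - 1 - m) ≠ 0)) :
    qWH N f ∈ laurentBaseChange ℂ (modularFunctionFieldFull N) := by
  obtain ⟨d, c, e, hrel, z₀, hz₀⟩ := hrel
  set D : WH (CongruenceSubgroup.Gamma0 N) := ∑ m ∈ Finset.range d,
    Polynomial.aeval (jWH (CongruenceSubgroup.Gamma0 N)) (e m) * jdWH N N dvd_rfl ^ (d - 1 - m) with hD
  set G : WH (CongruenceSubgroup.Gamma0 N) := ∑ m ∈ Finset.range d,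
    Polynomial.aeval (jWH (CongruenceSubgroup.Gamma0 N)) (c m) * jdWH N N dvd_rfl ^ (d - 1 - m) with hG
  have hDz : ∀ z : ℍ, (D : ℍ → ℂ) z
      = ∑ m ∈ Finset.range d, (e m).eval (jFun z) * jN N z ^ (d - 1 - m) := by
    intro z
    rw [hD]
    simp only [AddSubmonoidClass.coe_finsetSum, Finset.sum_apply, MulMemClass.coe_mul,
      Pi.mul_apply, SubmonoidClass.coe_pow, Pi.pow_apply, aeval_jWH_apply]
    rfl
  have hGz : ∀ z : ℍ, (G : ℍ → ℂ) z
      = ∑ m ∈ Finset.range d, (c m).eval (jFun z) * jN N z ^ (d - 1 - m) := by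
    intro z
    rw [hG]
    simp only [AddSubmonoidClass.coe_finsetSum, Finset.sum_apply, MulMemClass.coe_mul,
      Pi.mul_apply, SubmonoidClass.coe_pow, Pi.pow_apply, aeval_jWH_apply]
    rfl
  have hfD : f * D = G := by
    apply Subtype.ext
    funext z
    rw [MulMemClass.coe_mul, Pi.mul_apply, hDz, hGz]
    exact hrel z
  have hD0 : D ≠ 0 := by
    intro h0
    apply hz₀
    rw [← hDz, h0]
    rfl
  have hqD0 : qWH N D ≠ 0 := fun h0 => hD0 (qWH_injective N (by rw [h0, map_zero]))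
  have hmem : ∀ (p : ℕ → Polynomial ℂ), qWH N (∑ m ∈ Finset.range d,
      Polynomial.aeval (jWH (CongruenceSubgroup.Gamma0 N)) (p m) * jdWH N N dvd_rfl ^ (d - 1 - m))
        ∈ laurentBaseChange ℂ (modularFunctionFieldFull N) := by
    intro p
    rw [map_sum]
    refine sum_mem fun m _ => ?_
    rw [map_mul, map_pow, ← Polynomial.aeval_algHom_apply]
    exact mul_mem (aeval_mem_FF N (qWH_jWH_mem N) _) (pow_mem (qWH_jdWH_mem N N dvd_rfl) _)
  have hq : qWH N f = qWH N G / qWH N D := by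
    rw [eq_div_iff hqD0, ← map_mul, hfD]
  rw [hq]
  exact div_mem (hmem c) (hmem e)

/-- The generation property: every `f ∈ WH Γ₀(N)` satisfies `f · D = G` with
`D, G ∈ ℂ[j][j_N]`, `D ≠ 0`. -/
def GenRel (N : ℕ) [NeZero N] : Prop :=
  ∀ f : ℍ → ℂ, IsWH (CongruenceSubgroup.Gamma0 N) f →
    ∃ (d : ℕ) (c e : ℕ → Polynomial ℂ),
      (∀ z : ℍ, f z * ∑ m ∈ Finset.range d, (e m).eval (jFun z) * jN N z ^ (d - 1 - m)
        = ∑ m ∈ Finset.range d, (c m).eval (jFun z) * jN N z ^ (d - 1 - m)) ∧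
      (∃ z : ℍ, ∑ m ∈ Finset.range d, (e m).eval (jFun z) * jN N z ^ (d - 1 - m) ≠ 0)

theorem coeffEmb_mem_of_subfield (N : ℕ) (R : Subfield (LaurentSeries ℂ))
    (hC : ∀ a : ℂ, algebraMap ℂ (LaurentSeries ℂ) a ∈ R)
    (hj : ∀ (d : ℕ) (_ : NeZero d), d ∣ N → coeffEmb ℂ (qExpand ℚ d jq) ∈ R) :
    ∀ x ∈ laurentBaseChange ℂ (modularFunctionFieldFull N), x ∈ R := by
  intro x hx
  rw [mem_laurentBaseChange_iff] at hx
  refine (Subfield.closure_le (t := R)).mpr ?_ hx
  rintro y (⟨a, rfl⟩ | ⟨y, hy, rfl⟩)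
  · exact hC a
  · -- `y ∈ modularFunctionFieldFull N`
    have hy' : y ∈ Subfield.closure
        (Set.range (algebraMap ℚ (LaurentSeries ℚ)) ∪ divisorExpansions N) := hy
    have hle : Subfield.closure
        (Set.range (algebraMap ℚ (LaurentSeries ℚ)) ∪ divisorExpansions N)
          ≤ R.comap (coeffEmb ℂ) := by
      rw [Subfield.closure_le]
      rintro z (⟨a, rfl⟩ | ⟨d, hne, hd, rfl⟩)
      · show coeffEmb ℂ (algebraMap ℚ (LaurentSeries ℚ) a) ∈ R
        have : coeffEmb ℂ (algebraMap ℚ (LaurentSeries ℚ) a)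
            = algebraMap ℂ (LaurentSeries ℂ) (algebraMap ℚ ℂ a) := by
          rw [algebraMap_apply_eq_single, algebraMap_laurentSeries_eq_single, coeffEmb,
            coeffMap_single]
        rw [this]
        exact hC _
      · exact hj d hne hd
    exact hle hy'

section Iso

variable (N : ℕ) [NeZero N] (L : Type*) [Field L]
  [Algebra (WH (CongruenceSubgroup.Gamma0 N)) L] [IsFractionRing (WH (CongruenceSubgroup.Gamma0 N)) L]
  [Algebra ℂ L] [IsScalarTower ℂ (WH (CongruenceSubgroup.Gamma0 N)) L]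

/-- The `q`-expansion isomorphism between the analytic function field `Frac (WH Γ₀(N))` and
the formal function field `FF ℂ N`, assuming the generation property. -/
theorem exists_qIso_of_genRel (hgen : GenRel N) :
    ∃ e : L ≃ₐ[ℂ] FF ℂ N,
      (∀ f : WH (CongruenceSubgroup.Gamma0 N),
        ((e (algebraMap (WH (CongruenceSubgroup.Gamma0 N)) L f) : FF ℂ N) : LaurentSeries ℂ)
          = qLaurentFun (f : ℍ → ℂ)) ∧
      e (algebraMap (WH (CongruenceSubgroup.Gamma0 N)) L (jWH (CongruenceSubgroup.Gamma0 N)))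
        = jBC ℂ N := by
  have : IsDomain (WH (CongruenceSubgroup.Gamma0 N)) :=
    (IsFractionRing.injective (WH (CongruenceSubgroup.Gamma0 N)) L).isDomain _
  let g : WH (CongruenceSubgroup.Gamma0 N) →ₐ[ℂ] FF ℂ N :=
    (qWH N).codRestrict (laurentBaseChange ℂ (modularFunctionFieldFull N)).toSubalgebra
      (fun f => qWH_mem_FF_of_rel N f (hgen f f.2))
  have hgval : ∀ f, ((g f : FF ℂ N) : LaurentSeries ℂ) = qWH N f := fun f => rfl
  have hg : Function.Injective g := by
    intro a b hab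
    apply qWH_injective N
    rw [← hgval, ← hgval, hab]
  let E : L →ₐ[ℂ] FF ℂ N := IsFractionRing.liftAlgHom hg
  have hE : ∀ f : WH (CongruenceSubgroup.Gamma0 N), E (algebraMap _ L f) = g f :=
    fun f => IsFractionRing.lift_algebraMap hg f
  have hsurj : Function.Surjective E := by
    intro y
    -- the subfield of `LaurentSeries ℂ` of values of `E`
    let R : Subfield (LaurentSeries ℂ) :=
      (E.toRingHom.fieldRange).map (laurentBaseChange ℂ (modularFunctionFieldFull N)).val.toRingHom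
    have hR : ∀ x : L, ((E x : FF ℂ N) : LaurentSeries ℂ) ∈ R := fun x =>
      ⟨E x, ⟨x, rfl⟩, rfl⟩
    have hy : (y : LaurentSeries ℂ) ∈ R := by
      refine coeffEmb_mem_of_subfield N R ?_ ?_ _ y.2
      · intro a
        have := hR (algebraMap ℂ L a)
        rw [E.commutes] at this
        exact this
      · intro d hne hd
        have := hR (algebraMap _ L (jdWH N d hd))
        rw [hE, hgval, qWH_jdWH] at this
        exact this
    obtain ⟨y', ⟨x, rfl⟩, hxy⟩ := hy
    exact ⟨x, Subtype.ext hxy⟩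
  refine ⟨AlgEquiv.ofBijective E ⟨E.toRingHom.injective, hsurj⟩, ?_, ?_⟩
  · intro f
    show ((E (algebraMap _ L f) : FF ℂ N) : LaurentSeries ℂ) = _
    rw [hE, hgval, qWH_apply]
  · show E (algebraMap _ L (jWH (CongruenceSubgroup.Gamma0 N))) = _
    apply Subtype.ext
    rw [hE, hgval, qWH_jWH, coe_jBC]

end Iso

end Fermat.Agent.S24
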