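import Mathlib
import Fermat.Agent.S24.QIso
import Fermat.Agent.S24.Generation
import Fermat.Agent.S20.Ring

set_option autoImplicit false

open UpperHalfPlane hiding I
open scoped MatrixGroups RatFunc
open Fermat.Agent.S20 ModularCurve Polynomial CongruenceSubgroup

namespace Fermat.Agent.S24

/-- The generation property holds (helper15's `exists_rel_jN`). -/
theorem genRel (N : ℕ) [NeZero N] : GenRel N := fun f hf => exists_rel_jN N f hf

/-- The `q`-expansion of a weakly holomorphic `Γ₀(N)`-invariant function lies in the formal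
function field `FF ℂ N`. -/
theorem qWH_mem_FF (N : ℕ) [NeZero N] (f : WH (CongruenceSubgroup.Gamma0 N)) :
    qWH N f ∈ laurentBaseChange ℂ (modularFunctionFieldFull N) :=
  qWH_mem_FF_of_rel N f (genRel N f f.2)

/-- The `q`-expansion isomorphism between the analytic function field `Frac (WH Γ₀(N))` and
the formal function field `FF ℂ N = ℂ(j(q^d) : d ∣ N) ⊆ ℂ((q))`. -/
theorem exists_qIso (N : ℕ) [NeZero N] (L : Type*) [Field L]
    [Algebra (WH (CongruenceSubgroup.Gamma0 N)) L]
    [IsFractionRing (WH (CongruenceSubgroup.Gamma0 N)) L]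
    [Algebra ℂ L] [IsScalarTower ℂ (WH (CongruenceSubgroup.Gamma0 N)) L] :
    ∃ e : L ≃ₐ[ℂ] FF ℂ N,
      (∀ f : WH (CongruenceSubgroup.Gamma0 N),
        ((e (algebraMap (WH (CongruenceSubgroup.Gamma0 N)) L f) : FF ℂ N) : LaurentSeries ℂ)
          = qLaurentFun (f : ℍ → ℂ)) ∧
      e (algebraMap (WH (CongruenceSubgroup.Gamma0 N)) L (jWH (CongruenceSubgroup.Gamma0 N)))
        = jBC ℂ N :=
  exists_qIso_of_genRel N L (genRel N)

/-- (WP-ISO) The `q`-expansion isomorphism for the analytic function field `S20.FF N`.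
The degree hypothesis is not needed for the proof (the generation property
`exists_rel_jN` replaces the degree count); it is kept for the agreed signature. -/
theorem exists_algEquiv_FF (N : ℕ) [NeZero N]
    (hdeg : Module.finrank (RatFunc ℂ) (S20.FF N) ≤ Nat.card (SL(2, ℤ) ⧸ Gamma0 N)) :
    ∃ e : S20.FF N ≃ₐ[ℂ] FF ℂ N, e (algebraMap ℂ[X] (S20.FF N) X) = jBC ℂ N := by
  obtain ⟨e, -, he⟩ := exists_qIso N (S20.FF N)
  refine ⟨e, ?_⟩
  rw [IsScalarTower.algebraMap_apply ℂ[X] (WH (Gamma0 N)) (S20.FF N), algebraMap_poly_WH,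
    Polynomial.aeval_X]
  exact he

/-- Version of `exists_algEquiv_FF` without the (unused) degree hypothesis, recording also
the compatibility with `q`-expansions. -/
theorem exists_algEquiv_FF' (N : ℕ) [NeZero N] :
    ∃ e : S20.FF N ≃ₐ[ℂ] FF ℂ N, e (algebraMap ℂ[X] (S20.FF N) X) = jBC ℂ N ∧
      ∀ f : WH (Gamma0 N),
        ((e (algebraMap (WH (Gamma0 N)) (S20.FF N) f) : FF ℂ N) : LaurentSeries ℂ)
          = qLaurentFun (f : ℍ → ℂ) := by
  obtain ⟨e, hq, he⟩ := exists_qIso N (S20.FF N)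
  refine ⟨e, ?_, hq⟩
  rw [IsScalarTower.algebraMap_apply ℂ[X] (WH (Gamma0 N)) (S20.FF N), algebraMap_poly_WH,
    Polynomial.aeval_X]
  exact he

end Fermat.Agent.S24
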