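import Mathlib
import Fermat.Prelude.Def_AlgebraicCurve_CanonicalDivisor

/-!
# S24, work package H4: transport of places along a field isomorphism
-/

set_option autoImplicit false
set_option linter.unusedSectionVars false

namespace Fermat.Agent.S24

open AlgebraicCurve IntermediateField KaehlerDifferential
open scoped Polynomial RatFunc

variable {K F : Type*} [Field K] [IsAlgClosed K] [CharZero K] [Field F] [Algebra K F]

namespace Transport

variable {F' : Type*} [Field F'] [Algebra K F']

/-- ring equivalence between a valuation subring and its transport -/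
def comapRingEquiv (e : F ≃ₐ[K] F') (A : ValuationSubring F) :
    A ≃+* (A.comap ((e.symm : F' ≃ₐ[K] F) : F' →+* F)) where
  toFun x := ⟨e x, by simp [ValuationSubring.mem_comap]⟩
  invFun y := ⟨e.symm y, ValuationSubring.mem_comap.mp y.2⟩
  left_inv x := by ext; simp
  right_inv y := by ext; simp
  map_mul' x y := by ext; simp
  map_add' x y := by ext; simp

@[simp]
theorem coe_comapRingEquiv_apply (e : F ≃ₐ[K] F') (A : ValuationSubring F) (x : A) :
    ((comapRingEquiv e A x : A.comap ((e.symm : F' ≃ₐ[K] F) : F' →+* F)) : F') = e x := rfl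

/-- transport of a place -/
def mapPlace (e : F ≃ₐ[K] F') (v : Place K F) : Place K F' where
  toValuationSubring := v.toValuationSubring.comap ((e.symm : F' ≃ₐ[K] F) : F' →+* F)
  algebraMap_mem' a := by
    rw [ValuationSubring.mem_comap]
    simpa using v.algebraMap_mem' a
  ne_top' h := v.ne_top' (by
    ext x
    have h1 : e x ∈ (⊤ : ValuationSubring F') := ValuationSubring.mem_top _
    rw [← h, ValuationSubring.mem_comap] at h1
    simpa using h1)
  isPrincipalIdealRing' :=
    IsPrincipalIdealRing.of_surjective
      (comapRingEquiv e v.toValuationSubring : _ ≃+* _)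
      (comapRingEquiv e v.toValuationSubring).surjective

@[simp]
theorem mapPlace_toValuationSubring (e : F ≃ₐ[K] F') (v : Place K F) :
    (mapPlace e v).toValuationSubring =
      v.toValuationSubring.comap ((e.symm : F' ≃ₐ[K] F) : F' →+* F) := rfl

theorem mem_mapPlace (e : F ≃ₐ[K] F') (v : Place K F) (y : F') :
    y ∈ (mapPlace e v).toValuationSubring ↔ e.symm y ∈ v.toValuationSubring := by
  rw [mapPlace_toValuationSubring, ValuationSubring.mem_comap]
  rfl

theorem mapPlace_symm_mapPlace (e : F ≃ₐ[K] F') (v : Place K F) :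
    mapPlace e.symm (mapPlace e v) = v := by
  ext1
  ext x
  rw [mem_mapPlace, mem_mapPlace]
  simp

theorem mapPlace_mapPlace_symm (e : F ≃ₐ[K] F') (w : Place K F') :
    mapPlace e (mapPlace e.symm w) = w := by
  ext1
  ext x
  rw [mem_mapPlace, mem_mapPlace]
  simp

theorem mapPlace_ord (e : F ≃ₐ[K] F') (v : Place K F) (f : F) :
    (mapPlace e v).ord (e f) = v.ord f := by
  rcases eq_or_ne f 0 with rfl | hf
  · simp
  obtain ⟨π, hπ⟩ := IsDiscreteValuationRing.exists_irreducible v.toValuationSubring
  obtain ⟨u, hu⟩ := v.exists_unit_mul_zpow hf hπ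
  set n := v.ord f with hn
  set r : v.toValuationSubring ≃+* (mapPlace e v).toValuationSubring :=
    comapRingEquiv e v.toValuationSubring with hr
  have hπ' : Irreducible (r π) := (MulEquiv.irreducible_iff r).mpr hπ
  have hu' : IsUnit (r (u : v.toValuationSubring)) := u.isUnit.map r
  have hcoeu : ((hu'.unit : (mapPlace e v).toValuationSubring) : F')
      = e ((u : v.toValuationSubring) : F) := by
    rw [IsUnit.unit_spec]
    rfl
  have hcoeπ : ((r π : (mapPlace e v).toValuationSubring) : F') = e (π : F) := rfl
  have key : e f = ((hu'.unit : (mapPlace e v).toValuationSubring) : F')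
      * (((r π : (mapPlace e v).toValuationSubring) : F') ^ n) := by
    rw [hcoeu, hcoeπ, hu, map_mul, map_zpow₀]
  rw [key, (mapPlace e v).ord_unit_smul_zpow hu'.unit hπ' n]

end Transport

/-- places transport along a `K`-algebra isomorphism -/
noncomputable def placeEquiv {F' : Type*} [Field F'] [Algebra K F'] (e : F ≃ₐ[K] F') :
    Place K F ≃ Place K F' where
  toFun := Transport.mapPlace e
  invFun := Transport.mapPlace e.symm
  left_inv := Transport.mapPlace_symm_mapPlace e
  right_inv := Transport.mapPlace_mapPlace_symm e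

theorem placeEquiv_ord {F' : Type*} [Field F'] [Algebra K F'] (e : F ≃ₐ[K] F') (v : Place K F)
    (f : F) : (placeEquiv e v).ord (e f) = v.ord f :=
  Transport.mapPlace_ord e v f

/-- counting zeros is invariant -/
theorem card_zeros_congr {F' : Type*} [Field F'] [Algebra K F'] (e : F ≃ₐ[K] F') (f : F) :
    Nat.card {v : Place K F' // 0 < v.ord (e f)} = Nat.card {v : Place K F // 0 < v.ord f} := by
  refine (Nat.card_congr ?_).symm
  exact (placeEquiv e).subtypeEquiv (fun v => by rw [placeEquiv_ord])

theorem finrank_adjoin_congr {F' : Type*} [Field F'] [Algebra K F'] (e : F ≃ₐ[K] F') (x : F) :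
    Module.finrank K⟮e x⟯ F' = Module.finrank K⟮x⟯ F := by
  have hmap : (K⟮x⟯ : IntermediateField K F).map (e : F →ₐ[K] F') = K⟮e x⟯ := by
    rw [IntermediateField.adjoin_map]
    simp
  let i : K⟮x⟯ ≃+* K⟮e x⟯ :=
    ((IntermediateField.equivMap K⟮x⟯ (e : F →ₐ[K] F')).trans
      (IntermediateField.equivOfEq hmap)).toRingEquiv
  refine (Algebra.finrank_eq_of_equiv_equiv i e.toRingEquiv ?_).symm
  ext a
  rfl

end Fermat.Agent.S24
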