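import Mathlib
import Fermat.Prelude.Def_AlgebraicCurve_CanonicalDivisor
import Fermat.Prelude.Def_ModularCurve_ArithmeticGalois
import Fermat.Prelude.Def_ModularCurve_GenusNumerics
import Fermat.Agent.S24.Defs
import Fermat.Agent.S24.Transport
import Fermat.Agent.S24.Bridge
import Fermat.Agent.S24.Counts
import Fermat.Agent.S24.QIso
import Fermat.Agent.S24.Generation
import Fermat.Agent.S21.Defs

set_option autoImplicit false

/-! # S24: the complex function field `ℂ(j(q^d) : d ∣ N)`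

Degree over `ℂ(j)` and the number of places over `j = a` and `j = ∞`, obtained from the
weakly holomorphic model `S20.FF N = Frac (WH Γ₀(N))` through the `q`-expansion isomorphism. -/

namespace Fermat.Agent.S24

open AlgebraicCurve IntermediateField ModularCurve Polynomial IsDedekindDomain CongruenceSubgroup
open scoped MatrixGroups RatFunc

theorem complex_places (N : ℕ) [NeZero N] :
    Transcendental ℂ (jBC ℂ N) ∧ FiniteDimensional ℂ⟮jBC ℂ N⟯ (FF ℂ N) ∧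
    Module.finrank ℂ⟮jBC ℂ N⟯ (FF ℂ N) = Nat.card (SL(2, ℤ) ⧸ CongruenceSubgroup.Gamma0 N) ∧
    (∀ a : ℂ, a ≠ 0 → a ≠ 1728 →
      Nat.card {v : Place ℂ (FF ℂ N) // 0 < v.ord (jBC ℂ N - algebraMap ℂ (FF ℂ N) a)} =
        Nat.card (SL(2, ℤ) ⧸ CongruenceSubgroup.Gamma0 N)) ∧
    Nat.card {v : Place ℂ (FF ℂ N) // 0 < v.ord (jBC ℂ N - algebraMap ℂ (FF ℂ N) 0)} =
      S21.nOrb (SL(2, ℤ) ⧸ CongruenceSubgroup.Gamma0 N) (ModularGroup.S * ModularGroup.T) ∧
    Nat.card {v : Place ℂ (FF ℂ N) // 0 < v.ord (jBC ℂ N - algebraMap ℂ (FF ℂ N) 1728)} =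
      S21.nOrb (SL(2, ℤ) ⧸ CongruenceSubgroup.Gamma0 N) ModularGroup.S ∧
    Nat.card {v : Place ℂ (FF ℂ N) // v.ord (jBC ℂ N) < 0} =
      S21.nOrb (SL(2, ℤ) ⧸ CongruenceSubgroup.Gamma0 N) ModularGroup.T := by
  obtain ⟨e, -, he'⟩ := exists_qIso_of_genRel N (S20.FF N) (exists_rel_jN N)
  have he : e (algebraMap ℂ[X] (S20.FF N) X) = jBC ℂ N := by
    rw [← he', IsScalarTower.algebraMap_apply ℂ[X] (S20.WH (Gamma0 N)) (S20.FF N),
      S20.algebraMap_poly_WH, Polynomial.aeval_X]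
  obtain ⟨hxL, hfdL, hdegL⟩ := bridge_finrank ℂ (S20.FF N)
  have hfin : Finite (SL(2, ℤ) ⧸ CongruenceSubgroup.Gamma0 N) :=
    Subgroup.finite_quotient_of_finiteIndex
  have hpos : 0 < Nat.card (SL(2, ℤ) ⧸ CongruenceSubgroup.Gamma0 N) := Nat.card_pos
  -- degree
  have hdeg : Module.finrank ℂ⟮jBC ℂ N⟯ (FF ℂ N) =
      Nat.card (SL(2, ℤ) ⧸ CongruenceSubgroup.Gamma0 N) := by
    rw [← he, finrank_adjoin_congr e, hdegL, S20.finrank_FF N]
    rfl
  -- zeros of j - a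
  have hzeros : ∀ a : ℂ,
      Nat.card {v : Place ℂ (FF ℂ N) // 0 < v.ord (jBC ℂ N - algebraMap ℂ (FF ℂ N) a)} =
      Nat.card {𝔮 : HeightOneSpectrum (S20.WH (Gamma0 N)) //
        algebraMap ℂ[X] (S20.WH (Gamma0 N)) (X - C a) ∈ 𝔮.asIdeal} := by
    intro a
    rw [← bridge_card_zeros ℂ (S20.FF N) (S20.WH (Gamma0 N)) a,
      ← card_zeros_congr e (algebraMap ℂ[X] (S20.FF N) X - algebraMap ℂ (S20.FF N) a),
      map_sub, he, AlgEquiv.commutes]
  refine ⟨?_, ?_, hdeg, ?_, ?_, ?_, ?_⟩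
  · rw [← he]
    intro h
    exact hxL ((isAlgebraic_algHom_iff (e : S20.FF N →ₐ[ℂ] FF ℂ N) e.injective).mp h)
  · exact FiniteDimensional.of_finrank_pos (by rw [hdeg]; exact hpos)
  · intro a h0 h1
    rw [hzeros a, card_primes_over_of_ne N a h0 h1]
  · rw [hzeros 0, card_primes_over_rho N]
  · rw [hzeros 1728, card_primes_over_I N]
  · rw [← card_primes_inf N, ← bridge_card_poles ℂ (S20.FF N) (S20.Binf N)]
    have h1 : Nat.card {v : Place ℂ (FF ℂ N) // v.ord (jBC ℂ N) < 0} =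
        Nat.card {v : Place ℂ (FF ℂ N) //
          0 < v.ord (e (algebraMap ℂ[X] (S20.FF N) X)⁻¹)} := by
      refine Nat.card_congr (Equiv.subtypeEquivRight fun v => ?_)
      rw [map_inv₀, he, v.ord_inv]; omega
    have h2 : Nat.card {v : Place ℂ (S20.FF N) // v.ord (algebraMap ℂ[X] (S20.FF N) X) < 0} =
        Nat.card {v : Place ℂ (S20.FF N) // 0 < v.ord (algebraMap ℂ[X] (S20.FF N) X)⁻¹} := by
      refine Nat.card_congr (Equiv.subtypeEquivRight fun v => ?_)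
      rw [v.ord_inv]; omega
    rw [h1, h2]
    exact card_zeros_congr e _

end Fermat.Agent.S24
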