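import Mathlib
import Fermat.Prelude.Def_AlgebraicCurve_CanonicalDivisor

/-!
# S24, WP-H2 (auxiliary part, no dependence on `Places.lean`)

* `Diff.exists_kaehlerEquiv`: `Ω[F⁄K]` is free of rank one on `dx`.
* `Diff.key_aux`: integrality of `du/dt` for `u ∈ O_v`, from a localization model and residues.
-/

set_option autoImplicit false

namespace Fermat.Agent.S24

open AlgebraicCurve IntermediateField KaehlerDifferential
open scoped Polynomial RatFunc TensorProduct

namespace Diff

section KaehlerRankOne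

variable {K F : Type*} [Field K] [CharZero K] [Field F] [Algebra K F]

/-- `Ω[F⁄K]` is free of rank one on `dx`. -/
theorem exists_kaehlerEquiv (x : F) (hx : Transcendental K x) [FiniteDimensional K⟮x⟯ F] :
    ∃ φ : Ω[F⁄K] ≃ₗ[F] F, φ (D K F x) = 1 := by
  classical
  -- `K[X]`-algebra structures
  letI a1 : Algebra K[X] K⟮x⟯ := (Polynomial.aeval (AdjoinSimple.gen K x)).toRingHom.toAlgebra
  letI a2 : Algebra K[X] F := (Polynomial.aeval x).toRingHom.toAlgebra
  have h1 : ∀ p : K[X], algebraMap K[X] K⟮x⟯ p = Polynomial.aeval (AdjoinSimple.gen K x) p :=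
    fun p => rfl
  have h2 : ∀ p : K[X], algebraMap K[X] F p = Polynomial.aeval x p := fun p => rfl
  haveI t1 : IsScalarTower K K[X] K⟮x⟯ := IsScalarTower.of_algebraMap_eq fun a => by
    rw [h1, Polynomial.algebraMap_apply, Algebra.algebraMap_self_apply, Polynomial.aeval_C]
  haveI t2 : IsScalarTower K K[X] F := IsScalarTower.of_algebraMap_eq fun a => by
    rw [h2, Polynomial.algebraMap_apply, Algebra.algebraMap_self_apply, Polynomial.aeval_C]
  haveI t3 : IsScalarTower K[X] K⟮x⟯ F := IsScalarTower.of_algebraMap_eq fun p => by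
    rw [h1, h2, ← Polynomial.aeval_algebraMap_apply, AdjoinSimple.algebraMap_gen]
  -- `K⟮x⟯` is the fraction field of `K[X]`
  let e : K⟮X⟯ ≃ₐ[K] K⟮x⟯ := RatFunc.algEquivOfTranscendental x hx
  let e' : K⟮X⟯ ≃ₐ[K[X]] K⟮x⟯ := AlgEquiv.ofRingEquiv (f := e.toRingEquiv) fun p => by
    rw [h1]
    exact RatFunc.algEquivOfTranscendental_algebraMap x hx p
  haveI l1 : IsLocalization (nonZeroDivisors K[X]) K⟮x⟯ :=
    IsLocalization.isLocalization_of_algEquiv (nonZeroDivisors K[X]) e'
  haveI f1 : Algebra.FormallyEtale K[X] K⟮x⟯ :=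
    Algebra.FormallyEtale.of_isLocalization (nonZeroDivisors K[X])
  haveI f2 : Algebra.FormallyEtale K⟮x⟯ F := Algebra.FormallyEtale.of_isSeparable _ _
  haveI f3 : Algebra.FormallyEtale K[X] F := Algebra.FormallyEtale.comp K[X] K⟮x⟯ F
  let φ₁ : Ω[F⁄K] ≃ₗ[F] F ⊗[K[X]] Ω[K[X]⁄K] :=
    (tensorKaehlerEquivOfFormallyEtale K K[X] F).symm
  let φ₂ : F ⊗[K[X]] Ω[K[X]⁄K] ≃ₗ[F] F ⊗[K[X]] K[X] :=
    TensorProduct.AlgebraTensorModule.congr (LinearEquiv.refl F F) (polynomialEquiv K)
  let φ₃ : F ⊗[K[X]] K[X] ≃ₗ[F] F := TensorProduct.AlgebraTensorModule.rid K[X] F F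
  refine ⟨φ₁ ≪≫ₗ φ₂ ≪≫ₗ φ₃, ?_⟩
  have hxX : x = algebraMap K[X] F Polynomial.X := by rw [h2, Polynomial.aeval_X]
  have e1 : φ₁ (D K F x) = 1 ⊗ₜ D K K[X] Polynomial.X := by
    conv_lhs => rw [hxX]
    exact tensorKaehlerEquivOfFormallyEtale_symm_D_algebraMap K K[X] F Polynomial.X
  simp only [LinearEquiv.trans_apply, e1, φ₂, φ₃]
  simp [polynomialEquiv_D]

end KaehlerRankOne

section Ord

variable {K F : Type*} [Field K] [Field F] [Algebra K F] (v : Place K F)

theorem mem_of_ord_nonneg {f : F} (hf : f ≠ 0) (h : 0 ≤ v.ord f) :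
    f ∈ v.toValuationSubring := by
  obtain ⟨π, hπ⟩ := IsDiscreteValuationRing.exists_irreducible v.toValuationSubring
  obtain ⟨u, hu⟩ := v.exists_unit_mul_zpow hf hπ
  rw [hu]
  refine mul_mem (u : v.toValuationSubring).2 ?_
  obtain ⟨n, hn⟩ := Int.eq_ofNat_of_zero_le h
  rw [hn, zpow_natCast]
  exact pow_mem π.2 n

theorem ord_nonneg_of_mem {f : F} (hf : f ∈ v.toValuationSubring) : 0 ≤ v.ord f := by
  rcases eq_or_ne f 0 with rfl | hf0
  · simp
  · have h1 : v.adicValuation f ≤ 1 := by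
      have := v.adicValuation_coe ⟨f, hf⟩
      rw [show ((⟨f, hf⟩ : v.toValuationSubring) : F) = f from rfl] at this
      rw [this]
      exact IsDedekindDomain.HeightOneSpectrum.intValuation_le_one _ _
    have h2 : WithZero.log (v.adicValuation f) ≤ 0 := by
      have h3 := (WithZero.log_le_log (v.adicValuation_ne_zero hf0) one_ne_zero).mpr h1
      simpa using h3
    unfold Place.ord
    omega

theorem inv_mem_of_ord_nonpos {f : F} (hf : f ≠ 0) (h : v.ord f ≤ 0) :
    f⁻¹ ∈ v.toValuationSubring := by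
  refine mem_of_ord_nonneg v (inv_ne_zero hf) ?_
  rw [v.ord_inv]
  omega

/-- a nonzero element of positive order is divisible by any irreducible -/
theorem mul_inv_mem_of_ord_pos {f : F} (h : 0 < v.ord f) {π : v.toValuationSubring}
    (hπ : Irreducible π) : f * (π : F)⁻¹ ∈ v.toValuationSubring := by
  have hf : f ≠ 0 := by
    rintro rfl
    simp at h
  have hπ0 : (π : F) ≠ 0 := by
    simpa [ne_eq, ZeroMemClass.coe_eq_zero] using hπ.ne_zero
  refine mem_of_ord_nonneg v (mul_ne_zero hf (inv_ne_zero hπ0)) ?_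
  rw [v.ord_mul hf (inv_ne_zero hπ0), v.ord_inv, v.ord_coe_irreducible hπ]
  omega

end Ord

section Key

variable {K F : Type*} [Field K] [Field F] [Algebra K F] (v : Place K F)

theorem smul_coe (c : v.toValuationSubring) (ω : Ω[F⁄K]) : c • ω = (c : F) • ω := rfl

/-- KEY, abstract form: if `O_v` is a localization of a finitely generated `K`-algebra and
every element of `O_v` is congruent to a constant, then `D u ∈ O_v • D π` for `u ∈ O_v`. -/
theorem key_aux
    (hres : ∀ u ∈ v.toValuationSubring,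
      ∃ a : K, u = algebraMap K F a ∨ 0 < v.ord (u - algebraMap K F a))
    (B : Subalgebra K F) (P : Ideal B) (hB : B.FG)
    (hO : ∀ u : F, u ∈ v.toValuationSubring ↔ ∃ b s : B, s ∉ P ∧ u * (s : F) = (b : F))
    (hP : ∀ b : B, b ∈ P ↔ 0 < v.ord (b : F) ∨ b = 0)
    (π : v.toValuationSubring) (hπ : Irreducible π) (u : F) (hu : u ∈ v.toValuationSubring) :
    ∃ c ∈ v.toValuationSubring, D K F u = c • D K F (π : F) := by
  classical
  obtain ⟨G, hG⟩ := hB
  let M : Submodule v.toValuationSubring Ω[F⁄K] := Submodule.span v.toValuationSubring (D K F '' (G : Set F))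
  have hMfg : M.FG := Submodule.fg_span (G.finite_toSet.image _)
  have h1P : (1 : B) ∉ P := by
    rw [hP]
    simp
  -- `B ⊆ v.toValuationSubring`
  have hBO : ∀ b : F, b ∈ B → b ∈ v.toValuationSubring := fun b hb =>
    (hO b).mpr ⟨⟨b, hb⟩, 1, h1P, by simp⟩
  -- `D b ∈ M` for `b ∈ B`
  have hBM : ∀ b : F, b ∈ B → D K F b ∈ M := by
    intro b hb
    rw [← hG] at hb
    induction hb using Algebra.adjoin_induction with
    | mem g hg => exact Submodule.subset_span ⟨g, hg, rfl⟩
    | algebraMap r => rw [Derivation.map_algebraMap]; exact M.zero_mem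
    | add a b ha hb iha ihb => rw [map_add]; exact M.add_mem iha ihb
    | mul a b ha hb iha ihb =>
      rw [Derivation.leibniz]
      have haO : a ∈ v.toValuationSubring := hBO a (hG ▸ ha)
      have hbO : b ∈ v.toValuationSubring := hBO b (hG ▸ hb)
      exact M.add_mem (M.smul_mem ⟨a, haO⟩ ihb) (M.smul_mem ⟨b, hbO⟩ iha)
  -- `D u ∈ M` for `u ∈ v.toValuationSubring`
  have hOM : ∀ w : F, w ∈ v.toValuationSubring → D K F w ∈ M := by
    intro w hw
    obtain ⟨b, s, hs, hws⟩ := (hO w).mp hw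
    rw [hP] at hs
    push Not at hs
    obtain ⟨hs1, hs0⟩ := hs
    have hs0' : (s : F) ≠ 0 := fun h => hs0 (Subtype.ext h)
    have hsinv : (s : F)⁻¹ ∈ v.toValuationSubring := inv_mem_of_ord_nonpos v hs0' hs1
    have hbO : (b : F) ∈ v.toValuationSubring := hBO b b.2
    have hw' : w = (b : F) * (s : F)⁻¹ := by
      rw [← hws]; field_simp
    rw [hw', Derivation.leibniz, Derivation.leibniz_inv]
    refine M.add_mem (M.smul_mem ⟨(b : F), hbO⟩ ?_) (M.smul_mem ⟨(s : F)⁻¹, hsinv⟩ (hBM b b.2))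
    have : -(s : F)⁻¹ ^ 2 ∈ v.toValuationSubring := neg_mem (pow_mem hsinv 2)
    exact M.smul_mem ⟨_, this⟩ (hBM s s.2)
  -- Nakayama
  have hπ0 : (π : F) ≠ 0 := by
    simpa [ne_eq, ZeroMemClass.coe_eq_zero] using hπ.ne_zero
  have hπmem : π ∈ IsLocalRing.maximalIdeal v.toValuationSubring := by
    rw [IsLocalRing.mem_maximalIdeal, mem_nonunits_iff]
    exact hπ.not_isUnit
  have hstep : ∀ w : F, w ∈ v.toValuationSubring →
      D K F w ∈ Submodule.span v.toValuationSubring {D K F (π : F)} ⊔ IsLocalRing.maximalIdeal v.toValuationSubring • M := by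
    intro w hw
    obtain ⟨a, ha⟩ := hres w hw
    have hw1 : ∃ w₁ ∈ v.toValuationSubring, w = algebraMap K F a + (π : F) * w₁ := by
      rcases ha with ha | ha
      · exact ⟨0, v.toValuationSubring.zero_mem, by rw [ha]; simp⟩
      · refine ⟨(w - algebraMap K F a) * (π : F)⁻¹, mul_inv_mem_of_ord_pos v ha hπ, ?_⟩
        field_simp
        ring
    obtain ⟨w₁, hw₁, hw₁eq⟩ := hw1
    rw [hw₁eq, map_add, Derivation.map_algebraMap, zero_add, Derivation.leibniz, add_comm]
    refine Submodule.add_mem_sup ?_ ?_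
    · exact Submodule.smul_mem _ (⟨w₁, hw₁⟩ : v.toValuationSubring) (Submodule.subset_span rfl)
    · exact Submodule.smul_mem_smul hπmem (hOM w₁ hw₁)
  have hle : M ≤ Submodule.span v.toValuationSubring {D K F (π : F)} := by
    refine Submodule.le_of_le_smul_of_le_jacobson_bot hMfg
      (IsLocalRing.maximalIdeal_le_jacobson ⊥) ?_
    rw [Submodule.span_le]
    rintro _ ⟨g, hg, rfl⟩
    exact hstep g (hBO g (hG ▸ Algebra.subset_adjoin hg))
  obtain ⟨c, hc⟩ := Submodule.mem_span_singleton.mp (hle (hOM u hu))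
  exact ⟨(c : F), c.2, hc.symm⟩

end Key

end Diff

end Fermat.Agent.S24
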