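import Fermat.Agent.S24.Places
import Fermat.Agent.S24.DiffAux

/-!
# S24, WP-H2: differentials of a function field in one variable

`Ω[F⁄K]` is one-dimensional, spanned by `dx`; the differential of the chosen uniformizer at
every place generates; `ord_v(du) = ord_v(u) - 1` at zeros and poles of `u`.
-/

set_option autoImplicit false

namespace Fermat.Agent.S24

open AlgebraicCurve IntermediateField KaehlerDifferential
open scoped Polynomial RatFunc

variable {K F : Type*} [Field K] [IsAlgClosed K] [CharZero K] [Field F] [Algebra K F]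

/-- `Ω[F⁄K]` is spanned by `dx` -/
theorem span_D_eq_top (x : F) (hx : Transcendental K x) [FiniteDimensional K⟮x⟯ F] :
    Submodule.span F {D K F x} = ⊤ := by
  obtain ⟨φ, hφ⟩ := Diff.exists_kaehlerEquiv x hx
  rw [eq_top_iff]
  intro ω _
  rw [Submodule.mem_span_singleton]
  refine ⟨φ ω, φ.injective ?_⟩
  rw [map_smul, hφ, smul_eq_mul, mul_one]

theorem D_ne_zero (x : F) (hx : Transcendental K x) [FiniteDimensional K⟮x⟯ F] :
    D K F x ≠ 0 := by
  obtain ⟨φ, hφ⟩ := Diff.exists_kaehlerEquiv x hx
  intro h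
  rw [h, map_zero] at hφ
  exact zero_ne_one hφ

namespace Diff

omit [IsAlgClosed K] [CharZero K] in
/-- `v.dCoord` is the differential of an irreducible element of `O_v`. -/
theorem exists_irreducible_dCoord (v : Place K F) :
    ∃ π : v.toValuationSubring, Irreducible π ∧ v.dCoord = D K F (π : F) :=
  ⟨_, (IsDiscreteValuationRing.exists_irreducible v.toValuationSubring).choose_spec, rfl⟩

end Diff

/-- KEY: the derivative of an integral element w.r.t. the chosen uniformizer is integral -/
theorem exists_mem_D_eq_smul_dCoord (x : F) (hx : Transcendental K x) [FiniteDimensional K⟮x⟯ F]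
    (v : Place K F) (u : F) (hu : u ∈ v.toValuationSubring) :
    ∃ c ∈ v.toValuationSubring, D K F u = c • v.dCoord := by
  obtain ⟨π, hπ, hd⟩ := Diff.exists_irreducible_dCoord v
  obtain ⟨B, P, hfin, -, hO, hP⟩ := exists_localization_model x hx v
  rw [hd]
  exact Diff.key_aux v (fun w hw => exists_residue x hx v w hw) B P
    ((Subalgebra.fg_top B).mp hfin.out) hO hP π hπ u hu

theorem dCoordGenerates (x : F) (hx : Transcendental K x) [FiniteDimensional K⟮x⟯ F]
    (v : Place K F) : v.DCoordGenerates := by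
  obtain ⟨φ, hφ⟩ := Diff.exists_kaehlerEquiv x hx
  have hx0 : x ≠ 0 := fun h => hx (h ▸ isAlgebraic_zero)
  have hne : v.dCoord ≠ 0 := by
    intro h0
    have hall : ∀ u ∈ v.toValuationSubring, D K F u = 0 := by
      intro u hu
      obtain ⟨c, -, hc⟩ := exists_mem_D_eq_smul_dCoord x hx v u hu
      rw [hc, h0, smul_zero]
    rcases v.toValuationSubring.mem_or_inv_mem x with h | h
    · exact D_ne_zero x hx (hall x h)
    · have h1 := hall _ h
      rw [Derivation.leibniz_inv] at h1
      rcases smul_eq_zero.mp h1 with h' | h'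
      · exact hx0 (by simpa using h')
      · exact D_ne_zero x hx h'
  refine ⟨?_⟩
  rw [eq_top_iff]
  intro ω _
  rw [Submodule.mem_span_singleton]
  have hφd : φ v.dCoord ≠ 0 := fun h => hne (φ.injective (by rw [h, map_zero]))
  refine ⟨φ ω / φ v.dCoord, φ.injective ?_⟩
  rw [map_smul, smul_eq_mul, div_mul_cancel₀ _ hφd]

/-- order of `du` at a zero or pole of `u` -/
theorem ordDifferential_D (x : F) (hx : Transcendental K x) [FiniteDimensional K⟮x⟯ F]
    (v : Place K F) (u : F) (hu : v.ord u ≠ 0) :
    v.ordDifferential (D K F u) = v.ord u - 1 := by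
  haveI := dCoordGenerates x hx v
  haveI : Nontrivial Ω[F⁄K] := ⟨⟨D K F x, 0, D_ne_zero x hx⟩⟩
  obtain ⟨π, hπ, hd⟩ := Diff.exists_irreducible_dCoord v
  have hu0 : u ≠ 0 := by
    rintro rfl
    simp at hu
  obtain ⟨w, hw⟩ := v.exists_unit_mul_zpow hu0 hπ
  obtain ⟨c, hc, hDw⟩ := exists_mem_D_eq_smul_dCoord x hx v ((w : v.toValuationSubring) : F)
    (w : v.toValuationSubring).2
  have hπ0 : (π : F) ≠ 0 := by
    simpa [ne_eq, ZeroMemClass.coe_eq_zero] using hπ.ne_zero
  -- the unit part of the coefficient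
  have hk0 : ((v.ord u : ℤ) : K) ≠ 0 := Int.cast_ne_zero.mpr hu
  let g : v.toValuationSubring :=
    algebraMap K v.toValuationSubring ((v.ord u : ℤ) : K) * (w : v.toValuationSubring) +
      π * ⟨c, hc⟩
  have hg : IsUnit g := by
    by_contra hng
    have h1 : g ∈ IsLocalRing.maximalIdeal v.toValuationSubring := hng
    have h2 : π * ⟨c, hc⟩ ∈ IsLocalRing.maximalIdeal v.toValuationSubring :=
      Ideal.mul_mem_right _ _ hπ.not_isUnit
    have h3 : algebraMap K v.toValuationSubring ((v.ord u : ℤ) : K) * (w : v.toValuationSubring)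
        ∈ IsLocalRing.maximalIdeal v.toValuationSubring := by
      have := Ideal.sub_mem _ h1 h2
      simpa [g] using this
    exact h3 (((isUnit_iff_ne_zero.mpr hk0).map _).mul w.isUnit)
  have hgF : (g : F) = ((v.ord u : ℤ) : F) * ((w : v.toValuationSubring) : F) + (π : F) * c := by
    simp [g]
  have hordg : v.ord (g : F) = 0 := by
    have := v.ord_coe_unit hg.unit
    rwa [IsUnit.unit_spec] at this
  have hg0 : (g : F) ≠ 0 := by
    intro h
    exact hg.ne_zero (Subtype.ext h)
  have hDu : D K F u = ((π : F) ^ (v.ord u - 1) * (g : F)) • v.dCoord := by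
    conv_lhs => rw [hw]
    rw [Derivation.leibniz, hDw, Derivation.leibniz_zpow, ← hd, hgF,
      ← Int.cast_smul_eq_zsmul F, smul_smul, smul_smul, smul_smul, ← add_smul]
    congr 1
    have : (π : F) ^ v.ord u = (π : F) ^ (v.ord u - 1) * (π : F) := by
      rw [zpow_sub_one₀ hπ0, inv_mul_cancel_right₀ hπ0]
    rw [this]
    ring
  unfold Place.ordDifferential
  rw [v.differentialCoeff_unique hDu, v.ord_mul (zpow_ne_zero _ hπ0) hg0, hordg, v.ord_zpow,
    v.ord_coe_irreducible hπ]
  ring

end Fermat.Agent.S24
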