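import Mathlib
import Fermat.Prelude.Def_AlgebraicCurve_CanonicalDivisor
import Fermat.Prelude.Def_AlgebraicCurve_Repartitions
import Fermat.Agent.S24.Places
import Fermat.Agent.S24.Diff

set_option autoImplicit false
set_option linter.unusedSectionVars false

namespace Fermat.Agent.S24

open AlgebraicCurve IntermediateField KaehlerDifferential
open scoped Polynomial RatFunc

variable {K F : Type*} [Field K] [IsAlgClosed K] [CharZero K] [Field F] [Algebra K F]

namespace Hurwitz

/-- elements of nonnegative order are integral -/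
theorem mem_of_adicValuation_le_one (v : Place K F) {u : F} (hu : v.adicValuation u ≤ 1) :
    u ∈ v.toValuationSubring := by
  obtain ⟨r, hr⟩ := IsDedekindDomain.HeightOneSpectrum.mem_integers_of_valuation_le_one F u
    (fun w => by
      have hw : w = v.heightOneSpectrum := by
        ext1
        exact IsLocalRing.eq_maximalIdeal w.isMaximal
      rw [hw]; exact hu)
  rw [← hr]; exact r.2

theorem mem_of_ord_nonneg (v : Place K F) {u : F} (hu : 0 ≤ v.ord u) :
    u ∈ v.toValuationSubring :=
  mem_of_adicValuation_le_one v (v.adicValuation_le_one_iff.mpr (Or.inr hu))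

theorem ord_nonneg_of_mem (v : Place K F) {u : F} (hu : u ∈ v.toValuationSubring) :
    0 ≤ v.ord u := by
  rcases (v.adicValuation_le_one_iff (f := u)).mp (v.adicValuation_le_one_of_mem hu) with h | h
  · simp [h]
  · exact h

/-- nonzero constants have order zero -/
theorem ord_algebraMap (v : Place K F) (a : K) : v.ord (algebraMap K F a) = 0 := by
  rcases eq_or_ne a 0 with rfl | ha
  · simp
  have h1 := ord_nonneg_of_mem v (v.algebraMap_mem' a)
  have h2 := ord_nonneg_of_mem v (v.algebraMap_mem' a⁻¹)
  rw [map_inv₀, v.ord_inv] at h2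
  omega

theorem ord_pos_iff (v : Place K F) {u : F} (hu : u ≠ 0) :
    0 < v.ord u ↔ v.adicValuation u < 1 := by
  rw [v.adicValuation_eq_exp_neg_ord hu, ← WithZero.exp_zero, WithZero.exp_lt_exp]
  omega

/-- a positive-order element is nonzero -/
theorem ne_zero_of_ord_pos (v : Place K F) {u : F} (hu : 0 < v.ord u) : u ≠ 0 := by
  rintro rfl
  simp at hu

/-- the sum of two positive-order elements has positive order or vanishes -/
theorem ord_sub_pos (v : Place K F) {u w : F} (hu : 0 < v.ord u) (hw : 0 < v.ord w)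
    (h : u - w ≠ 0) : 0 < v.ord (u - w) := by
  rw [ord_pos_iff v h]
  rw [ord_pos_iff v (ne_zero_of_ord_pos v hu)] at hu
  rw [ord_pos_iff v (ne_zero_of_ord_pos v hw)] at hw
  exact Valuation.map_sub_lt _ hu hw

/-- algebraic elements are constants -/
theorem exists_algebraMap_eq_of_isAlgebraic (f : F) (hf : IsAlgebraic K f) :
    ∃ a : K, algebraMap K F a = f := by
  have hi : IsIntegral K f := hf.isIntegral
  have h : (minpoly K f).degree = 1 :=
    IsAlgClosed.degree_eq_one_of_irreducible K (minpoly.irreducible hi)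
  have hq : (minpoly K f).leadingCoeff = 1 := minpoly.monic hi
  have h0 : Polynomial.aeval f (minpoly K f) = 0 := minpoly.aeval K f
  rw [Polynomial.eq_X_add_C_of_degree_eq_one h, hq, Polynomial.C_1, one_mul, Polynomial.aeval_add,
    Polynomial.aeval_X, Polynomial.aeval_C, add_eq_zero_iff_eq_neg] at h0
  exact ⟨-(minpoly K f).coeff 0, (map_neg (algebraMap K F) _).symm ▸ h0.symm⟩

theorem transcendental_sub (x : F) (hx : Transcendental K x) (a : K) :
    Transcendental K (x - algebraMap K F a) := by
  intro h
  apply hx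
  have := h.add (isAlgebraic_algebraMap (R := K) (A := F) a)
  simpa using this

theorem transcendental_inv (x : F) (hx : Transcendental K x) : Transcendental K x⁻¹ := by
  intro h
  exact hx (IsAlgebraic.inv_iff.mp h)

theorem adjoin_sub (x : F) (a : K) : K⟮x - algebraMap K F a⟯ = K⟮x⟯ := by
  apply le_antisymm
  · rw [adjoin_simple_le_iff]
    exact sub_mem (mem_adjoin_simple_self K x) (IntermediateField.algebraMap_mem _ a)
  · rw [adjoin_simple_le_iff]
    have := add_mem (mem_adjoin_simple_self K (x - algebraMap K F a))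
      (IntermediateField.algebraMap_mem K⟮x - algebraMap K F a⟯ a)
    simpa using this

theorem adjoin_inv (x : F) : K⟮x⁻¹⟯ = K⟮x⟯ := by
  apply le_antisymm
  · rw [adjoin_simple_le_iff]
    exact inv_mem (mem_adjoin_simple_self K x)
  · rw [adjoin_simple_le_iff]
    have := inv_mem (mem_adjoin_simple_self K x⁻¹)
    simpa using this

theorem finrank_congr {L L' : IntermediateField K F} (h : L = L') :
    Module.finrank L F = Module.finrank L' F := by
  subst h; rfl

end Hurwitz

/-- principal divisors have degree zero, in the form needed -/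
theorem sum_ord_eq_zero (x : F) (hx : Transcendental K x) [FiniteDimensional K⟮x⟯ F]
    (f : F) (hf : f ≠ 0) :
    ∃ s : Finset (Place K F), (∀ v, v.ord f ≠ 0 → v ∈ s) ∧ ∑ v ∈ s, v.ord f = 0 := by
  by_cases hfa : IsAlgebraic K f
  · obtain ⟨a, rfl⟩ := Hurwitz.exists_algebraMap_eq_of_isAlgebraic f hfa
    exact ⟨∅, fun v hv => absurd (Hurwitz.ord_algebraMap v a) hv, by simp⟩
  · have hft : Transcendental K f := hfa
    have := finiteDimensional_of_transcendental x f hx hft
    have hfi : Transcendental K f⁻¹ := Hurwitz.transcendental_inv f hft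
    have := finiteDimensional_of_transcendental x f⁻¹ hx hfi
    obtain ⟨s₁, hs₁, hsum₁⟩ := exists_finset_zeros f hft
    obtain ⟨s₂, hs₂, hsum₂⟩ := exists_finset_zeros f⁻¹ hfi
    rw [Hurwitz.finrank_congr (Hurwitz.adjoin_inv f)] at hsum₂
    classical
    refine ⟨s₁ ∪ s₂, ?_, ?_⟩
    · intro v hv
      rw [Finset.mem_union, hs₁, hs₂, v.ord_inv]
      omega
    · rw [Finset.sum_union]
      · have : ∑ v ∈ s₂, v.ord f = - ∑ v ∈ s₂, v.ord f⁻¹ := by
          rw [← Finset.sum_neg_distrib]
          exact Finset.sum_congr rfl (fun v _ => by rw [v.ord_inv]; ring)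
        rw [this, hsum₁, hsum₂]; ring
      · rw [Finset.disjoint_left]
        intro v h1 h2
        rw [hs₁] at h1; rw [hs₂, v.ord_inv] at h2
        omega

/-- HURWITZ: degree of the divisor of any nonzero differential -/
theorem degree_eq (x : F) (hx : Transcendental K x) [FiniteDimensional K⟮x⟯ F]
    (S : Finset K)
    (hS : ∀ a : K, a ∉ S →
      Nat.card {v : Place K F // 0 < v.ord (x - algebraMap K F a)} = Module.finrank K⟮x⟯ F)
    (ω : Ω[F⁄K]) (hω : ω ≠ 0) (Dv : Divisor K F)
    (hD : ∀ v : Place K F, Dv v = v.ordDifferential ω) :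
    Divisor.degree Dv =
      -((Module.finrank K⟮x⟯ F : ℤ) + (Nat.card {v : Place K F // v.ord x < 0} : ℤ)) +
      ∑ a ∈ S, ((Module.finrank K⟮x⟯ F : ℤ) -
        (Nat.card {v : Place K F // 0 < v.ord (x - algebraMap K F a)} : ℤ)) := by
  classical
  set n : ℤ := (Module.finrank K⟮x⟯ F : ℤ) with hn
  have : Nontrivial Ω[F⁄K] := ⟨⟨D K F x, 0, D_ne_zero x hx⟩⟩
  -- ω = f • dx
  obtain ⟨f, hfω⟩ : ∃ f : F, f • D K F x = ω := by
    have : ω ∈ Submodule.span F {D K F x} := by rw [span_D_eq_top x hx]; trivial
    exact Submodule.mem_span_singleton.mp this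
  have hf : f ≠ 0 := by rintro rfl; exact hω (by rw [← hfω, zero_smul])
  -- local order of dx
  have hcoef : ∀ v : Place K F, v.differentialCoeff (D K F x) ≠ 0 := by
    intro v h
    have := dCoordGenerates x hx v
    have := v.differentialCoeff_smul_dCoord (D K F x)
    rw [h, zero_smul] at this
    exact D_ne_zero x hx this.symm
  have hDv : ∀ v : Place K F, Dv v = v.ord f + v.ordDifferential (D K F x) := by
    intro v
    have := dCoordGenerates x hx v
    rw [hD, ← hfω, v.ordDifferential_smul hf (hcoef v)]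
  -- zeros of x - a
  have hzeros : ∀ a : K, ∃ s : Finset (Place K F),
      (∀ v, v ∈ s ↔ 0 < v.ord (x - algebraMap K F a)) ∧
      ∑ v ∈ s, v.ord (x - algebraMap K F a) = n := by
    intro a
    have ht := Hurwitz.transcendental_sub x hx a
    have := finiteDimensional_of_transcendental x _ hx ht
    obtain ⟨s, hs, hsum⟩ := exists_finset_zeros _ ht
    rw [Hurwitz.finrank_congr (Hurwitz.adjoin_sub x a)] at hsum
    exact ⟨s, hs, hsum⟩
  choose sz hsz hszsum using hzeros
  -- poles of x
  obtain ⟨sp, hsp, hspsum⟩ : ∃ s : Finset (Place K F), (∀ v, v ∈ s ↔ v.ord x < 0) ∧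
      ∑ v ∈ s, v.ord x = -n := by
    have ht := Hurwitz.transcendental_inv x hx
    have := finiteDimensional_of_transcendental x _ hx ht
    obtain ⟨s, hs, hsum⟩ := exists_finset_zeros _ ht
    rw [Hurwitz.finrank_congr (Hurwitz.adjoin_inv x)] at hsum
    refine ⟨s, fun v => by rw [hs, v.ord_inv]; omega, ?_⟩
    rw [hn, ← hsum, ← Finset.sum_neg_distrib]
    exact Finset.sum_congr rfl (fun v _ => by rw [v.ord_inv]; ring)
  -- the order of dx
  have he_pole : ∀ v : Place K F, v.ord x < 0 →
      v.ordDifferential (D K F x) = v.ord x - 1 :=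
    fun v hv => ordDifferential_D x hx v x (ne_of_lt hv)
  have he_zero : ∀ (v : Place K F) (a : K), 0 < v.ord (x - algebraMap K F a) →
      v.ordDifferential (D K F x) = v.ord (x - algebraMap K F a) - 1 := by
    intro v a hv
    have := ordDifferential_D x hx v (x - algebraMap K F a) (ne_of_gt hv)
    rwa [map_sub, Derivation.map_algebraMap, sub_zero] at this
  have hcases : ∀ v : Place K F,
      v.ord x < 0 ∨ ∃ a : K, 0 < v.ord (x - algebraMap K F a) := by
    intro v
    by_cases h : v.ord x < 0
    · exact Or.inl h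
    · right
      obtain ⟨a, ha | ha⟩ := exists_residue x hx v x (Hurwitz.mem_of_ord_nonneg v (not_lt.mp h))
      · exact absurd (ha ▸ isAlgebraic_algebraMap a) hx
      · exact ⟨a, ha⟩
  -- unramified fibres
  have hunram : ∀ (v : Place K F) (a : K), a ∉ S → 0 < v.ord (x - algebraMap K F a) →
      v.ord (x - algebraMap K F a) = 1 := by
    intro v a haS hv
    have hcard : ((sz a).card : ℤ) = n := by
      rw [← Nat.subtype_card (sz a) (hsz a), hS a haS]
    have hsum0 : ∑ w ∈ sz a, (w.ord (x - algebraMap K F a) - 1) = 0 := by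
      rw [Finset.sum_sub_distrib, hszsum a]; simp [hcard]
    have := (Finset.sum_eq_zero_iff_of_nonneg (fun w hw => by
      have := (hsz a w).mp hw; omega)).mp hsum0 v ((hsz a v).mpr hv)
    omega
  obtain ⟨sf, hsf, hsfsum⟩ := sum_ord_eq_zero x hx f hf
  set U : Finset (Place K F) := sp ∪ S.biUnion sz with hU
  set T : Finset (Place K F) := Dv.support ∪ sf ∪ U with hT
  have hdeg : Divisor.degree Dv = ∑ v ∈ T, Dv v := by
    have h1 : Divisor.degree Dv = ∑ v ∈ Dv.support, Dv v := by
      simp only [Divisor.degree, Finsupp.liftAddHom_apply, Finsupp.sum]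
      refine Finset.sum_congr rfl (fun v _ => ?_)
      simp [place_deg_eq_one x hx v]
    rw [h1]
    apply Finset.sum_subset (by intro v hv; simp [hT, hv])
    intro v _ hv
    simpa using hv
  have hsumf : ∑ v ∈ T, v.ord f = 0 := by
    rw [← hsfsum]
    symm
    apply Finset.sum_subset (by intro v hv; simp [hT, hv])
    intro v _ hv
    by_contra h
    exact hv (hsf v h)
  have hsume : ∑ v ∈ T, v.ordDifferential (D K F x) =
      ∑ v ∈ U, v.ordDifferential (D K F x) := by
    symm
    apply Finset.sum_subset (by intro v hv; simp [hT, hv])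
    intro v _ hv
    rcases hcases v with h | ⟨a, ha⟩
    · exact absurd (by simp [hU, (hsp v).mpr h]) hv
    · by_cases haS : a ∈ S
      · exfalso
        apply hv
        rw [hU, Finset.mem_union, Finset.mem_biUnion]
        exact Or.inr ⟨a, haS, (hsz a v).mpr ha⟩
      · rw [he_zero v a ha, hunram v a haS ha]; ring
  have hdisj1 : Disjoint sp (S.biUnion sz) := by
    rw [Finset.disjoint_left]
    intro v h1 h2
    rw [hsp] at h1
    rw [Finset.mem_biUnion] at h2
    obtain ⟨a, -, ha⟩ := h2
    rw [hsz] at ha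
    have hxa : x - algebraMap K F a ∈ v.toValuationSubring := Hurwitz.mem_of_ord_nonneg v ha.le
    have hxm : x ∈ v.toValuationSubring := by
      have := add_mem hxa (v.algebraMap_mem' a)
      simpa using this
    have := Hurwitz.ord_nonneg_of_mem v hxm
    omega
  have hdisj2 : (S : Set K).PairwiseDisjoint sz := by
    intro a _ b _ hab
    rw [Function.onFun, Finset.disjoint_left]
    intro v h1 h2
    rw [hsz] at h1 h2
    have hne : (x - algebraMap K F a) - (x - algebraMap K F b) ≠ 0 := by
      rw [sub_sub_sub_cancel_left, sub_ne_zero]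
      exact fun h => hab ((algebraMap K F).injective h).symm
    have := Hurwitz.ord_sub_pos v h1 h2 hne
    rw [sub_sub_sub_cancel_left, ← map_sub, Hurwitz.ord_algebraMap] at this
    exact lt_irrefl _ this
  have hsp_sum : ∑ v ∈ sp, v.ordDifferential (D K F x) =
      -n - (Nat.card {v : Place K F // v.ord x < 0} : ℤ) := by
    rw [Finset.sum_congr rfl (fun v hv => he_pole v ((hsp v).mp hv)), Finset.sum_sub_distrib,
      hspsum, Nat.subtype_card sp hsp]
    simp
  have hsz_sum : ∀ a : K, ∑ v ∈ sz a, v.ordDifferential (D K F x) =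
      n - (Nat.card {v : Place K F // 0 < v.ord (x - algebraMap K F a)} : ℤ) := by
    intro a
    rw [Finset.sum_congr rfl (fun v hv => he_zero v a ((hsz a v).mp hv)), Finset.sum_sub_distrib,
      hszsum a, Nat.subtype_card (sz a) (hsz a)]
    simp
  rw [hdeg, Finset.sum_congr rfl (fun v _ => hDv v), Finset.sum_add_distrib, hsumf, hsume, hU,
    Finset.sum_union hdisj1, Finset.sum_biUnion hdisj2, hsp_sum,
    Finset.sum_congr rfl (fun a _ => hsz_sum a)]
  ring

/-- the genus in terms of the ramification data -/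
theorem genus_eq (x : F) (hx : Transcendental K x) [FiniteDimensional K⟮x⟯ F]
    [HasCanonicalDivisor (K := K) (F := F)] (S : Finset K)
    (hS : ∀ a : K, a ∉ S →
      Nat.card {v : Place K F // 0 < v.ord (x - algebraMap K F a)} = Module.finrank K⟮x⟯ F) :
    AlgebraicCurve.genus K F =
      (-((Module.finrank K⟮x⟯ F : ℤ) + (Nat.card {v : Place K F // v.ord x < 0} : ℤ)) +
        ∑ a ∈ S, ((Module.finrank K⟮x⟯ F : ℤ) -
          (Nat.card {v : Place K F // 0 < v.ord (x - algebraMap K F a)} : ℤ)) + 2).toNat / 2 := by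
  have hex : ∃ ω : Ω[F⁄K], ω ≠ 0 := ⟨D K F x, D_ne_zero x hx⟩
  unfold AlgebraicCurve.genus
  rw [dif_pos hex]
  rw [degree_eq x hx S hS _ hex.choose_spec _ (fun v => canonicalDivisorOf_apply hex.choose_spec v)]

end Fermat.Agent.S24
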