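import Mathlib
import Fermat.Agent.S21.Defs

/-!
# S24 WP-PAR: Riemann–Hurwitz parity for permutation triples

For a group `G` acting on a finite set `X` and `g h : G`, the number
`|X| + #orbits(g) + #orbits(h) + #orbits(g * h)` is even.  (The sign of a permutation `σ` of `X`
is `(-1) ^ (|X| + #orbits(σ))`, and the sign is multiplicative.)
-/

set_option autoImplicit false

namespace Fermat.Agent.S24

namespace Parity

open Equiv Equiv.Perm

/-- The orbit relation of `⟨σ⟩` is `SameCycle`. -/
theorem orbitRel_iff_sameCycle {X : Type} (σ : Perm X) (x y : X) :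
    (MulAction.orbitRel (Subgroup.zpowers σ) X) x y ↔ σ.SameCycle y x := by
  rw [MulAction.orbitRel_apply, MulAction.mem_orbit_iff]
  constructor
  · rintro ⟨⟨τ, hτ⟩, rfl⟩
    obtain ⟨n, rfl⟩ := Subgroup.mem_zpowers_iff.mp hτ
    exact ⟨n, rfl⟩
  · rintro ⟨n, hn⟩
    exact ⟨⟨σ ^ n, Subgroup.zpow_mem_zpowers σ n⟩, hn⟩

/-- The orbits of `⟨σ⟩` are the fixed points together with the nontrivial cycles. -/
theorem card_orbits_perm {X : Type} [Fintype X] [DecidableEq X] (σ : Perm X) :
    Nat.card (MulAction.orbitRel.Quotient (Subgroup.zpowers σ) X) =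
      Fintype.card (Function.fixedPoints σ) + σ.cycleFactorsFinset.card := by
  classical
  let F : X → (Function.fixedPoints σ) ⊕ σ.cycleFactorsFinset := fun x =>
    if h : σ x = x then Sum.inl ⟨x, h⟩
    else Sum.inr ⟨σ.cycleOf x, cycleOf_mem_cycleFactorsFinset_iff.mpr (mem_support.mpr h)⟩
  have hF : ∀ x y : X, (MulAction.orbitRel (Subgroup.zpowers σ) X) x y → F x = F y := by
    intro x y hxy
    rw [orbitRel_iff_sameCycle] at hxy
    by_cases hx : σ x = x
    · have hyx : y = x := hxy.eq_of_right hx
      rw [hyx]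
    · have hy : σ y ≠ y := fun hy => hx (hxy.apply_eq_self_iff.mp hy)
      simp only [F, hx, hy, dite_false]
      congr 2
      exact hxy.cycleOf_eq.symm
  let Φ : MulAction.orbitRel.Quotient (Subgroup.zpowers σ) X →
      (Function.fixedPoints σ) ⊕ σ.cycleFactorsFinset := Quotient.lift F hF
  have hbij : Function.Bijective Φ := by
    constructor
    · intro a b hab
      induction a using Quotient.inductionOn with
      | _ x =>
      induction b using Quotient.inductionOn with
      | _ y =>
      apply Quotient.sound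
      change (MulAction.orbitRel (Subgroup.zpowers σ) X) x y
      rw [orbitRel_iff_sameCycle]
      have hab' : F x = F y := hab
      by_cases hx : σ x = x
      · by_cases hy : σ y = y
        · simp only [F, hx, hy, dite_true, Sum.inl.injEq] at hab'
          have hxy : x = y := congrArg Subtype.val hab'
          rw [hxy]
        · simp [F, hx, hy] at hab'
      · by_cases hy : σ y = y
        · simp [F, hx, hy] at hab'
        · simp only [F, hx, hy, dite_false, Sum.inr.injEq, Subtype.mk.injEq] at hab'
          exact ((sameCycle_iff_cycleOf_eq_of_mem_support (mem_support.mpr hx)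
            (mem_support.mpr hy)).mpr hab').symm
    · rintro (⟨x, hx⟩ | ⟨c, hc⟩)
      · refine ⟨Quotient.mk _ x, ?_⟩
        have hx' : σ x = x := hx
        change F x = _
        simp [F, hx']
      · have hcyc : c.IsCycle := (mem_cycleFactorsFinset_iff.mp hc).1
        obtain ⟨a, ha⟩ := hcyc.nonempty_support
        have hca : c = σ.cycleOf a := cycle_is_cycleOf ha hc
        have haσ : σ a ≠ a := mem_support.mp (mem_cycleFactorsFinset_support_le hc ha)
        refine ⟨Quotient.mk _ a, ?_⟩
        change F a = _
        simp only [F, haσ, dite_false]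
        congr 2
        exact hca.symm
  rw [Nat.card_eq_of_bijective Φ hbij, Nat.card_eq_fintype_card, Fintype.card_sum,
    Fintype.card_coe]

/-- The sign of a permutation in terms of its number of orbits. -/
theorem sign_eq_neg_one_pow {X : Type} [Fintype X] [DecidableEq X] (σ : Perm X) :
    Perm.sign σ = (-1 : ℤˣ) ^
      (Fintype.card X + Nat.card (MulAction.orbitRel.Quotient (Subgroup.zpowers σ) X)) := by
  rw [card_orbits_perm, sign_of_cycleType, card_fixedPoints]
  have h1 : σ.cycleType.sum ≤ Fintype.card X := sum_cycleType_le σ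
  have h2 : Multiset.card σ.cycleType = σ.cycleFactorsFinset.card := by
    rw [cycleType_def, Multiset.card_map]
    rfl
  rw [h2]
  obtain ⟨d, hd⟩ := Nat.exists_eq_add_of_le h1
  have h3 : Fintype.card X + (Fintype.card X - σ.cycleType.sum + σ.cycleFactorsFinset.card) =
      (σ.cycleType.sum + σ.cycleFactorsFinset.card) + 2 * d := by
    omega
  rw [h3, pow_add _ (σ.cycleType.sum + σ.cycleFactorsFinset.card) (2 * d), pow_mul]
  simp

/-- The orbit relation of the cyclic group generated by `g` only depends on the permutation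
induced by `g`. -/
theorem orbitRel_zpowers_toPerm {G X : Type} [Group G] [MulAction G X] (g : G) :
    MulAction.orbitRel (Subgroup.zpowers (MulAction.toPerm g : Equiv.Perm X)) X =
      MulAction.orbitRel (Subgroup.zpowers g) X := by
  ext x y
  rw [MulAction.orbitRel_apply, MulAction.orbitRel_apply, MulAction.mem_orbit_iff,
    MulAction.mem_orbit_iff]
  constructor
  · rintro ⟨⟨σ, hσ⟩, rfl⟩
    obtain ⟨n, rfl⟩ := Subgroup.mem_zpowers_iff.mp hσ
    refine ⟨⟨g ^ n, Subgroup.zpow_mem_zpowers g n⟩, ?_⟩
    change g ^ n • y = ((MulAction.toPerm g : Equiv.Perm X) ^ n) y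
    rw [← MulAction.toPermHom_apply, ← map_zpow]
    rfl
  · rintro ⟨⟨h, hh⟩, rfl⟩
    obtain ⟨n, rfl⟩ := Subgroup.mem_zpowers_iff.mp hh
    refine ⟨⟨(MulAction.toPerm g : Equiv.Perm X) ^ n, Subgroup.zpow_mem_zpowers _ n⟩, ?_⟩
    change ((MulAction.toPerm g : Equiv.Perm X) ^ n) y = g ^ n • y
    rw [← MulAction.toPermHom_apply, ← map_zpow]
    rfl

theorem nOrb_eq_toPerm {G X : Type} [Group G] [MulAction G X] (g : G) :
    S21.nOrb X g = Nat.card
      (MulAction.orbitRel.Quotient (Subgroup.zpowers (MulAction.toPerm g : Equiv.Perm X)) X) := by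
  unfold S21.nOrb MulAction.orbitRel.Quotient
  rw [orbitRel_zpowers_toPerm]

/-- The sign of the permutation induced by `g` in terms of `nOrb`. -/
theorem sign_toPerm {G X : Type} [Group G] [MulAction G X] [Fintype X] [DecidableEq X] (g : G) :
    Perm.sign (MulAction.toPerm g : Equiv.Perm X) =
      (-1 : ℤˣ) ^ (Fintype.card X + S21.nOrb X g) := by
  rw [sign_eq_neg_one_pow, nOrb_eq_toPerm]

end Parity

/-- Riemann–Hurwitz parity for permutation triples. -/
theorem even_card_add_nOrb {G X : Type} [Group G] [MulAction G X] [Finite X] (g h : G) :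
    Even (Nat.card X + S21.nOrb X g + S21.nOrb X h + S21.nOrb X (g * h)) := by
  classical
  have : Fintype X := Fintype.ofFinite X
  have hmul : (MulAction.toPerm (g * h) : Equiv.Perm X) =
      MulAction.toPerm g * MulAction.toPerm h := by
    ext x
    simp [mul_smul]
  have h1 := Parity.sign_toPerm (X := X) (g * h)
  rw [hmul, map_mul, Parity.sign_toPerm, Parity.sign_toPerm, ← pow_add] at h1
  -- `(-1)^a = (-1)^b` in `ℤˣ` gives `a ≡ b mod 2`
  have h2 : Even ((Fintype.card X + S21.nOrb X g + (Fintype.card X + S21.nOrb X h)) +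
      (Fintype.card X + S21.nOrb X (g * h))) := by
    by_contra hodd
    rw [Nat.not_even_iff_odd] at hodd
    have h3 : (-1 : ℤˣ) ^ ((Fintype.card X + S21.nOrb X g + (Fintype.card X + S21.nOrb X h)) +
        (Fintype.card X + S21.nOrb X (g * h))) = 1 := by
      rw [pow_add, h1, ← pow_add, ← two_mul, pow_mul]
      simp
    rw [hodd.neg_one_pow] at h3
    exact absurd h3 (by decide)
  rw [Nat.card_eq_fintype_card]
  have h4 : (Fintype.card X + S21.nOrb X g + (Fintype.card X + S21.nOrb X h)) +
      (Fintype.card X + S21.nOrb X (g * h)) =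
      (Fintype.card X + S21.nOrb X g + S21.nOrb X h + S21.nOrb X (g * h)) +
        2 * Fintype.card X := by
    ring
  rw [h4] at h2
  exact (Nat.even_add.mp h2).mpr (even_two_mul _)

end Fermat.Agent.S24
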