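import Mathlib
import Fermat.Agent.S24.DescentSep
import Fermat.Agent.S24.JqExp

/-!
# Add-ons to `DescentSep` for `j(Nτ)`

`DescentSep.lean` (helper15) contains `jN`, `isWH_jN`, `isWH_jN_of_dvd`, `jN_comp_ne`.
This file only adds reformulations:

* `jN_conj_ne`: for `γ ∉ Γ₀(N)`, `¬ ∀ z, j(N γ z) = j(N z)`;
* `mem_Gamma0_of_jN_eq`, `jN_smul_eq_iff`: the translates of `jN N` separate the cosets of
  `Γ₀(N)` (the shape needed by `S20.cosetConj_injective_of_sep`);
* `jN_hasSum`: the `q`-expansion of `jN d`.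
-/

set_option autoImplicit false

open UpperHalfPlane hiding I
open Complex Filter Function
open scoped Manifold MatrixGroups ModularForm Topology

namespace Fermat.Agent.S24

open Fermat.Agent.S20 Fermat.Agent.S23.Sep

/-- For `γ ∉ Γ₀(N)` the function `z ↦ j(N γ z)` is not the function `z ↦ j(N z)`. -/
theorem jN_conj_ne (N : ℕ) [NeZero N] (γ : SL(2, ℤ)) (hγ : γ ∉ CongruenceSubgroup.Gamma0 N) :
    ¬ ∀ z : ℍ, jFun (dil N • γ • z) = jFun (dil N • z) :=
  fun h => jN_comp_ne N γ hγ (funext h)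

/-- If `j(N g z) = j(N z)` for all `z`, then `g ∈ Γ₀(N)`. -/
theorem mem_Gamma0_of_jN_eq (N : ℕ) [NeZero N] (g : SL(2, ℤ))
    (h : ∀ z : ℍ, jN N (g • z) = jN N z) : g ∈ CongruenceSubgroup.Gamma0 N := by
  by_contra hg
  exact jN_conj_ne N g hg h

/-- The `SL(2,ℤ)`-translates of `j(N z)` separate the cosets of `Γ₀(N)`. -/
theorem jN_smul_eq_iff (N : ℕ) [NeZero N] (g g' : SL(2, ℤ)) :
    (∀ z : ℍ, jN N (g • z) = jN N (g' • z)) ↔ g * g'⁻¹ ∈ CongruenceSubgroup.Gamma0 N := by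
  constructor
  · intro h
    apply mem_Gamma0_of_jN_eq
    intro z
    have := h (g'⁻¹ • z)
    rw [← mul_smul, ← mul_smul, mul_inv_cancel, one_smul] at this
    exact this
  · intro h z
    have := DescentSep.jN_smul_of_mem N _ h (g' • z)
    rw [← mul_smul, inv_mul_cancel_right] at this
    exact this

theorem jN_mem_WH (N : ℕ) [NeZero N] : jN N ∈ WH (CongruenceSubgroup.Gamma0 N) := isWH_jN N

theorem jd_mem_WH (N d : ℕ) [NeZero d] (hd : d ∣ N) :
    jN d ∈ WH (CongruenceSubgroup.Gamma0 N) := isWH_jN_of_dvd hd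

/-- The `q`-expansion of `j(d z)` has the coefficients of the Prelude Laurent series
`qExpand ℚ d jq` (after multiplication by `q ^ d`). -/
theorem jN_hasSum (d : ℕ) [NeZero d] (τ : ℍ) :
    HasSum (fun n : ℕ => (((ModularCurve.qExpand ℚ d ModularCurve.jq).coeff ((n : ℤ) - d) : ℚ) : ℂ)
      * Function.Periodic.qParam 1 τ ^ n)
      (Function.Periodic.qParam 1 τ ^ d * jN d τ) :=
  jq_hasSum d τ (dil d • τ) (coe_dil_smul d τ)

end Fermat.Agent.S24
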